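/-
Program J (S30), chapter J6.5, leaf (T10) — helper8.  For a commutative ring `S`, an ideal `I` with
`S` `I`-adically complete and `(p : S) ∈ I`: THE ring homomorphism `ℤ_[p] →+* S`
(`padicToComplete`), its uniqueness, and the resulting `Algebra ℤ_[p] S`.
-/
import Mathlib

set_option autoImplicit false

namespace Fermat.Agent.ES.J.PadicAlg8

variable (p : ℕ) [hp : Fact p.Prime]

section ZModHom

variable {A : Type*} [CommRing A]

/-- the ring homomorphism `ZMod m →+* A` when `(m : A) = 0`. -/
noncomputable def zmodHom (m : ℕ) (hm : (m : A) = 0) : ZMod m →+* A :=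
  (Ideal.Quotient.lift (Ideal.span {(m : ℤ)}) (Int.castRingHom A) (by
    intro a ha
    obtain ⟨b, rfl⟩ := Ideal.mem_span_singleton'.mp ha
    rw [map_mul, map_natCast, hm, mul_zero])).comp
    (Int.quotientSpanNatEquivZMod m).symm.toRingHom

/-- two ring homomorphisms out of `ℤ_[p]` into a ring killed by `p ^ n` agree. -/
theorem ringHom_ext_of_pow_eq_zero {n : ℕ} (hA : ((p : A)) ^ n = 0) (f g : ℤ_[p] →+* A) :
    f = g := by
  ext x
  have hx := PadicInt.appr_spec n x
  obtain ⟨y, hy⟩ := Ideal.mem_span_singleton'.mp hx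
  have hx' : x = (x.appr n : ℤ_[p]) + y * (p : ℤ_[p]) ^ n := by rw [hy]; ring
  rw [hx', map_add, map_add, map_mul, map_mul, map_pow, map_pow, map_natCast, map_natCast,
    map_natCast, map_natCast, hA, mul_zero, mul_zero]

end ZModHom

section Complete

variable {S : Type*} [CommRing S] (I : Ideal S) [IsAdicComplete I S] (hpI : (p : S) ∈ I)

omit hp [IsAdicComplete I S] in
include hpI in
theorem natCast_pow_quotient_eq_zero (n : ℕ) : ((p ^ n : ℕ) : S ⧸ I ^ n) = 0 := by
  have h1 : ((p ^ n : ℕ) : S ⧸ I ^ n) = Ideal.Quotient.mk (I ^ n) ((p : S) ^ n) := by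
    push_cast
    rfl
  rw [h1, Ideal.Quotient.eq_zero_iff_mem]
  exact Ideal.pow_mem_pow hpI n

/-- level `n`: `ℤ_[p] →+* S ⧸ I ^ n`. -/
noncomputable def padicToQuot (n : ℕ) : ℤ_[p] →+* S ⧸ I ^ n :=
  (zmodHom (p ^ n) (natCast_pow_quotient_eq_zero p I hpI n)).comp (PadicInt.toZModPow n)

omit [IsAdicComplete I S] in
theorem padicToQuot_compat {m n : ℕ} (hle : m ≤ n) :
    (Ideal.Quotient.factorPow I hle).comp (padicToQuot p I hpI n) = padicToQuot p I hpI m := by
  apply ringHom_ext_of_pow_eq_zero p (n := m)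
  have := natCast_pow_quotient_eq_zero p I hpI m
  push_cast at this
  exact this

/-- **(T10)**: the ring homomorphism `ℤ_[p] →+* S` for an `I`-adically complete ring `S` with
`p ∈ I`. -/
noncomputable def padicToComplete : ℤ_[p] →+* S :=
  IsAdicComplete.liftRingHom I (padicToQuot p I hpI) (fun hle => padicToQuot_compat p I hpI hle)

theorem mk_padicToComplete (n : ℕ) (x : ℤ_[p]) :
    Ideal.Quotient.mk (I ^ n) (padicToComplete p I hpI x) = padicToQuot p I hpI n x :=
  IsAdicComplete.mk_liftRingHom I _ (fun hle => padicToQuot_compat p I hpI hle) n x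

/-- uniqueness: any ring homomorphism `ℤ_[p] →+* S` is `padicToComplete`. -/
theorem eq_padicToComplete (F : ℤ_[p] →+* S) : F = padicToComplete p I hpI := by
  refine IsAdicComplete.eq_liftRingHom I _ (fun hle => padicToQuot_compat p I hpI hle) F ?_
  intro n
  apply ringHom_ext_of_pow_eq_zero p (n := n)
  have := natCast_pow_quotient_eq_zero p I hpI n
  push_cast at this
  exact this

/-- the `ℤ_[p]`-algebra structure of a complete ring with `p ∈ I` (a `def`, not an instance). -/
@[instance_reducible]
noncomputable def padicAlgebra : Algebra ℤ_[p] S := (padicToComplete p I hpI).toAlgebra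

end Complete

section Local

variable {S : Type*} [CommRing S] [IsLocalRing S]
  [IsAdicComplete (IsLocalRing.maximalIdeal S) S]
  (hpS : (p : S) ∈ IsLocalRing.maximalIdeal S)

/-- local form: `ℤ_[p] →+* S` for a complete local ring of residue characteristic `p`. -/
noncomputable def padicToLocal : ℤ_[p] →+* S :=
  padicToComplete p (IsLocalRing.maximalIdeal S) hpS

/-- `ℤ_[p] → S` is a local homomorphism. -/
theorem isLocalHom_padicToLocal : IsLocalHom (padicToLocal p hpS) := by
  constructor
  intro x hx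
  by_contra hnu
  have hxm : x ∈ IsLocalRing.maximalIdeal ℤ_[p] := (IsLocalRing.mem_maximalIdeal x).mpr hnu
  rw [PadicInt.maximalIdeal_eq_span_p] at hxm
  obtain ⟨y, rfl⟩ := Ideal.mem_span_singleton'.mp hxm
  rw [map_mul, map_natCast] at hx
  have : (p : S) ∈ nonunits S := hpS
  exact this (isUnit_of_mul_isUnit_right hx)

end Local

end Fermat.Agent.ES.J.PadicAlg8
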