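/-
Program J (S30), chapter J5/J6, helper8.  **The `p`-adic cyclotomic character of `G_ℚ`**
`cyclo p : (ℚbar ≃ₐ[ℚ] ℚbar) →* ℤ_[p]ˣ` (Mathlib's `cyclotomicCharacter`) and its four properties:

* `cyclo_complexConjugation` : `ε(c) = -1`;
* `cyclo_of_isFrobeniusAt`    : `ε(σ) = ℓ` for a Frobenius lift at `A | ℓ`, `ℓ ≠ p`;
* `cyclo_of_mem_inertia`      : `ε(τ) = 1` for `τ` in the inertia group at `A | q`, `q ≠ p`;
* `cyclo_sub_one_mem`         : `ε ≡ 1 mod p ^ k` on `G_{ℚ(μ_{p^k})}` (continuity);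

and the `𝒪`-valued version `cycloO` for a complete local ring `𝒪` with `p ∈ 𝔪`.
-/
import Mathlib
import Fermat.Prelude.Def_GaloisRep_ComplexConjugation
import Fermat.Prelude.Def_EllipticCurve_FrobeniusTrace
import Fermat.Prelude.Def_FLTPrelim_Ramification
import Fermat.Agent.S05.Inertia
import Fermat.Agent.ES.J.PadicAlg8

set_option autoImplicit false

noncomputable section

namespace Fermat.Agent.ES.J.CycloChar8

local notation "Qb" => AlgebraicClosure ℚ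

variable (p : ℕ) [hp : Fact p.Prime]

instance neZero_p_rat : NeZero (p : ℚ) := ⟨by exact_mod_cast hp.out.ne_zero⟩

/-- **The `p`-adic cyclotomic character** of `G_ℚ`. -/
def cyclo : (Qb ≃ₐ[ℚ] Qb) →* ℤ_[p]ˣ :=
  (cyclotomicCharacter Qb p).comp (MulSemiringAction.toRingAut (Qb ≃ₐ[ℚ] Qb) Qb)

theorem cyclo_spec (σ : Qb ≃ₐ[ℚ] Qb) {n : ℕ} (ζ : Qb) (hζ : ζ ^ p ^ n = 1) :
    σ ζ = ζ ^ ((cyclo p σ : ℤ_[p]).toZModPow n).val :=
  cyclotomicCharacter.spec p (MulSemiringAction.toRingAut (Qb ≃ₐ[ℚ] Qb) Qb σ) ζ hζ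

theorem exists_primitiveRoot (n : ℕ) : ∃ ζ : Qb, IsPrimitiveRoot ζ (p ^ n) :=
  HasEnoughRootsOfUnity.exists_primitiveRoot Qb (p ^ n)

omit hp in
theorem modEq_of_pow_eq_pow {ζ : Qb} {k : ℕ} (hζ : IsPrimitiveRoot ζ k) (hk : k ≠ 0) {a b : ℕ}
    (h : ζ ^ a = ζ ^ b) : a ≡ b [MOD k] := by
  have hu : IsPrimitiveRoot (hζ.isUnit hk).unit k := hζ.isUnit_unit hk
  have h1 : (hζ.isUnit hk).unit ^ a = (hζ.isUnit hk).unit ^ b := by
    apply Units.ext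
    simpa using h
  have := pow_eq_pow_iff_modEq.mp h1
  rwa [← hu.eq_orderOf] at this

/-- the character is determined on one primitive root at each level. -/
theorem toZModPow_cyclo {σ : Qb ≃ₐ[ℚ] Qb} {n : ℕ} {ζ : Qb} (hζ : IsPrimitiveRoot ζ (p ^ n))
    {m : ℕ} (h : σ ζ = ζ ^ m) : (cyclo p σ : ℤ_[p]).toZModPow n = (m : ZMod (p ^ n)) := by
  have h1 := cyclo_spec p σ ζ hζ.pow_eq_one
  rw [h] at h1
  have h2 : m ≡ ((cyclo p σ : ℤ_[p]).toZModPow n).val [MOD p ^ n] :=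
    modEq_of_pow_eq_pow hζ (pow_ne_zero _ hp.out.ne_zero) h1
  have h3 := (ZMod.natCast_eq_natCast_iff _ _ _).mpr h2
  rw [h3, ZMod.natCast_zmod_val]

theorem cyclo_eq_of_forall {σ : Qb ≃ₐ[ℚ] Qb} {x : ℤ_[p]}
    (h : ∀ n, (cyclo p σ : ℤ_[p]).toZModPow n = x.toZModPow n) : (cyclo p σ : ℤ_[p]) = x :=
  PadicInt.ext_of_toZModPow.mp h

/-! ### complex conjugation -/

theorem complexConjugation_rootOfUnity {m : ℕ} (hm : m ≠ 0) {ζ : Qb} (hζ : ζ ^ m = 1) :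
    complexConjugation ζ = ζ⁻¹ := by
  apply complexEmbedding.toRingHom.injective
  change complexEmbedding (complexConjugation ζ) = complexEmbedding ζ⁻¹
  rw [complexEmbedding_complexConjugation, map_inv₀]
  have h1 : (complexEmbedding ζ) ^ m = 1 := by rw [← map_pow, hζ, map_one]
  have h2 : ‖complexEmbedding ζ‖ = 1 := Complex.norm_eq_one_of_pow_eq_one h1 hm
  exact (Complex.inv_eq_conj h2).symm

/-- **`ε(c) = -1`.** -/
theorem cyclo_complexConjugation : (cyclo p complexConjugation : ℤ_[p]) = -1 := by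
  apply cyclo_eq_of_forall
  intro n
  obtain ⟨ζ, hζ⟩ := exists_primitiveRoot p n
  have hpn : p ^ n ≠ 0 := pow_ne_zero _ hp.out.ne_zero
  have h1 : complexConjugation ζ = ζ ^ (p ^ n - 1) := by
    rw [complexConjugation_rootOfUnity hpn hζ.pow_eq_one]
    have hζ0 : ζ ≠ 0 := hζ.ne_zero hpn
    rw [eq_comm, ← mul_right_inj' hζ0, mul_inv_cancel₀ hζ0, ← pow_succ',
      Nat.sub_add_cancel (Nat.one_le_iff_ne_zero.mpr hpn), hζ.pow_eq_one]
  rw [toZModPow_cyclo p hζ h1, map_neg, map_one,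
    Nat.cast_sub (Nat.one_le_iff_ne_zero.mpr hpn), Nat.cast_one]
  simp

/-! ### roots of unity of order prime to the residue characteristic are distinct modulo `𝔪_A` -/

section Reduction

variable {A : ValuationSubring Qb} {q : ℕ}

omit hp in
theorem valuation_eq_one_of_pow_eq_one {m : ℕ} (hm : m ≠ 0) {η : Qb} (hη : η ^ m = 1) :
    A.valuation η = 1 := by
  have h1 : A.valuation η ^ m = 1 := by rw [← map_pow, hη, map_one]
  exact (pow_eq_one_iff_of_nonneg zero_le hm).mp h1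

omit hp in
theorem mem_of_pow_eq_one {m : ℕ} (hm : m ≠ 0) {η : Qb} (hη : η ^ m = 1) : η ∈ A :=
  (ValuationSubring.valuation_le_one_iff A η).mp (valuation_eq_one_of_pow_eq_one hm hη).le

omit hp in
/-- `η ≡ 1 mod 𝔪_A`, `η ^ m = 1`, `q ∤ m` ⇒ `η = 1`. -/
theorem eq_one_of_sub_one_mem_nonunits (hq : q.Prime) (hA : A.LiesOverPrime q) {m : ℕ}
    (hm : ¬ q ∣ m) {η : Qb} (hη : η ^ m = 1) (h1 : η - 1 ∈ A.nonunits) : η = 1 := by
  by_contra hne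
  have hm0 : m ≠ 0 := fun h0 => hm (h0 ▸ dvd_zero q)
  have hv1 : A.valuation (η - 1) < 1 := (ValuationSubring.mem_nonunits_iff (A := A)).mp h1
  have hvη : A.valuation η = 1 := valuation_eq_one_of_pow_eq_one hm0 hη
  -- the geometric sum vanishes
  have hgeom : (∑ i ∈ Finset.range m, η ^ i) = 0 := by
    have h2 := geom_sum_mul η m
    rw [hη, sub_self] at h2
    exact (mul_eq_zero.mp h2).resolve_right (sub_ne_zero.mpr hne)
  -- each `η ^ i - 1` is in the maximal ideal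
  have hpow : ∀ i : ℕ, A.valuation (η ^ i - 1) < 1 := by
    intro i
    induction i with
    | zero => simp
    | succ i ih =>
      have e : η ^ (i + 1) - 1 = η * (η ^ i - 1) + (η - 1) := by ring
      rw [e]
      refine lt_of_le_of_lt (Valuation.map_add _ _ _) (max_lt ?_ hv1)
      rw [map_mul, hvη, one_mul]
      exact ih
  have hsum : A.valuation (∑ i ∈ Finset.range m, (η ^ i - 1)) < 1 :=
    Valuation.map_sum_lt _ one_ne_zero fun i _ => hpow i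
  rw [Finset.sum_sub_distrib, hgeom, zero_sub, Finset.sum_const, Finset.card_range,
    Valuation.map_neg, nsmul_eq_mul, mul_one] at hsum
  have := Fermat.Agent.S05.Inertia.valuation_natCast_eq_one hq hA hm
  exact absurd this hsum.ne

end Reduction

/-! ### Frobenius lifts -/

omit hp in
/-- a Frobenius lift acts as the `ℓ`-th power modulo `𝔪_A`. -/
theorem frob_apply_sub_pow_mem_nonunits {A : ValuationSubring Qb} {ℓ : ℕ} {σ : Qb ≃ₐ[ℚ] Qb}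
    (hσ : A.IsFrobeniusAt σ ℓ) {x : Qb} (hx : x ∈ A) : σ x - x ^ ℓ ∈ A.nonunits := by
  have h1 := hσ.smul_residue_eq (IsLocalRing.residue A ⟨x, hx⟩)
  rw [← IsLocalRing.ResidueField.residue_smul, ← map_pow, ← sub_eq_zero, ← map_sub,
    IsLocalRing.residue_eq_zero_iff] at h1
  have h2 : (((⟨σ, hσ.mem_decompositionSubgroup⟩ : A.decompositionSubgroup ℚ) • (⟨x, hx⟩ : A) -
      ⟨x, hx⟩ ^ ℓ : A) : Qb) = σ x - x ^ ℓ := rfl
  rw [← h2]
  exact ValuationSubring.mem_nonunits_iff_exists_mem_maximalIdeal.mpr ⟨_, h1⟩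

/-- **`ε(σ) = ℓ`** for a Frobenius lift at `A | ℓ`, `ℓ ≠ p`. -/
theorem cyclo_of_isFrobeniusAt {ℓ : ℕ} (hℓ : ℓ.Prime) (hℓp : ℓ ≠ p) (A : ValuationSubring Qb)
    (hA : A.LiesOverPrime ℓ) {σ : Qb ≃ₐ[ℚ] Qb} (hσ : A.IsFrobeniusAt σ ℓ) :
    (cyclo p σ : ℤ_[p]) = (ℓ : ℤ_[p]) := by
  apply cyclo_eq_of_forall
  intro n
  obtain ⟨ζ, hζ⟩ := exists_primitiveRoot p n
  have hpn : p ^ n ≠ 0 := pow_ne_zero _ hp.out.ne_zero
  have hζ0 : ζ ≠ 0 := hζ.ne_zero hpn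
  have hζA : ζ ∈ A := mem_of_pow_eq_one hpn hζ.pow_eq_one
  have hℓpn : ¬ ℓ ∣ p ^ n := fun h =>
    hℓp ((Nat.prime_dvd_prime_iff_eq hℓ hp.out).mp (hℓ.dvd_of_dvd_pow h))
  have h1 := frob_apply_sub_pow_mem_nonunits hσ hζA
  -- `η := σ ζ / ζ ^ ℓ`
  have hσζ : (σ ζ) ^ p ^ n = 1 := by rw [← map_pow, hζ.pow_eq_one, map_one]
  have hη : (σ ζ * (ζ ^ ℓ)⁻¹) ^ p ^ n = 1 := by
    rw [mul_pow, hσζ, inv_pow, ← pow_mul, mul_comm ℓ, pow_mul, hζ.pow_eq_one, one_pow, inv_one,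
      mul_one]
  have hvinv : A.valuation ((ζ ^ ℓ)⁻¹) = 1 := by
    rw [map_inv₀, map_pow, valuation_eq_one_of_pow_eq_one hpn hζ.pow_eq_one, one_pow, inv_one]
  have hη1 : σ ζ * (ζ ^ ℓ)⁻¹ - 1 ∈ A.nonunits := by
    have e : σ ζ * (ζ ^ ℓ)⁻¹ - 1 = (σ ζ - ζ ^ ℓ) * (ζ ^ ℓ)⁻¹ := by
      rw [sub_mul, mul_inv_cancel₀ (pow_ne_zero _ hζ0)]
    rw [e, ValuationSubring.mem_nonunits_iff, map_mul, hvinv, mul_one]
    exact (ValuationSubring.mem_nonunits_iff (A := A)).mp h1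
  have h2 := eq_one_of_sub_one_mem_nonunits hℓ hA hℓpn hη hη1
  have h3 : σ ζ = ζ ^ ℓ := by
    have := congrArg (· * ζ ^ ℓ) h2
    simpa [mul_assoc, inv_mul_cancel₀ (pow_ne_zero ℓ hζ0)] using this
  rw [toZModPow_cyclo p hζ h3, map_natCast]

/-! ### inertia -/

/-- **`ε(τ) = 1`** on the inertia group at `A | q`, `q ≠ p`. -/
theorem cyclo_of_mem_inertia {q : ℕ} (hq : q.Prime) (hqp : q ≠ p) (A : ValuationSubring Qb)
    (hA : A.LiesOverPrime q) {τ : Qb ≃ₐ[ℚ] Qb} (hτ : τ ∈ A.inertiaSubgroupIn ℚ) :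
    cyclo p τ = 1 := by
  apply Units.ext
  rw [Units.val_one]
  apply cyclo_eq_of_forall
  intro n
  obtain ⟨ζ, hζ⟩ := exists_primitiveRoot p n
  have hpn : p ^ n ≠ 0 := pow_ne_zero _ hp.out.ne_zero
  have hζ0 : ζ ≠ 0 := hζ.ne_zero hpn
  have hζA : ζ ∈ A := mem_of_pow_eq_one hpn hζ.pow_eq_one
  have hqpn : ¬ q ∣ p ^ n := fun h =>
    hqp ((Nat.prime_dvd_prime_iff_eq hq hp.out).mp (hq.dvd_of_dvd_pow h))
  have h1 := Fermat.Agent.S05.Inertia.apply_sub_mem_nonunits hτ hζA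
  have hτζ : (τ ζ) ^ p ^ n = 1 := by rw [← map_pow, hζ.pow_eq_one, map_one]
  have hη : (τ ζ * ζ⁻¹) ^ p ^ n = 1 := by
    rw [mul_pow, hτζ, inv_pow, hζ.pow_eq_one, inv_one, mul_one]
  have hvinv : A.valuation (ζ⁻¹) = 1 := by
    rw [map_inv₀, valuation_eq_one_of_pow_eq_one hpn hζ.pow_eq_one, inv_one]
  have hη1 : τ ζ * ζ⁻¹ - 1 ∈ A.nonunits := by
    have e : τ ζ * ζ⁻¹ - 1 = (τ ζ - ζ) * ζ⁻¹ := by
      rw [sub_mul, mul_inv_cancel₀ hζ0]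
    rw [e, ValuationSubring.mem_nonunits_iff, map_mul, hvinv, mul_one]
    exact (ValuationSubring.mem_nonunits_iff (A := A)).mp h1
  have h2 := eq_one_of_sub_one_mem_nonunits hq hA hqpn hη hη1
  have h3 : τ ζ = ζ ^ 1 := by
    have := congrArg (· * ζ) h2
    simpa [mul_assoc, inv_mul_cancel₀ hζ0] using this
  rw [toZModPow_cyclo p hζ h3, map_one, Nat.cast_one]

/-! ### continuity -/

/-- **continuity**: `ε ≡ 1 mod p ^ k` on the absolute Galois group of `ℚ(μ_{p^k})`. -/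
theorem cyclo_sub_one_mem (k : ℕ) :
    ∃ L : IntermediateField ℚ Qb, FiniteDimensional ℚ L ∧
      ∀ σ : Qb ≃ₐ[ℚ] Qb, (∀ x ∈ L, σ x = x) →
        (cyclo p σ : ℤ_[p]) - 1 ∈ Ideal.span {(p : ℤ_[p]) ^ k} := by
  obtain ⟨ζ, hζ⟩ := exists_primitiveRoot p k
  have hpk : p ^ k ≠ 0 := pow_ne_zero _ hp.out.ne_zero
  refine ⟨IntermediateField.adjoin ℚ {ζ},
    IntermediateField.adjoin.finiteDimensional
      ((hζ.isIntegral (Nat.pos_of_ne_zero hpk)).tower_top), ?_⟩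
  intro σ hσ
  have h3 : σ ζ = ζ ^ 1 := by
    rw [pow_one]
    exact hσ ζ (IntermediateField.mem_adjoin_simple_self ℚ ζ)
  rw [← PadicInt.ker_toZModPow, RingHom.mem_ker, map_sub, map_one, toZModPow_cyclo p hζ h3,
    Nat.cast_one, sub_self]

/-! ### the `𝒪`-valued character -/

section Coeff

variable {𝒪 : Type*} [CommRing 𝒪] [IsLocalRing 𝒪] [IsAdicComplete (IsLocalRing.maximalIdeal 𝒪) 𝒪]
  (hp𝒪 : (p : 𝒪) ∈ IsLocalRing.maximalIdeal 𝒪)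

/-- the cyclotomic character with values in a complete local ring `𝒪` with `p ∈ 𝔪`. -/
def cycloO : (Qb ≃ₐ[ℚ] Qb) →* 𝒪ˣ :=
  (Units.map (PadicAlg8.padicToLocal p hp𝒪 : ℤ_[p] →* 𝒪)).comp (cyclo p)

theorem coe_cycloO (σ : Qb ≃ₐ[ℚ] Qb) :
    (cycloO p hp𝒪 σ : 𝒪) = PadicAlg8.padicToLocal p hp𝒪 (cyclo p σ : ℤ_[p]) := rfl

theorem cycloO_complexConjugation : (cycloO p hp𝒪 complexConjugation : 𝒪) = -1 := by
  rw [coe_cycloO, cyclo_complexConjugation, map_neg, map_one]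

theorem cycloO_of_isFrobeniusAt {ℓ : ℕ} (hℓ : ℓ.Prime) (hℓp : ℓ ≠ p) (A : ValuationSubring Qb)
    (hA : A.LiesOverPrime ℓ) {σ : Qb ≃ₐ[ℚ] Qb} (hσ : A.IsFrobeniusAt σ ℓ) :
    (cycloO p hp𝒪 σ : 𝒪) = (ℓ : 𝒪) := by
  rw [coe_cycloO, cyclo_of_isFrobeniusAt p hℓ hℓp A hA hσ, map_natCast]

theorem cycloO_of_mem_inertia {q : ℕ} (hq : q.Prime) (hqp : q ≠ p) (A : ValuationSubring Qb)
    (hA : A.LiesOverPrime q) {τ : Qb ≃ₐ[ℚ] Qb} (hτ : τ ∈ A.inertiaSubgroupIn ℚ) :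
    cycloO p hp𝒪 τ = 1 := by
  rw [cycloO, MonoidHom.comp_apply, cyclo_of_mem_inertia p hq hqp A hA hτ, map_one]

theorem cycloO_sub_one_mem (k : ℕ) :
    ∃ L : IntermediateField ℚ Qb, FiniteDimensional ℚ L ∧
      ∀ σ : Qb ≃ₐ[ℚ] Qb, (∀ x ∈ L, σ x = x) →
        (cycloO p hp𝒪 σ : 𝒪) - 1 ∈ IsLocalRing.maximalIdeal 𝒪 ^ k := by
  obtain ⟨L, hL, h⟩ := cyclo_sub_one_mem p k
  refine ⟨L, hL, fun σ hσ => ?_⟩
  obtain ⟨y, hy⟩ := Ideal.mem_span_singleton'.mp (h σ hσ)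
  have e : (cycloO p hp𝒪 σ : 𝒪) - 1 = PadicAlg8.padicToLocal p hp𝒪 y * (p : 𝒪) ^ k := by
    rw [coe_cycloO, ← map_one (PadicAlg8.padicToLocal p hp𝒪), ← map_sub, ← hy, map_mul, map_pow,
      map_natCast]
  rw [e]
  exact Ideal.mul_mem_left _ _ (Ideal.pow_mem_pow hp𝒪 k)

end Coeff

end Fermat.Agent.ES.J.CycloChar8
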