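/-
Program J (S30), helper8: **base change of a representation and the eigen-sublattice** (generic).

`R` a commutative ring, `𝒪` a principal ideal domain with an `R`-algebra structure, `T` a finite
free `R`-module with a representation `ρ : G →* End R T` and commuting operators `t i : End R T`.
On `Λ₀ := 𝒪 ⊗[R] T` we have `bcRep ρ g = (ρ g).baseChange 𝒪` and `(t i).baseChange 𝒪`.  For scalars
`c i : 𝒪` the eigen-submodule `eigenSub t c = ⨅ i, ker ((t i).baseChange 𝒪 - c i • 1)` is saturated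
and stable; if it contains a nonzero vector, `exists_eigenRep` returns a nonzero finite free
`𝒪`-module with a `G`-action inheriting congruences, triviality and quadratic relations.
-/
import Mathlib
import Fermat.Agent.ES.ALG.RankTwo9
import Fermat.Agent.ES.ALG.RelDense9

set_option autoImplicit false
set_option linter.unusedSectionVars false

open TensorProduct

noncomputable section

namespace Fermat.Agent.ES.J.BaseChangeRep8

open Fermat.Agent.ES.ALG.RelDense9 Fermat.Agent.ES.ALG.RankTwo9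

section BaseChange

variable {R : Type} [CommRing R] {𝒪 : Type} [CommRing 𝒪] [Algebra R 𝒪]
variable {T : Type} [AddCommGroup T] [Module R T]
variable {G : Type*} [Group G]

/-- The base change of a representation. -/
def bcRep (ρ : G →* Module.End R T) : G →* Module.End 𝒪 (𝒪 ⊗[R] T) :=
  ((Module.End.baseChangeHom R 𝒪 T : Module.End R T →* Module.End 𝒪 (𝒪 ⊗[R] T))).comp ρ

@[simp]
theorem bcRep_apply (ρ : G →* Module.End R T) (g : G) :
    bcRep (𝒪 := 𝒪) ρ g = (ρ g).baseChange 𝒪 := rfl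

/-- congruences pass to the base change. -/
theorem endCongr_baseChange (I : Ideal 𝒪) (f : Module.End R T) (r : R)
    (hr : algebraMap R 𝒪 r ∈ I) (hf : ∀ x, ∃ y, f x - x = r • y) :
    EndCongr I (f.baseChange 𝒪) (1 : Module.End 𝒪 (𝒪 ⊗[R] T)) := by
  intro v
  induction v using TensorProduct.induction_on with
  | zero => simp
  | tmul a x =>
    obtain ⟨y, hy⟩ := hf x
    have e : (f.baseChange 𝒪) (a ⊗ₜ[R] x) - (1 : Module.End 𝒪 (𝒪 ⊗[R] T)) (a ⊗ₜ[R] x) =
        algebraMap R 𝒪 r • (a ⊗ₜ[R] y) := by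
      rw [LinearMap.baseChange_tmul, Module.End.one_apply, ← TensorProduct.tmul_sub, hy,
        TensorProduct.tmul_smul, algebraMap_smul]
    rw [e]
    exact Submodule.smul_mem_smul hr Submodule.mem_top
  | add x y hx hy =>
    have e : (f.baseChange 𝒪) (x + y) - (1 : Module.End 𝒪 (𝒪 ⊗[R] T)) (x + y) =
        ((f.baseChange 𝒪) x - (1 : Module.End 𝒪 (𝒪 ⊗[R] T)) x) +
        ((f.baseChange 𝒪) y - (1 : Module.End 𝒪 (𝒪 ⊗[R] T)) y) := by
      rw [map_add, map_add]; abel
    rw [e]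
    exact Submodule.add_mem _ hx hy

end BaseChange

section Eigen

variable {𝒪 : Type} [CommRing 𝒪] [IsDomain 𝒪] [IsPrincipalIdealRing 𝒪]
variable {Λ : Type} [AddCommGroup Λ] [Module 𝒪 Λ] [Module.Free 𝒪 Λ] [Module.Finite 𝒪 Λ]
variable {G : Type*} [Group G] {ι : Type*}

/-- The simultaneous eigen-submodule. -/
def eigenSub (t : ι → Module.End 𝒪 Λ) (c : ι → 𝒪) : Submodule 𝒪 Λ :=
  ⨅ i, LinearMap.ker (t i - c i • (1 : Module.End 𝒪 Λ))

theorem mem_eigenSub {t : ι → Module.End 𝒪 Λ} {c : ι → 𝒪} {v : Λ} :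
    v ∈ eigenSub t c ↔ ∀ i, t i v = c i • v := by
  simp only [eigenSub, Submodule.mem_iInf, LinearMap.mem_ker, LinearMap.sub_apply,
    LinearMap.smul_apply, Module.End.one_apply, sub_eq_zero]

theorem saturated_eigenSub (t : ι → Module.End 𝒪 Λ) (c : ι → 𝒪) : Saturated (eigenSub t c) := by
  intro s v hs hv
  rw [mem_eigenSub] at hv ⊢
  intro i
  have h := hv i
  rw [map_smul, smul_comm (c i) s v] at h
  exact smul_right_injective Λ hs h

theorem stable_eigenSub (ρ : G →* Module.End 𝒪 Λ) (t : ι → Module.End 𝒪 Λ) (c : ι → 𝒪)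
    (hcomm : ∀ g i, Commute (ρ g) (t i)) : Stable ρ (eigenSub t c) := by
  intro g v hv
  rw [mem_eigenSub] at hv ⊢
  intro i
  have h : t i (ρ g v) = ρ g (t i v) := by
    have := congrArg (fun F : Module.End 𝒪 Λ => F v) (hcomm g i).eq
    simpa [Module.End.mul_apply] using this.symm
  rw [h, hv i, map_smul]

/-- The eigen-sublattice with its representation. -/
theorem exists_eigenSubRep (ρ : G →* Module.End 𝒪 Λ) (t : ι → Module.End 𝒪 Λ) (c : ι → 𝒪)
    (hcomm : ∀ g i, Commute (ρ g) (t i)) (w : Λ) (hw0 : w ≠ 0) (hw : ∀ i, t i w = c i • w) :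
    ∃ (Λ' : Type) (_ : AddCommGroup Λ') (_ : Module 𝒪 Λ') (_ : Module.Free 𝒪 Λ')
      (_ : Module.Finite 𝒪 Λ') (_ : Nontrivial Λ') (ρ' : G →* Module.End 𝒪 Λ'),
      (∀ (I : Ideal 𝒪) (g : G), EndCongr I (ρ g) 1 → EndCongr I (ρ' g) 1) ∧
      (∀ g, ρ g = 1 → ρ' g = 1) ∧
      (∀ (g : G) (i : ι) (n : 𝒪), ρ g * ρ g - t i * ρ g + n • (1 : Module.End 𝒪 Λ) = 0 →
        ρ' g * ρ' g - c i • ρ' g + n • (1 : Module.End 𝒪 Λ') = 0) := by
  have hsat := saturated_eigenSub t c
  have hst := stable_eigenSub ρ t c hcomm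
  have hwmem : w ∈ eigenSub t c := mem_eigenSub.mpr hw
  have hnt : Nontrivial (eigenSub t c) :=
    ⟨⟨⟨w, hwmem⟩, 0, fun h => hw0 (congrArg Subtype.val h)⟩⟩
  refine ⟨eigenSub t c, inferInstance, inferInstance, inferInstance, inferInstance, hnt,
    restrictRep ρ (eigenSub t c) hst, ?_, ?_, ?_⟩
  · intro I g h
    exact endCongr_restrictRep hsat hst I g h
  · intro g hg
    ext v
    simp [hg]
  · intro g i n h
    ext v
    have hv := mem_eigenSub.mp v.2
    have hρv : ρ g (v : Λ) ∈ eigenSub t c := hst g v v.2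
    have h1 := congrArg (fun F : Module.End 𝒪 Λ => F (v : Λ)) h
    simp only [LinearMap.add_apply, LinearMap.sub_apply, Module.End.mul_apply,
      LinearMap.smul_apply, Module.End.one_apply, LinearMap.zero_apply] at h1
    rw [mem_eigenSub.mp hρv i] at h1
    simpa using h1

end Eigen

section Main

variable {R : Type} [CommRing R] {𝒪 : Type} [CommRing 𝒪] [IsDomain 𝒪] [IsPrincipalIdealRing 𝒪]
  [Algebra R 𝒪]
variable {T : Type} [AddCommGroup T] [Module R T] [Module.Free R T] [Module.Finite R T]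
variable {G : Type*} [Group G] {ι : Type*}

/-- **Main (generic)**: from a nonzero simultaneous eigenvector in `𝒪 ⊗[R] T`, a nonzero finite free
`𝒪`-module with a `G`-action inheriting congruences, triviality and quadratic relations. -/
theorem exists_eigenRep (ρ : G →* Module.End R T) (t : ι → Module.End R T)
    (hcomm : ∀ g i, Commute (ρ g) (t i)) (c : ι → 𝒪) (w : 𝒪 ⊗[R] T) (hw0 : w ≠ 0)
    (hw : ∀ i, (t i).baseChange 𝒪 w = c i • w) :
    ∃ (Λ' : Type) (_ : AddCommGroup Λ') (_ : Module 𝒪 Λ') (_ : Module.Free 𝒪 Λ')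
      (_ : Module.Finite 𝒪 Λ') (_ : Nontrivial Λ') (ρ' : G →* Module.End 𝒪 Λ'),
      (∀ (I : Ideal 𝒪) (g : G) (r : R), algebraMap R 𝒪 r ∈ I → (∀ x, ∃ y, ρ g x - x = r • y) →
        EndCongr I (ρ' g) 1) ∧
      (∀ g, ρ g = 1 → ρ' g = 1) ∧
      (∀ (g : G) (i : ι) (n : R), ρ g * ρ g - t i * ρ g + n • (1 : Module.End R T) = 0 →
        ρ' g * ρ' g - c i • ρ' g + algebraMap R 𝒪 n • (1 : Module.End 𝒪 Λ') = 0) := by
  have hcomm' : ∀ g i, Commute (bcRep (𝒪 := 𝒪) ρ g) ((t i).baseChange 𝒪) := by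
    intro g i
    have := (hcomm g i).map (Module.End.baseChangeHom R 𝒪 T)
    exact this
  obtain ⟨Λ', i1, i2, i3, i4, i5, ρ', h1, h2, h3⟩ :=
    exists_eigenSubRep (bcRep (𝒪 := 𝒪) ρ) (fun i => (t i).baseChange 𝒪) c hcomm' w hw0 hw
  refine ⟨Λ', i1, i2, i3, i4, i5, ρ', ?_, ?_, ?_⟩
  · intro I g r hr hf
    exact h1 I g (endCongr_baseChange I (ρ g) r hr hf)
  · intro g hg
    apply h2
    rw [bcRep_apply, hg, LinearMap.baseChange_one]
  · intro g i n h
    apply h3 g i (algebraMap R 𝒪 n)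
    have := congrArg (fun F : Module.End R T => F.baseChange 𝒪) h
    simp only [LinearMap.baseChange_add, LinearMap.baseChange_sub, LinearMap.baseChange_mul,
      LinearMap.baseChange_smul, LinearMap.baseChange_one, LinearMap.baseChange_zero] at this
    rw [bcRep_apply, algebraMap_smul]
    exact this

end Main

end Fermat.Agent.ES.J.BaseChangeRep8
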