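/-
Program J (S30), chapter J6, helper13: the abstract `p`-adic Tate module of an abelian group.

For an abelian group `J` and a prime `p`:
* `TateModule p J` : compatible sequences `x : ℕ → J`, `x 0 = 0`, `p • x (k+1) = x k`
  (so `x k ∈ J[p^k]`), an additive subgroup of `ℕ → J`;
* `Module ℤ_[p] (TateModule p J)` : `(a • x) k = (toZModPow k a).val • x k`;
* `proj k : TateModule p J →+ J`, `pow_smul_proj`, `proj_succ`;
* `proj_eq_zero_iff` : `proj k x = 0 ↔ ∃ y, x = (p^k : ℤ_[p]) • y` (no surjectivity needed);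
* `eq_zero_of_p_smul`, torsion-freeness, `⋂ p^k T = 0`;
* `map f` for `f : J →+ J` (`ℤ_[p]`-linear), `map_id`, `map_comp`, `proj_map`;
* `rho : G →* Module.End ℤ_[p] (TateModule p J)` for `[DistribMulAction G J]`;
* transfer lemmas: congruences mod `p^k` and polynomial identities pass from torsion to the Tate
  module.
-/
import Mathlib

set_option autoImplicit false
set_option linter.unusedSectionVars false

noncomputable section

namespace Fermat.Agent.ES.J.TateModule13

variable (p : ℕ) [hp : Fact p.Prime] (J : Type*) [AddCommGroup J]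

/-! ### scalars: the natural number `cf a k` representing `a mod p^k` -/

/-- the representative in `[0, p^k)` of `a mod p^k`. -/
def cf (a : ℤ_[p]) (k : ℕ) : ℕ := (PadicInt.toZModPow k a).val

instance neZero_pow (k : ℕ) : NeZero (p ^ k) := ⟨pow_ne_zero k hp.out.ne_zero⟩

theorem natCast_cf (a : ℤ_[p]) (k : ℕ) : ((cf p a k : ℕ) : ZMod (p ^ k)) = PadicInt.toZModPow k a :=
  ZMod.natCast_zmod_val _

theorem cf_modEq_iff (a : ℤ_[p]) (k n : ℕ) :
    cf p a k ≡ n [MOD p ^ k] ↔ PadicInt.toZModPow k a = (n : ZMod (p ^ k)) := by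
  rw [← ZMod.natCast_eq_natCast_iff, natCast_cf]

theorem cf_add (a b : ℤ_[p]) (k : ℕ) : cf p (a + b) k ≡ cf p a k + cf p b k [MOD p ^ k] := by
  rw [cf_modEq_iff, map_add, Nat.cast_add, natCast_cf, natCast_cf]

theorem cf_mul (a b : ℤ_[p]) (k : ℕ) : cf p (a * b) k ≡ cf p a k * cf p b k [MOD p ^ k] := by
  rw [cf_modEq_iff, map_mul, Nat.cast_mul, natCast_cf, natCast_cf]

theorem cf_one (k : ℕ) : cf p 1 k ≡ 1 [MOD p ^ k] := by
  rw [cf_modEq_iff, map_one, Nat.cast_one]

theorem cf_zero (k : ℕ) : cf p 0 k = 0 := by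
  rw [cf, map_zero, ZMod.val_zero]

theorem cf_natCast (n k : ℕ) : cf p (n : ℤ_[p]) k ≡ n [MOD p ^ k] := by
  rw [cf_modEq_iff, map_natCast]

theorem cf_succ (a : ℤ_[p]) (k : ℕ) : cf p a (k + 1) ≡ cf p a k [MOD p ^ k] := by
  rw [← ZMod.natCast_eq_natCast_iff, natCast_cf]
  have h := PadicInt.cast_toZModPow k (k + 1) (Nat.le_succ k) a
  rw [← h, cf, ZMod.cast_eq_val]

variable {J}

/-- multiples agree when the multipliers are congruent modulo a killing integer. -/
theorem nsmul_eq_of_modEq {y : J} {n : ℕ} (hy : n • y = 0) {a b : ℕ} (h : a ≡ b [MOD n]) :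
    a • y = b • y := by
  have key : ∀ c : ℕ, c • y = (c % n) • y := by
    intro c
    conv_lhs => rw [← Nat.mod_add_div c n]
    rw [add_smul, mul_smul, smul_comm, hy, smul_zero, add_zero]
  rw [key a, key b, h]

variable (J)

/-! ### the Tate module -/

/-- compatible sequences. -/
def tateSubgroup : AddSubgroup (ℕ → J) where
  carrier := {x | x 0 = 0 ∧ ∀ k, p • x (k + 1) = x k}
  zero_mem' := ⟨rfl, fun k => smul_zero _⟩
  add_mem' := by
    rintro x y ⟨hx0, hx⟩ ⟨hy0, hy⟩
    refine ⟨?_, fun k => ?_⟩
    · show x 0 + y 0 = 0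
      rw [hx0, hy0, add_zero]
    · show p • (x (k + 1) + y (k + 1)) = x k + y k
      rw [smul_add, hx, hy]
  neg_mem' := by
    rintro x ⟨hx0, hx⟩
    refine ⟨?_, fun k => ?_⟩
    · show -x 0 = 0
      rw [hx0, neg_zero]
    · show p • (-x (k + 1)) = -x k
      rw [smul_neg, hx]

/-- **the `p`-adic Tate module** of `J`. -/
abbrev TateModule : Type _ := ↥(tateSubgroup p J)

variable {p J}

theorem TateModule.zero_apply' (x : TateModule p J) : (x : ℕ → J) 0 = 0 := x.2.1

theorem TateModule.p_smul_succ (x : TateModule p J) (k : ℕ) :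
    p • (x : ℕ → J) (k + 1) = (x : ℕ → J) k := x.2.2 k

theorem TateModule.pow_smul_apply (x : TateModule p J) (k : ℕ) : p ^ k • (x : ℕ → J) k = 0 := by
  induction k with
  | zero => rw [pow_zero, one_smul]; exact x.zero_apply'
  | succ k ih => rw [pow_succ, mul_smul, x.p_smul_succ, ih]

@[ext] theorem TateModule.ext' {x y : TateModule p J}
    (h : ∀ k, (x : ℕ → J) k = (y : ℕ → J) k) : x = y :=
  Subtype.ext (funext h)

/-- the scalar action of `ℤ_[p]`, on sequences. -/
def smulSeq (a : ℤ_[p]) (x : TateModule p J) : TateModule p J :=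
  ⟨fun k => cf p a k • (x : ℕ → J) k, by
    refine ⟨?_, fun k => ?_⟩
    · show cf p a 0 • (x : ℕ → J) 0 = 0
      rw [x.zero_apply', smul_zero]
    · show p • (cf p a (k + 1) • (x : ℕ → J) (k + 1)) = cf p a k • (x : ℕ → J) k
      rw [smul_comm, x.p_smul_succ]
      exact nsmul_eq_of_modEq (x.pow_smul_apply k) (cf_succ p a k)⟩

instance : SMul ℤ_[p] (TateModule p J) := ⟨smulSeq⟩

theorem TateModule.smul_apply (a : ℤ_[p]) (x : TateModule p J) (k : ℕ) :
    ((a • x : TateModule p J) : ℕ → J) k = cf p a k • (x : ℕ → J) k := rfl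

theorem TateModule.add_apply (x y : TateModule p J) (k : ℕ) :
    ((x + y : TateModule p J) : ℕ → J) k = (x : ℕ → J) k + (y : ℕ → J) k := rfl

theorem TateModule.zero_apply (k : ℕ) : ((0 : TateModule p J) : ℕ → J) k = 0 := rfl

theorem TateModule.neg_apply (x : TateModule p J) (k : ℕ) :
    ((-x : TateModule p J) : ℕ → J) k = -(x : ℕ → J) k := rfl

theorem TateModule.sub_apply (x y : TateModule p J) (k : ℕ) :
    ((x - y : TateModule p J) : ℕ → J) k = (x : ℕ → J) k - (y : ℕ → J) k := rfl

instance : Module ℤ_[p] (TateModule p J) where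
  one_smul x := by
    ext k
    rw [TateModule.smul_apply, nsmul_eq_of_modEq (x.pow_smul_apply k) (cf_one p k), one_smul]
  mul_smul a b x := by
    ext k
    rw [TateModule.smul_apply, TateModule.smul_apply, TateModule.smul_apply,
      nsmul_eq_of_modEq (x.pow_smul_apply k) (cf_mul p a b k), mul_smul]
  smul_zero a := by
    ext k
    rw [TateModule.smul_apply, TateModule.zero_apply, smul_zero]
  smul_add a x y := by
    ext k
    rw [TateModule.smul_apply, TateModule.add_apply, TateModule.add_apply, smul_add,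
      TateModule.smul_apply, TateModule.smul_apply]
  add_smul a b x := by
    ext k
    rw [TateModule.smul_apply, TateModule.add_apply, TateModule.smul_apply, TateModule.smul_apply,
      nsmul_eq_of_modEq (x.pow_smul_apply k) (cf_add p a b k), add_smul]
  zero_smul x := by
    ext k
    rw [TateModule.smul_apply, cf_zero, zero_smul, TateModule.zero_apply]

theorem TateModule.natCast_smul_apply (n : ℕ) (x : TateModule p J) (k : ℕ) :
    (((n : ℤ_[p]) • x : TateModule p J) : ℕ → J) k = n • (x : ℕ → J) k := by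
  rw [TateModule.smul_apply]
  exact nsmul_eq_of_modEq (x.pow_smul_apply k) (cf_natCast p n k)

theorem TateModule.nsmul_apply (n : ℕ) (x : TateModule p J) (k : ℕ) :
    ((n • x : TateModule p J) : ℕ → J) k = n • (x : ℕ → J) k := by
  induction n with
  | zero => rw [zero_smul, zero_smul, TateModule.zero_apply]
  | succ n ih => rw [succ_nsmul, succ_nsmul, TateModule.add_apply, ih]

/-! ### projections -/

/-- the projection to level `k`. -/
def proj (k : ℕ) : TateModule p J →+ J where
  toFun x := (x : ℕ → J) k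
  map_zero' := rfl
  map_add' _ _ := rfl

@[simp] theorem proj_apply (k : ℕ) (x : TateModule p J) : proj k x = (x : ℕ → J) k := rfl

theorem pow_smul_proj (k : ℕ) (x : TateModule p J) : p ^ k • proj k x = 0 := x.pow_smul_apply k

theorem proj_succ (k : ℕ) (x : TateModule p J) : p • proj (k + 1) x = proj k x := x.p_smul_succ k

theorem proj_smul (a : ℤ_[p]) (k : ℕ) (x : TateModule p J) : proj k (a • x) = cf p a k • proj k x :=
  rfl

theorem proj_natCast_smul (n k : ℕ) (x : TateModule p J) :
    proj k ((n : ℤ_[p]) • x) = n • proj k x := TateModule.natCast_smul_apply n x k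

/-- the shift `y j := x (k + j)`. -/
def shift (k : ℕ) (x : TateModule p J) (hx : proj k x = 0) : TateModule p J :=
  ⟨fun j => (x : ℕ → J) (k + j), by
    refine ⟨hx, fun j => ?_⟩
    show p • (x : ℕ → J) (k + j + 1) = (x : ℕ → J) (k + j)
    exact x.p_smul_succ (k + j)⟩

theorem pow_smul_apply_add (x : TateModule p J) (k j : ℕ) :
    p ^ k • (x : ℕ → J) (k + j) = (x : ℕ → J) j := by
  induction k generalizing j with
  | zero => rw [pow_zero, one_smul, Nat.zero_add]
  | succ k ih =>
    have h : k + 1 + j = k + j + 1 := by omega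
    rw [h, pow_succ, mul_smul, x.p_smul_succ, ih]

/-- **the kernel of `proj k` is `p^k T`.** -/
theorem proj_eq_zero_iff (k : ℕ) (x : TateModule p J) :
    proj k x = 0 ↔ ∃ y : TateModule p J, x = ((p ^ k : ℕ) : ℤ_[p]) • y := by
  constructor
  · intro hx
    refine ⟨shift k x hx, ?_⟩
    ext j
    rw [TateModule.natCast_smul_apply]
    exact (pow_smul_apply_add x k j).symm
  · rintro ⟨y, rfl⟩
    rw [proj_natCast_smul, pow_smul_proj]

theorem proj_eq_zero_iff' (k : ℕ) (x : TateModule p J) :
    proj k x = 0 ↔ ∃ y : TateModule p J, x = ((p : ℤ_[p]) ^ k) • y := by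
  rw [proj_eq_zero_iff]
  constructor
  · rintro ⟨y, rfl⟩
    exact ⟨y, by rw [Nat.cast_pow]⟩
  · rintro ⟨y, rfl⟩
    exact ⟨y, by rw [Nat.cast_pow]⟩

/-- `T` has no `p`-torsion. -/
theorem eq_zero_of_p_smul {x : TateModule p J} (h : (p : ℤ_[p]) • x = 0) : x = 0 := by
  ext j
  rw [TateModule.zero_apply, ← x.p_smul_succ j, ← TateModule.natCast_smul_apply, h,
    TateModule.zero_apply]

theorem eq_zero_of_pow_smul {x : TateModule p J} (k : ℕ) (h : ((p : ℤ_[p]) ^ k) • x = 0) :
    x = 0 := by
  induction k with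
  | zero => rwa [pow_zero, one_smul] at h
  | succ k ih =>
    apply ih
    apply eq_zero_of_p_smul
    rw [← mul_smul, ← pow_succ']
    exact h

/-- `T` is torsion-free over `ℤ_[p]`. -/
theorem eq_zero_of_smul_eq_zero {a : ℤ_[p]} (ha : a ≠ 0) {x : TateModule p J} (h : a • x = 0) :
    x = 0 := by
  obtain ⟨u, hu⟩ : ∃ u : ℤ_[p]ˣ, a = u * (p : ℤ_[p]) ^ a.valuation :=
    ⟨PadicInt.unitCoeff ha, PadicInt.unitCoeff_spec ha⟩
  apply eq_zero_of_pow_smul a.valuation
  have h2 : ((u⁻¹ : ℤ_[p]ˣ) : ℤ_[p]) • (a • x) = 0 := by rw [h, smul_zero]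
  rw [← mul_smul, hu, ← mul_assoc, Units.inv_mul, one_mul] at h2
  exact h2

instance : NoZeroSMulDivisors ℤ_[p] (TateModule p J) where
  eq_zero_or_eq_zero_of_smul_eq_zero {a x} h := by
    by_cases ha : a = 0
    · exact Or.inl ha
    · exact Or.inr (eq_zero_of_smul_eq_zero ha h)

/-- `⋂ p^k T = 0`. -/
theorem eq_zero_of_forall_proj {x : TateModule p J} (h : ∀ k, proj k x = 0) : x = 0 := by
  ext k
  exact h k


/-! ### finiteness: `T` is a finitely generated free `ℤ_[p]`-module as soon as `J[p]` is finite -/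

section Finiteness

theorem proj_pow_smul (m k : ℕ) (y : TateModule p J) :
    proj k (((p : ℤ_[p]) ^ m) • y) = p ^ m • proj k y := by
  rw [← Nat.cast_pow, proj_natCast_smul]

variable (p J) in
/-- index type of the generators: the image of `proj 1`. -/
abbrev Idx : Type _ := ↥(Set.range (proj 1 : TateModule p J → J))

instance finite_idx [h : Finite {y : J // p • y = 0}] : Finite (Idx p J) := by
  have hmem : ∀ i : Idx p J, p • (i : J) = 0 := by
    rintro ⟨_, x, rfl⟩
    have := pow_smul_proj 1 x
    rwa [pow_one] at this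
  refine Finite.of_injective (fun i : Idx p J => (⟨(i : J), hmem i⟩ : {y : J // p • y = 0})) ?_
  intro a b hab
  exact Subtype.ext (congrArg (fun z : {y : J // p • y = 0} => (z : J)) hab)

/-- a lift of `i` to the Tate module. -/
def gen (i : Idx p J) : TateModule p J := i.2.choose

theorem proj_gen (i : Idx p J) : proj 1 (gen i) = (i : J) := i.2.choose_spec

theorem exists_decomp (x : TateModule p J) :
    ∃ (i : Idx p J) (x' : TateModule p J), x = gen i + (p : ℤ_[p]) • x' := by
  refine ⟨⟨proj 1 x, x, rfl⟩, ?_⟩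
  have h0 : proj 1 (x - gen (⟨proj 1 x, x, rfl⟩ : Idx p J)) = 0 := by
    rw [map_sub, proj_gen, sub_self]
  obtain ⟨y, hy⟩ := (proj_eq_zero_iff' 1 _).mp h0
  refine ⟨y, ?_⟩
  rw [pow_one] at hy
  rw [← hy]
  abel

/-- the first digit of `x`. -/
def idx (x : TateModule p J) : Idx p J := (exists_decomp x).choose

/-- the remainder of `x`. -/
def next (x : TateModule p J) : TateModule p J := (exists_decomp x).choose_spec.choose

theorem eq_gen_add (x : TateModule p J) : x = gen (idx x) + (p : ℤ_[p]) • next x :=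
  (exists_decomp x).choose_spec.choose_spec

/-- the `m`-th remainder. -/
def orbit (x : TateModule p J) (m : ℕ) : TateModule p J := next^[m] x

/-- the `m`-th digit. -/
def digit (x : TateModule p J) (m : ℕ) : Idx p J := idx (orbit x m)

theorem orbit_succ (x : TateModule p J) (m : ℕ) : orbit x (m + 1) = next (orbit x m) :=
  Function.iterate_succ_apply' next m x

theorem expand (x : TateModule p J) (n : ℕ) :
    x = (∑ m ∈ Finset.range n, ((p : ℤ_[p]) ^ m) • gen (digit x m)) +
      ((p : ℤ_[p]) ^ n) • orbit x n := by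
  induction n with
  | zero =>
    rw [Finset.range_zero, Finset.sum_empty, zero_add, pow_zero, one_smul]
    rfl
  | succ n ih =>
    rw [Finset.sum_range_succ, orbit_succ, add_assoc, pow_succ, mul_smul, ← smul_add]
    have h := eq_gen_add (orbit x n)
    rw [← digit] at h
    rw [← h]
    exact ih

/-- the natural number approximations of the coefficient of `gen i`. -/
def coefNat (x : TateModule p J) (i : Idx p J) (n : ℕ) : ℕ := by
  classical
  exact ∑ m ∈ Finset.range n, if digit x m = i then p ^ m else 0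

theorem coefNat_succ (x : TateModule p J) (i : Idx p J) (n : ℕ) :
    coefNat x i (n + 1) = coefNat x i n + (by classical exact if digit x n = i then p ^ n else 0) := by
  classical
  rw [coefNat, coefNat, Finset.sum_range_succ]

theorem coefNat_dvd (x : TateModule p J) (i : Idx p J) (n : ℕ) :
    (p : ℤ) ^ n ∣ (coefNat x i (n + 1) : ℤ) - (coefNat x i n : ℤ) := by
  classical
  rw [coefNat_succ, Nat.cast_add, add_sub_cancel_left]
  split_ifs
  · rw [Nat.cast_pow]
  · rw [Nat.cast_zero]; exact dvd_zero _

/-- the coefficient of `gen i` in `x`. -/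
def coef (x : TateModule p J) (i : Idx p J) : ℤ_[p] :=
  PadicInt.ofIntSeq _ (PadicInt.isCauSeq_padicNorm_of_pow_dvd_sub (fun n => (coefNat x i n : ℤ)) p
    (coefNat_dvd x i))

theorem cf_coef (x : TateModule p J) (i : Idx p J) (k : ℕ) :
    cf p (coef x i) k ≡ coefNat x i k [MOD p ^ k] := by
  rw [cf_modEq_iff]
  have h := PadicInt.toZModPow_ofIntSeq_of_pow_dvd_sub (fun n => (coefNat x i n : ℤ)) p
    (coefNat_dvd x i) k
  rw [coef, h, Int.cast_natCast]

theorem eq_sum_coef [Fintype (Idx p J)] (x : TateModule p J) :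
    x = ∑ i : Idx p J, coef x i • gen i := by
  classical
  ext k
  -- right hand side at level `k`
  have hR : ((∑ i : Idx p J, coef x i • gen i : TateModule p J) : ℕ → J) k =
      ∑ m ∈ Finset.range k, p ^ m • proj k (gen (digit x m)) := by
    have h1 : ((∑ i : Idx p J, coef x i • gen i : TateModule p J) : ℕ → J) k =
        proj k (∑ i : Idx p J, coef x i • gen i) := rfl
    rw [h1, map_sum]
    have h2 : ∀ i : Idx p J, proj k (coef x i • gen i) =
        ∑ m ∈ Finset.range k, (if digit x m = i then p ^ m else 0) • proj k (gen i) := by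
      intro i
      rw [proj_smul, nsmul_eq_of_modEq (pow_smul_proj k (gen i)) (cf_coef x i k), coefNat,
        Finset.sum_smul]
    rw [Finset.sum_congr rfl (fun i _ => h2 i), Finset.sum_comm]
    refine Finset.sum_congr rfl (fun m _ => ?_)
    have h3 : ∀ i : Idx p J, (if digit x m = i then p ^ m else 0) • proj k (gen i) =
        if digit x m = i then p ^ m • proj k (gen (digit x m)) else 0 := by
      intro i
      split_ifs with hi
      · rw [hi]
      · rw [zero_smul]
    rw [Finset.sum_congr rfl (fun i _ => h3 i), Finset.sum_ite_eq, if_pos (Finset.mem_univ _)]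
  -- left hand side at level `k`
  have hL : (x : ℕ → J) k = ∑ m ∈ Finset.range k, p ^ m • proj k (gen (digit x m)) := by
    have h1 : (x : ℕ → J) k = proj k x := rfl
    rw [h1]
    conv_lhs => rw [expand x k]
    rw [map_add, map_sum, proj_pow_smul, pow_smul_proj, add_zero]
    exact Finset.sum_congr rfl (fun m _ => proj_pow_smul m k _)
  rw [hL, hR]

/-- **`T` is finitely generated** when `J[p]` is finite. -/
theorem module_finite [h : Finite {y : J // p • y = 0}] : Module.Finite ℤ_[p] (TateModule p J) := by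
  classical
  have : Fintype (Idx p J) := Fintype.ofFinite _
  refine ⟨⟨Finset.univ.image (gen : Idx p J → TateModule p J), ?_⟩⟩
  rw [eq_top_iff]
  intro x _
  rw [eq_sum_coef x]
  refine Submodule.sum_mem _ (fun i _ => Submodule.smul_mem _ _ (Submodule.subset_span ?_))
  rw [Finset.coe_image]
  exact ⟨i, Finset.mem_coe.mpr (Finset.mem_univ i), rfl⟩

/-- **`T` is free** when `J[p]` is finite. -/
theorem module_free [h : Finite {y : J // p • y = 0}] : Module.Free ℤ_[p] (TateModule p J) := by
  have := module_finite (p := p) (J := J)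
  exact Module.free_of_finite_type_torsion_free'

end Finiteness

/-! ### functoriality -/

/-- the map induced by an additive endomorphism (more generally a homomorphism). -/
def map {J' : Type*} [AddCommGroup J'] (f : J →+ J') : TateModule p J →ₗ[ℤ_[p]] TateModule p J' where
  toFun x := ⟨fun k => f ((x : ℕ → J) k), by
    refine ⟨?_, fun k => ?_⟩
    · show f ((x : ℕ → J) 0) = 0
      rw [x.zero_apply', map_zero]
    · show p • f ((x : ℕ → J) (k + 1)) = f ((x : ℕ → J) k)
      rw [← map_nsmul, x.p_smul_succ]⟩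
  map_add' x y := by
    ext k
    show f ((x : ℕ → J) k + (y : ℕ → J) k) = f ((x : ℕ → J) k) + f ((y : ℕ → J) k)
    rw [map_add]
  map_smul' a x := by
    ext k
    show f (cf p a k • (x : ℕ → J) k) = cf p a k • f ((x : ℕ → J) k)
    rw [map_nsmul]

theorem map_apply {J' : Type*} [AddCommGroup J'] (f : J →+ J') (x : TateModule p J) (k : ℕ) :
    ((map f x : TateModule p J') : ℕ → J') k = f ((x : ℕ → J) k) := rfl

theorem proj_map {J' : Type*} [AddCommGroup J'] (f : J →+ J') (x : TateModule p J) (k : ℕ) :
    proj k (map f x) = f (proj k x) := rfl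

theorem map_id : map (AddMonoidHom.id J) = (LinearMap.id : TateModule p J →ₗ[ℤ_[p]] _) := by
  ext x k
  rfl

theorem map_comp {J' J'' : Type*} [AddCommGroup J'] [AddCommGroup J''] (g : J' →+ J'')
    (f : J →+ J') : (map (g.comp f) : TateModule p J →ₗ[ℤ_[p]] _) = (map g).comp (map f) := by
  ext x k
  rfl

theorem map_add_hom {J' : Type*} [AddCommGroup J'] (f g : J →+ J') :
    (map (f + g) : TateModule p J →ₗ[ℤ_[p]] TateModule p J') = map f + map g := by
  ext x k
  rfl

theorem map_zero_hom {J' : Type*} [AddCommGroup J'] :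
    (map (0 : J →+ J') : TateModule p J →ₗ[ℤ_[p]] TateModule p J') = 0 := by
  ext x k
  rfl

theorem map_neg_hom {J' : Type*} [AddCommGroup J'] (f : J →+ J') :
    (map (-f) : TateModule p J →ₗ[ℤ_[p]] TateModule p J') = -map f := by
  ext x k
  rfl

theorem map_sub_hom {J' : Type*} [AddCommGroup J'] (f g : J →+ J') :
    (map (f - g) : TateModule p J →ₗ[ℤ_[p]] TateModule p J') = map f - map g := by
  ext x k
  rfl

theorem map_nsmul_hom (n : ℕ) :
    (map (n • AddMonoidHom.id J) : TateModule p J →ₗ[ℤ_[p]] TateModule p J) =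
      (n : ℤ_[p]) • LinearMap.id := by
  ext x k
  rw [LinearMap.smul_apply, LinearMap.id_apply, TateModule.natCast_smul_apply]
  rfl

/-- `map` as a ring homomorphism `End(J) → End_{ℤ_p}(T)`. -/
def mapEnd : AddMonoid.End J →+* Module.End ℤ_[p] (TateModule p J) where
  toFun f := map f
  map_one' := map_id
  map_mul' f g := map_comp f g
  map_zero' := map_zero_hom
  map_add' f g := map_add_hom f g

theorem mapEnd_apply (f : AddMonoid.End J) : mapEnd (p := p) f = map f := rfl

/-! ### group actions -/

section Action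

variable {G : Type*} [Monoid G] [DistribMulAction G J]

variable (p J) in
/-- the action of `G` on the Tate module. -/
def rho : G →* Module.End ℤ_[p] (TateModule p J) :=
  (mapEnd (p := p) (J := J)).toMonoidHom.comp (DistribMulAction.toAddMonoidEnd G J)

theorem proj_rho (g : G) (x : TateModule p J) (k : ℕ) : proj k (rho p J g x) = g • proj k x := rfl

/-- **congruence transfer**: if `g` fixes `J[p^k]` then `rho g ≡ 1 mod p^k`. -/
theorem rho_sub_mem (g : G) (k : ℕ) (h : ∀ y : J, p ^ k • y = 0 → g • y = y)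
    (x : TateModule p J) : ∃ y : TateModule p J, rho p J g x - x = ((p : ℤ_[p]) ^ k) • y := by
  rw [← proj_eq_zero_iff']
  show proj k (rho p J g x) - proj k x = 0
  rw [proj_rho, h _ (pow_smul_proj k x), sub_self]

/-- if `g` fixes all `p`-power torsion then `rho g = 1`. -/
theorem rho_eq_one (g : G) (h : ∀ (k : ℕ) (y : J), p ^ k • y = 0 → g • y = y) : rho p J g = 1 := by
  ext x k
  show g • proj k x = proj k x
  exact h k _ (pow_smul_proj k x)

end Action

/-- **identity transfer**: an additive endomorphism of `J` killing all `p`-power torsion induces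
`0` on the Tate module. -/
theorem map_eq_zero (f : J →+ J) (h : ∀ (k : ℕ) (y : J), p ^ k • y = 0 → f y = 0) :
    (map f : TateModule p J →ₗ[ℤ_[p]] TateModule p J) = 0 := by
  ext x k
  show f (proj k x) = 0
  exact h k _ (pow_smul_proj k x)

/-- two endomorphisms of `J` commuting on `J` induce commuting endomorphisms of `T`. -/
theorem commute_map (f g : J →+ J) (h : ∀ y, f (g y) = g (f y)) :
    Commute (map f : Module.End ℤ_[p] (TateModule p J)) (map g) := by
  show map f * map g = map g * map f
  ext x k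
  exact h _

end Fermat.Agent.ES.J.TateModule13
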