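/-
Program J (S30), chapter J6, helper13: **the `p`-adic Tate module of `J₀(N)(ℚ̄)`** with its Galois
action and Hecke operators, and the three properties the frozen S30 asks for:

* `rhoT p N : Gal(ℚ̄/ℚ) →* Module.End ℤ_[p] (TJ p N)`, `tT p N ℓ : Module.End ℤ_[p] (TJ p N)`;
* `commute_rhoT_tT` : the Hecke operators commute with the Galois action;
* `rhoT_inertia` : **unramified** at `ℓ ∤ N p`;
* `rhoT_frobenius` : **Eichler–Shimura** `ρ(σ)² − t_ℓ ρ(σ) + ℓ = 0` for every Frobenius element `σ` at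
  every valuation subring over `ℓ ∤ N p`;
* `rhoT_continuous` : **continuity** (`ρ(σ) ≡ 1 mod pⁿ` on an open subgroup), if `J₀(N)[p]` is finite;
* `finite_torsion_pow` : abstract, `J[p]` finite ⇒ `J[pᵏ]` finite.

Inputs: helper12's `TorsionGalois12` (T1, T2), `HeckeGalois12` (T3), `OpenStab12` (T6).
-/
import Mathlib
import Fermat.Agent.ES.J.TateModule13
import Fermat.Agent.ES.TOP.TorsionGalois12
import Fermat.Agent.ES.HECKE.HeckeGalois12
import Fermat.Agent.ES.GAL.OpenStab12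

set_option autoImplicit false
set_option synthInstance.maxHeartbeats 400000
set_option linter.unusedSectionVars false

noncomputable section

open AlgebraicCurve ModularCurve

namespace Fermat.Agent.ES.J.TateJZero13

open Fermat.Agent.ES.J.TateModule13

/-- `ℚbar`. -/
local notation "Qb" => AlgebraicClosure ℚ

/-! ### abstract: finiteness of `J[pᵏ]` -/

section Abstract

variable {J : Type*} [AddCommGroup J]

/-- `J[n]` finite and `J[m]` finite ⇒ `J[m * n]` finite. -/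
theorem finite_torsion_mul {m n : ℕ} (hm : {y : J | m • y = 0}.Finite)
    (hn : {y : J | n • y = 0}.Finite) : {y : J | (m * n) • y = 0}.Finite := by
  refine Set.Finite.of_finite_fibers (fun y : J => n • y) (hm.subset ?_) ?_
  · rintro _ ⟨y, hy, rfl⟩
    show m • (n • y) = 0
    rw [← mul_smul]
    exact hy
  · rintro _ ⟨y₀, _, rfl⟩
    -- the fibre over `n • y₀` is contained in `y₀ + J[n]`
    refine (hn.image (fun z => y₀ + z)).subset ?_
    rintro y ⟨_, hy⟩
    refine ⟨y - y₀, ?_, add_sub_cancel y₀ y⟩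
    show n • (y - y₀) = 0
    rw [smul_sub, sub_eq_zero]
    exact hy

/-- `J[p]` finite ⇒ `J[pᵏ]` finite. -/
theorem finite_torsion_pow {p : ℕ} (hp : {y : J | p • y = 0}.Finite) (k : ℕ) :
    {y : J | p ^ k • y = 0}.Finite := by
  induction k with
  | zero =>
    refine (Set.finite_singleton (0 : J)).subset ?_
    intro y hy
    have : (p ^ 0) • y = 0 := hy
    rw [pow_zero, one_smul] at this
    exact this
  | succ k ih =>
    rw [pow_succ]
    exact finite_torsion_mul ih hp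

end Abstract

variable (p : ℕ) [hp : Fact p.Prime] (N : ℕ) [NeZero N]

/-- **the `p`-adic Tate module of `J₀(N)(ℚ̄)`.** -/
abbrev TJ : Type _ := TateModule p (JZero N)

/-- **the Galois representation on the Tate module.** -/
def rhoT : (Qb ≃ₐ[ℚ] Qb) →* Module.End ℤ_[p] (TJ p N) := rho p (JZero N)

/-- **the Hecke operator `T_ℓ` on the Tate module.** -/
def tT (ℓ : Nat.Primes) : Module.End ℤ_[p] (TJ p N) :=
  map (heckeOperatorBar N ℓ).toAddMonoidHom

variable {p N}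

theorem proj_rhoT (σ : Qb ≃ₐ[ℚ] Qb) (x : TJ p N) (k : ℕ) :
    proj k (rhoT p N σ x) = σ • proj k x := rfl

theorem proj_tT (ℓ : Nat.Primes) (x : TJ p N) (k : ℕ) :
    proj k (tT p N ℓ x) = heckeOperatorBar N ℓ (proj k x) := rfl

/-- the Hecke operators commute with the Galois action. -/
theorem commute_rhoT_tT (σ : Qb ≃ₐ[ℚ] Qb) (ℓ : Nat.Primes) :
    Commute (rhoT p N σ) (tT p N ℓ) := by
  refine LinearMap.ext fun x => ?_
  ext k
  show σ • heckeOperatorBar N ℓ (proj k x) = heckeOperatorBar N ℓ (σ • proj k x)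
  exact (Fermat.Agent.ES.HECKE.HeckeGalois12.heckeOperatorBar_smul N ℓ σ (proj k x)).symm

/-- the Hecke operators on the Tate module commute, if they commute on `J₀(N)`. -/
theorem commute_tT (h : HeckeOperatorsCommuteBar N) (ℓ ℓ' : Nat.Primes) :
    Commute (tT p N ℓ) (tT p N ℓ') := by
  refine LinearMap.ext fun x => ?_
  ext k
  show heckeOperatorBar N ℓ (heckeOperatorBar N ℓ' (proj k x)) =
    heckeOperatorBar N ℓ' (heckeOperatorBar N ℓ (proj k x))
  exact LinearMap.congr_fun (h ℓ ℓ') (proj k x)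

theorem not_dvd_pow {ℓ : ℕ} (hℓ : ℓ.Prime) (hℓp : ℓ ≠ p) (k : ℕ) : ¬ ℓ ∣ p ^ k := by
  intro h
  exact hℓp ((Nat.prime_dvd_prime_iff_eq hℓ hp.out).mp (hℓ.dvd_of_dvd_pow h))

/-- **the Tate module is unramified at `ℓ ∤ N p`.** -/
theorem rhoT_inertia {ℓ : ℕ} (hℓ : ℓ.Prime) (hℓN : ¬ ℓ ∣ N) (hℓp : ℓ ≠ p)
    {A : ValuationSubring Qb} (hA : A.LiesOverPrime ℓ) {τ : Qb ≃ₐ[ℚ] Qb}
    (hτ : τ ∈ A.inertiaSubgroupIn ℚ) : rhoT p N τ = 1 :=
  rho_eq_one τ fun k _ hy =>
    Fermat.Agent.ES.TOP.TorsionGalois12.inertia_smul_eq hℓ hℓN hA (not_dvd_pow hℓ hℓp k) hy hτ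

/-- **Eichler–Shimura on the Tate module**: `ρ(σ)² − t_ℓ ρ(σ) + ℓ = 0` for every Frobenius
element `σ` at a valuation subring over `ℓ ∤ N p`. -/
theorem rhoT_frobenius {ℓ : ℕ} (hℓ : ℓ.Prime) (hℓN : ¬ ℓ ∣ N) (hℓp : ℓ ≠ p)
    {A : ValuationSubring Qb} (hA : A.LiesOverPrime ℓ) {σ : Qb ≃ₐ[ℚ] Qb}
    (hσ : A.IsFrobeniusAt σ ℓ) :
    rhoT p N σ * rhoT p N σ - tT p N ⟨ℓ, hℓ⟩ * rhoT p N σ + (ℓ : ℤ_[p]) • (1 : Module.End ℤ_[p] (TJ p N))
      = 0 := by
  refine LinearMap.ext fun x => ?_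
  ext k
  show σ • σ • proj k x - heckeOperatorBar N ⟨ℓ, hℓ⟩ (σ • proj k x) +
    proj k ((ℓ : ℤ_[p]) • x) = 0
  rw [proj_natCast_smul]
  exact Fermat.Agent.ES.TOP.TorsionGalois12.frobenius_relation hℓ hℓN hA (not_dvd_pow hℓ hℓp k)
    (pow_smul_proj k x) hσ

/-- **continuity**: if `J₀(N)[p]` is finite then `ρ(σ) ≡ 1 mod pⁿ` on an open subgroup. -/
theorem rhoT_continuous (hfin : {y : JZero N | p • y = 0}.Finite) (n : ℕ) :
    ∃ L : IntermediateField ℚ Qb, FiniteDimensional ℚ L ∧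
      ∀ σ : Qb ≃ₐ[ℚ] Qb, (∀ a ∈ L, σ a = a) →
        ∀ x : TJ p N, ∃ y : TJ p N, rhoT p N σ x - x = ((p : ℤ_[p]) ^ n) • y := by
  obtain ⟨L, hL, H⟩ :=
    Fermat.Agent.ES.GAL.OpenStab12.hasLevel_torsion N (p ^ n) (finite_torsion_pow hfin n)
  exact ⟨L, hL, fun σ hσ x => rho_sub_mem σ n (H σ hσ) x⟩

/-- the Tate module is finitely generated and free, if `J₀(N)[p]` is finite. -/
theorem finite_free (hfin : {y : JZero N | p • y = 0}.Finite) :
    Module.Finite ℤ_[p] (TJ p N) ∧ Module.Free ℤ_[p] (TJ p N) := by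
  have : Finite {y : JZero N // p • y = 0} := hfin.to_subtype
  exact ⟨module_finite, module_free⟩

end Fermat.Agent.ES.J.TateJZero13
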