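/-
Program J (S30), helper8: **the contract `S30Skeleton8.EigenLattice` from a nonzero eigenvector in
`𝒪' ⊗ T_p J₀(N)`**.

Inputs: (K1) finiteness of `J₀(N)(ℚ̄)[p]` and a nonzero vector `w ∈ 𝒪' ⊗[ℤ_[p]] T_p J₀(N)` with
`(T_ℓ ⊗ 1) w = χ(T_ℓ) w` for all `ℓ ∤ N`, `ℓ ∉ S`.  The `ℤ_[p]`-algebra structure on `𝒪'` is an
arbitrary instance (it is unique anyway, `PadicAlg8.eq_padicToComplete`).
-/
import Mathlib
import Fermat.Agent.ES.J.S30Skeleton8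
import Fermat.Agent.ES.J.BaseChangeRep8
import Fermat.Agent.ES.J.TateJZero13

set_option autoImplicit false
set_option linter.unusedSectionVars false
set_option synthInstance.maxHeartbeats 400000

open TensorProduct AlgebraicCurve ModularCurve

noncomputable section

namespace Fermat.Agent.ES.J.EigenLatticeOf8

open Fermat.Agent.ES.ALG.RelDense9 Fermat.Agent.ES.J.S30Skeleton8
  Fermat.Agent.ES.J.TateJZero13 Fermat.Agent.ES.J.BaseChangeRep8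

local notation "Qb" => AlgebraicClosure ℚ
local notation "GQ" => (AlgebraicClosure ℚ ≃ₐ[ℚ] AlgebraicClosure ℚ)

variable {p : ℕ} [Fact p.Prime] {N : ℕ} [NeZero N] {S : Finset ℕ}
  {𝒪' : Type} [CommRing 𝒪'] [IsDomain 𝒪'] [IsDiscreteValuationRing 𝒪'] [Algebra ℤ_[p] 𝒪']

/-- **`EigenLattice` from (K1) + a nonzero `χ`-eigenvector.** -/
theorem eigenLattice_of (hpS : p ∈ S)
    (hp𝒪' : (p : 𝒪') ∈ IsLocalRing.maximalIdeal 𝒪')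
    (hfin : {y : JZero N | p • y = 0}.Finite)
    (χ : CuspForm.heckeAlgebra N 2 (↑S : Set ℕ) →+* 𝒪')
    (w : 𝒪' ⊗[ℤ_[p]] TJ p N) (hw0 : w ≠ 0)
    (hw : ∀ (ℓ : ℕ) (hℓ : ℓ.Prime) (hℓN : ¬ ℓ ∣ N) (hℓS : ℓ ∉ (↑S : Set ℕ)),
      (tT p N ⟨ℓ, hℓ⟩).baseChange 𝒪' w = χ (CuspForm.heckeAlgebra.T hℓ hℓN hℓS) • w) :
    EigenLattice p N S 𝒪' χ := by
  classical
  obtain ⟨hfinT, hfreeT⟩ := finite_free (p := p) (N := N) hfin
  let ι : Type := {ℓ : ℕ // ℓ.Prime ∧ ¬ ℓ ∣ N ∧ ℓ ∉ (↑S : Set ℕ)}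
  let t : ι → Module.End ℤ_[p] (TJ p N) := fun i => tT p N ⟨i.1, i.2.1⟩
  let c : ι → 𝒪' := fun i => χ (CuspForm.heckeAlgebra.T i.2.1 i.2.2.1 i.2.2.2)
  obtain ⟨Λ, i1, i2, i3, i4, i5, ρ, h1, h2, h3⟩ :=
    exists_eigenRep (𝒪 := 𝒪') (rhoT p N) t (fun g i => commute_rhoT_tT g _) c w hw0
      (fun i => hw i.1 i.2.1 i.2.2.1 i.2.2.2)
  refine ⟨Λ, i1, i2, i3, i4, i5, ρ, ?_, ?_, ?_⟩
  · intro n
    obtain ⟨L, hL, H⟩ := rhoT_continuous (p := p) (N := N) hfin n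
    refine ⟨L, hL, fun σ hσ => ?_⟩
    refine h1 _ σ ((p : ℤ_[p]) ^ n) ?_ (H σ hσ)
    rw [map_pow, map_natCast]
    exact Ideal.pow_mem_pow hp𝒪' n
  · intro q hq hqN hqp A hA τ hτ
    exact h2 τ (rhoT_inertia hq hqN hqp hA hτ)
  · intro ℓ hℓ hℓN hℓS A hA σ hσ
    have hℓp : ℓ ≠ p := fun h => hℓS (h ▸ hpS)
    have := h3 σ ⟨ℓ, hℓ, hℓN, hℓS⟩ (ℓ : ℤ_[p]) (rhoT_frobenius hℓ hℓN hℓp hA hσ)
    rw [map_natCast] at this
    exact this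

end Fermat.Agent.ES.J.EigenLatticeOf8
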