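/-
Program J (S30), integration skeleton — helper8.

**S30 from ONE contract** (`EigenLattice`): for every `(p, N, S, 𝒪', χ)` as in the frozen statement a
nonzero finite free `𝒪'`-module `Λ` with a `G_ℚ`-action `ρ` which is adically continuous, unramified
at every `q ∤ N`, `q ≠ p`, and satisfies the Eichler–Shimura relation
`ρ σ ² - χ(T_ℓ) ρ σ + ℓ = 0` for every Frobenius lift `σ` at `ℓ ∉ S`.
(`Λ` = the `χ`-eigen-sublattice of `𝒪' ⊗ T_p J₀(N)`: chapters J1–J4, J6.)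

Everything else is assembled here: cyclotomic character (`CycloChar8`), generator Chebotarev
(`ChebQbar23`), (LUCAS)+(DENSE) (`RelDense9`), (ALG-CORE) with complex conjugation (`RankTwo9`).
The extension `𝒪''` of the frozen statement is `𝒪'` itself.
-/
import Mathlib
import Fermat.Prelude.Def_CuspForm_HeckeGaloisRepDatum
import Fermat.Agent.ES.ALG.RankTwo9
import Fermat.Agent.ES.ALG.RelDense9
import Fermat.Agent.ES.GAL.ChebQbar23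
import Fermat.Agent.ES.J.CycloChar8

set_option autoImplicit false

open Polynomial

noncomputable section

namespace Fermat.Agent.ES.J.S30Skeleton8

open Fermat.Agent.ES.ALG.RelDense9 Fermat.Agent.ES.ALG.RankTwo9 Fermat.Agent.ES.J.CycloChar8

local notation "Qb" => AlgebraicClosure ℚ
local notation "GQ" => (AlgebraicClosure ℚ ≃ₐ[ℚ] AlgebraicClosure ℚ)

/-- **The contract**: an eigen-lattice for `χ`. -/
def EigenLattice (p : ℕ) (N : ℕ) [NeZero N] (S : Finset ℕ)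
    (𝒪' : Type) [CommRing 𝒪'] [IsLocalRing 𝒪']
    (χ : CuspForm.heckeAlgebra N 2 (↑S : Set ℕ) →+* 𝒪') : Prop :=
  ∃ (Λ : Type) (_ : AddCommGroup Λ) (_ : Module 𝒪' Λ) (_ : Module.Free 𝒪' Λ)
    (_ : Module.Finite 𝒪' Λ) (_ : Nontrivial Λ) (ρ : GQ →* Module.End 𝒪' Λ),
    (∀ n : ℕ, ∃ L : IntermediateField ℚ Qb, FiniteDimensional ℚ L ∧
      ∀ σ : GQ, (∀ x ∈ L, σ x = x) → EndCongr (IsLocalRing.maximalIdeal 𝒪' ^ n) (ρ σ) 1) ∧
    (∀ q : ℕ, q.Prime → ¬ q ∣ N → q ≠ p → ∀ A : ValuationSubring Qb, A.LiesOverPrime q →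
      ∀ τ ∈ A.inertiaSubgroupIn ℚ, ρ τ = 1) ∧
    (∀ (ℓ : ℕ) (hℓ : ℓ.Prime) (hℓN : ¬ ℓ ∣ N) (hℓS : ℓ ∉ (↑S : Set ℕ)),
      ∀ A : ValuationSubring Qb, A.LiesOverPrime ℓ → ∀ σ : GQ, A.IsFrobeniusAt σ ℓ →
        ρ σ * ρ σ - χ (CuspForm.heckeAlgebra.T hℓ hℓN hℓS) • ρ σ +
          (ℓ : 𝒪') • (1 : Module.End 𝒪' Λ) = 0)

section Core

variable {p : ℕ} [Fact p.Prime] {N : ℕ} [NeZero N] {S : Finset ℕ}
  {𝒪' : Type} [CommRing 𝒪'] [IsDomain 𝒪'] [IsDiscreteValuationRing 𝒪']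
  [IsAdicComplete (IsLocalRing.maximalIdeal 𝒪') 𝒪'] [CharZero 𝒪']

/-- `⋂ 𝔪 ^ n = 0`. -/
theorem eq_zero_of_forall_mem_pow (x : 𝒪') (hx : ∀ n, x ∈ IsLocalRing.maximalIdeal 𝒪' ^ n) :
    x = 0 := by
  have hH : IsHausdorff (IsLocalRing.maximalIdeal 𝒪') 𝒪' := inferInstance
  apply hH.haus x
  intro n
  rw [SModEq.zero, smul_eq_mul, Ideal.mul_top]
  exact hx n

/-- **The core**: a rank-two representation over `𝒪'` itself with the prescribed characteristic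
polynomials at Frobenius lifts, adically continuous and unramified outside `Np`. -/
theorem exists_rep_of_eigenLattice (hpS : p ∈ S) (hNS : ∀ q : ℕ, q.Prime → q ∣ N → q ∈ S)
    (hp𝒪' : (p : 𝒪') ∈ IsLocalRing.maximalIdeal 𝒪')
    (χ : CuspForm.heckeAlgebra N 2 (↑S : Set ℕ) →+* 𝒪') (h : EigenLattice p N S 𝒪' χ) :
    ∃ ρ : GaloisRepAdic 𝒪',
      (∀ (ℓ : ℕ) (hℓ : ℓ.Prime) (hℓN : ¬ ℓ ∣ N) (hℓS : ℓ ∉ (↑S : Set ℕ)),
        ∀ A : ValuationSubring Qb, A.LiesOverPrime ℓ → ∀ σ : GQ, A.IsFrobeniusAt σ ℓ →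
          LinearMap.charpoly (ρ.ρ σ) =
            X ^ 2 - C (χ (CuspForm.heckeAlgebra.T hℓ hℓN hℓS)) * X + C ((ℓ : 𝒪'))) ∧
      (∀ q : ℕ, q.Prime → ¬ q ∣ N → q ≠ p → ρ.IsUnramifiedAt q) := by
  classical
  obtain ⟨Λ, _, _, _, _, _, ρ, hcont, hunr, hes⟩ := h
  have hpprime : p.Prime := Fact.out
  set 𝔪 := IsLocalRing.maximalIdeal 𝒪' with h𝔪
  set d : GQ →* 𝒪'ˣ := cycloO p hp𝒪' with hd
  -- the set of Frobenius lifts at the good primes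
  let Φ : Set GQ := {σ | ∃ (ℓ : ℕ) (hℓ : ℓ.Prime) (hℓN : ¬ ℓ ∣ N) (hℓS : ℓ ∉ (↑S : Set ℕ))
    (A : ValuationSubring Qb), A.LiesOverPrime ℓ ∧ A.IsFrobeniusAt σ ℓ}
  let aΦ : GQ → 𝒪' := fun σ => if hσ : σ ∈ Φ then
    χ (CuspForm.heckeAlgebra.T hσ.choose_spec.choose hσ.choose_spec.choose_spec.choose
      hσ.choose_spec.choose_spec.choose_spec.choose) else 0
  have hne_p : ∀ ℓ : ℕ, ℓ ∉ (↑S : Set ℕ) → ℓ ≠ p := fun ℓ hℓS h => hℓS (h ▸ hpS)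
  have hΦ : ∀ σ ∈ Φ, ρ σ * ρ σ - aΦ σ • ρ σ + ((d σ : 𝒪'ˣ) : 𝒪') • (1 : Module.End 𝒪' Λ) = 0 := by
    intro σ hσ
    have hσ' := hσ
    obtain ⟨A, hA, hFr⟩ := hσ.choose_spec.choose_spec.choose_spec.choose_spec
    have e1 : aΦ σ = χ (CuspForm.heckeAlgebra.T hσ.choose_spec.choose
        hσ.choose_spec.choose_spec.choose hσ.choose_spec.choose_spec.choose_spec.choose) :=
      dif_pos hσ'
    rw [e1, hd, cycloO_of_isFrobeniusAt p hp𝒪' hσ.choose_spec.choose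
      (hne_p _ hσ.choose_spec.choose_spec.choose_spec.choose) A hA hFr]
    exact hes _ _ _ _ A hA σ hFr
  have hdense : ∀ (n : ℕ) (g : GQ), ∃ σ ∈ Φ, ∃ j : ℕ, EndCongr (𝔪 ^ n) (ρ g) (ρ σ ^ j) ∧
      ((d g : 𝒪'ˣ) : 𝒪') - ((d σ : 𝒪'ˣ) : 𝒪') ^ j ∈ 𝔪 ^ n := by
    intro n g
    obtain ⟨L₁, hL₁, h1⟩ := hcont n
    obtain ⟨L₂, hL₂, h2⟩ := cycloO_sub_one_mem p hp𝒪' n
    have := hL₁
    have := hL₂
    obtain ⟨ℓ, A, φ, j, hℓ, hℓS, hA, hφ, hj⟩ :=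
      Fermat.Agent.ES.GAL.ChebQbar23.exists_frobenius_pow_eq_on (L₁ ⊔ L₂) g S
    have hℓS' : ℓ ∉ (↑S : Set ℕ) := by simpa using hℓS
    have hℓN : ¬ ℓ ∣ N := fun hdvd => hℓS (hNS ℓ hℓ hdvd)
    refine ⟨φ, ⟨ℓ, hℓ, hℓN, hℓS', A, hA, hφ⟩, j, ?_, ?_⟩
    all_goals
      set τ : GQ := g⁻¹ * φ ^ j with hτ
      have hτfix : ∀ x ∈ L₁ ⊔ L₂, τ x = x := by
        intro x hx
        rw [hτ, AlgEquiv.mul_apply, hj x hx]
        exact g.symm_apply_apply x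
      have hφj : φ ^ j = g * τ := by rw [hτ, mul_inv_cancel_left]
    · have hc := h1 τ (fun x hx => hτfix x (le_sup_left (a := L₁) (b := L₂) hx))
      have e : ρ φ ^ j = ρ g * ρ τ := by rw [← map_pow, hφj, map_mul]
      rw [e]
      have := (hc.mul_left (ρ g)).symm
      rwa [mul_one] at this
    · have hc := h2 τ (fun x hx => hτfix x (le_sup_right (a := L₁) (b := L₂) hx))
      have e : ((d φ : 𝒪'ˣ) : 𝒪') ^ j = ((d g : 𝒪'ˣ) : 𝒪') * ((d τ : 𝒪'ˣ) : 𝒪') := by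
        rw [← Units.val_pow_eq_pow_val, ← map_pow, hφj, map_mul, Units.val_mul]
      rw [e]
      have e2 : ((d g : 𝒪'ˣ) : 𝒪') - ((d g : 𝒪'ˣ) : 𝒪') * ((d τ : 𝒪'ˣ) : 𝒪') =
          -(((d g : 𝒪'ˣ) : 𝒪') * (((d τ : 𝒪'ˣ) : 𝒪') - 1)) := by ring
      rw [e2]
      exact neg_mem (Ideal.mul_mem_left _ _ hc)
  obtain ⟨a, ha, haΦ⟩ := exists_trace_fun_of_dense ρ d (fun n => 𝔪 ^ n)
    eq_zero_of_forall_mem_pow Φ aΦ hΦ hdense
  have h2 : (2 : 𝒪') ≠ 0 := two_ne_zero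
  obtain ⟨Λ', _, _, _, _, ρ', hrk, hchar, hcongr⟩ :=
    exists_rankTwo (c := complexConjugation) h2 ha complexConjugation_mul_self
      (cycloO_complexConjugation p hp𝒪')
  -- adic continuity
  have hcont' : GaloisActionIsAdicContinuous 𝒪' ρ' := by
    intro n
    obtain ⟨L₁, hL₁, h1⟩ := hcont n
    obtain ⟨L₂, hL₂, h2⟩ := cycloO_sub_one_mem p hp𝒪' n
    have := hL₁
    have := hL₂
    refine ⟨L₁ ⊔ L₂, inferInstance, fun σ hσ v => ?_⟩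
    exact hcongr (𝔪 ^ n) σ (h1 σ fun x hx => hσ x (le_sup_left (a := L₁) (b := L₂) hx))
      (h2 σ fun x hx => hσ x (le_sup_right (a := L₁) (b := L₂) hx)) v
  refine ⟨{ V := Λ', finrank_eq := hrk, ρ := ρ', isAdicContinuous := hcont' }, ?_, ?_⟩
  · -- characteristic polynomials at Frobenius lifts
    intro ℓ hℓ hℓN hℓS A hA σ hσ
    change (ρ' σ).charpoly = _
    rw [hchar σ]
    have hdσ : ((d σ : 𝒪'ˣ) : 𝒪') = (ℓ : 𝒪') :=
      cycloO_of_isFrobeniusAt p hp𝒪' hℓ (hne_p ℓ hℓS) A hA hσ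
    have haσ : a σ = χ (CuspForm.heckeAlgebra.T hℓ hℓN hℓS) := by
      have e1 := rel_of_quadratic (rho_mul_inv ρ σ) (δ := (ℓ : 𝒪'))
        (a := χ (CuspForm.heckeAlgebra.T hℓ hℓN hℓS)) (hes ℓ hℓ hℓN hℓS A hA σ hσ)
      have e2 := ha σ
      rw [hdσ, e1] at e2
      have hpos : 0 < Module.finrank 𝒪' Λ := Module.finrank_pos
      exact (smul_one_injective_of_finrank_pos hpos e2).symm
    rw [haσ, hdσ]
  · -- unramified outside `Np`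
    intro q hq hqN hqp P hP τ hτ
    have h1 : EndCongr (⊥ : Ideal 𝒪') (ρ τ) 1 := by
      rw [hunr q hq hqN hqp P hP τ hτ]
      exact EndCongr.refl _ _
    have h2 : ((d τ : 𝒪'ˣ) : 𝒪') - 1 ∈ (⊥ : Ideal 𝒪') := by
      rw [hd, cycloO_of_mem_inertia p hp𝒪' hq hqp P hP hτ, Units.val_one, sub_self]
      exact Ideal.zero_mem _
    have h3 := hcongr ⊥ τ h1 h2
    change ρ' τ = 1
    apply LinearMap.ext
    intro v
    have := h3 v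
    rw [Submodule.bot_smul, Submodule.mem_bot, sub_eq_zero] at this
    exact this

end Core

/-- **S30 from the contract**, in the literal frozen shape. -/
theorem s30_of_eigenLattice
    (H : ∀ (p : ℕ) [Fact p.Prime] (N : ℕ) [NeZero N] (S : Finset ℕ)
      (_hpS : p ∈ S) (_hNS : ∀ q : ℕ, q.Prime → q ∣ N → q ∈ S)
      (𝒪' : Type) [CommRing 𝒪'] [IsDomain 𝒪'] [IsDiscreteValuationRing 𝒪']
      [IsAdicComplete (IsLocalRing.maximalIdeal 𝒪') 𝒪'] [Finite (IsLocalRing.ResidueField 𝒪')]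
      [CharZero 𝒪'] (_hp𝒪' : (p : 𝒪') ∈ IsLocalRing.maximalIdeal 𝒪')
      (χ : CuspForm.heckeAlgebra N 2 (↑S : Set ℕ) →+* 𝒪'), EigenLattice p N S 𝒪' χ) :
    ∀ (p : ℕ) [Fact p.Prime] (N : ℕ) [NeZero N] (S : Finset ℕ)
      (_hpS : p ∈ S) (_hNS : ∀ q : ℕ, q.Prime → q ∣ N → q ∈ S)
      (𝒪' : Type) [CommRing 𝒪'] [IsDomain 𝒪'] [IsDiscreteValuationRing 𝒪']
      [IsAdicComplete (IsLocalRing.maximalIdeal 𝒪') 𝒪'] [Finite (IsLocalRing.ResidueField 𝒪')]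
      [CharZero 𝒪'] (_hp𝒪' : (p : 𝒪') ∈ IsLocalRing.maximalIdeal 𝒪')
      (χ : CuspForm.heckeAlgebra N 2 (↑S : Set ℕ) →+* 𝒪'),
      ∃ (𝒪'' : Type) (_ : CommRing 𝒪'') (_ : IsDomain 𝒪'') (_ : IsDiscreteValuationRing 𝒪'')
        (_ : IsAdicComplete (IsLocalRing.maximalIdeal 𝒪'') 𝒪'')
        (_ : Finite (IsLocalRing.ResidueField 𝒪'')) (_ : CharZero 𝒪'')
        (_ : Algebra 𝒪' 𝒪'') (_ : Module.Finite 𝒪' 𝒪'') (_ : IsLocalHom (algebraMap 𝒪' 𝒪'')),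
      Function.Injective (algebraMap 𝒪' 𝒪'') ∧
      ∃ ρ : GaloisRepAdic 𝒪'',
        (∀ (ℓ : ℕ) (hℓ : ℓ.Prime) (hℓN : ¬ ℓ ∣ N) (hℓS : ℓ ∉ (↑S : Set ℕ)),
          ∀ A : ValuationSubring (AlgebraicClosure ℚ), A.LiesOverPrime ℓ →
            ∀ σ : AlgebraicClosure ℚ ≃ₐ[ℚ] AlgebraicClosure ℚ, A.IsFrobeniusAt σ ℓ →
              LinearMap.charpoly (ρ.ρ σ) =
                X ^ 2 - C (algebraMap 𝒪' 𝒪'' (χ (CuspForm.heckeAlgebra.T hℓ hℓN hℓS))) * X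
                  + C ((ℓ : 𝒪''))) ∧
        (∀ q : ℕ, q.Prime → ¬ q ∣ N → q ≠ p → ρ.IsUnramifiedAt q) := by
  intro p _ N _ S hpS hNS 𝒪' _ _ _ _ _ _ hp𝒪' χ
  obtain ⟨ρ, h1, h2⟩ := exists_rep_of_eigenLattice hpS hNS hp𝒪' χ (H p N S hpS hNS 𝒪' hp𝒪' χ)
  exact ⟨𝒪', inferInstance, inferInstance, inferInstance, inferInstance, inferInstance,
    inferInstance, Algebra.id 𝒪', Module.Finite.self 𝒪', ⟨fun _ h => h⟩, Function.injective_id,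
    ρ, h1, h2⟩

end Fermat.Agent.ES.J.S30Skeleton8
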