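/-
Program J (S30), helper8 (integrator): **the final glue**.

`EigenLattice p N S 𝒪' χ` (the single contract of `S30Skeleton8`) from the two outputs of the
Kummer chapters:

* (K1) `{y : JZero N | p • y = 0}.Finite`;
* (K2) `TateComparison p N`: a `ℤ`-linear map `ι₀ : Λ → T_p J₀(N)`, `Λ = parabolicHoms ℤ Γ₀(N) ℤ`,
  which is a base change `ℤ → ℤ_[p]` and intertwines the double coset operators `dcZ N ℓ` on `Λ`
  with the Hecke operators `tT p N ℓ` on the Tate module (`ℓ ∤ N`);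

together with (FAITH) `FaithFinal26.heckeLam_injective` and (EIG) `EigenNonzero9`.
-/
import Mathlib
import Fermat.Agent.ES.J.S30Skeleton8
import Fermat.Agent.ES.J.EigenLatticeOf8
import Fermat.Agent.ES.ALG.EigenNonzero9
import Fermat.Agent.ES.HEQ.FaithFinal26

set_option autoImplicit false
set_option linter.unusedSectionVars false
set_option linter.overlappingInstances false
set_option synthInstance.maxHeartbeats 400000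

open TensorProduct AlgebraicCurve ModularCurve

noncomputable section

namespace Fermat.Agent.ES.J.S30Glue8

open Fermat.Agent.ES.J.S30Skeleton8 Fermat.Agent.ES.J.TateJZero13
  Fermat.Agent.ES.J.EigenLatticeOf8 Fermat.Agent.ES.HEQ.FaithInst26
  Fermat.Agent.ES.HEQ.FaithFinal26

/-- **(K2)**: the comparison between the lattice `Λ = parabolicHoms ℤ Γ₀(N) ℤ` and the `p`-adic
Tate module of `J₀(N)`. -/
def TateComparison (p : ℕ) [Fact p.Prime] (N : ℕ) [NeZero N] : Prop :=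
  ∃ ι₀ : ↥(Lam N) →ₗ[ℤ] TJ p N, IsBaseChange ℤ_[p] ι₀ ∧
    ∀ (ℓ : ℕ) (hℓ : ℓ.Prime) (hℓN : ¬ ℓ ∣ N) (x : ↥(Lam N)),
      tT p N ⟨ℓ, hℓ⟩ (ι₀ x) = ι₀ (dcZ N ℓ hℓ hℓN x)

variable {p : ℕ} [Fact p.Prime] {N : ℕ} [NeZero N] {S : Finset ℕ}
  {𝒪' : Type} [CommRing 𝒪'] [IsDomain 𝒪'] [IsDiscreteValuationRing 𝒪'] [CharZero 𝒪']
  [Algebra ℤ_[p] 𝒪']

/-- a nonzero `χ`-eigenvector in `𝒪' ⊗ T_p J₀(N)`. -/
theorem exists_eigenvector_tate (hNS : ∀ q : ℕ, q.Prime → q ∣ N → q ∈ S)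
    (hcmp : TateComparison p N) (χ : CuspForm.heckeAlgebra N 2 (↑S : Set ℕ) →+* 𝒪') :
    ∃ w : 𝒪' ⊗[ℤ_[p]] TJ p N, w ≠ 0 ∧
      ∀ (ℓ : ℕ) (hℓ : ℓ.Prime) (hℓN : ¬ ℓ ∣ N) (hℓS : ℓ ∉ (↑S : Set ℕ)),
        (tT p N ⟨ℓ, hℓ⟩).baseChange 𝒪' w = χ (CuspForm.heckeAlgebra.T hℓ hℓN hℓS) • w := by
  obtain ⟨ι₀, hι₀, hheck⟩ := hcmp
  have hS : ∀ q : ℕ, q.Prime → q ∣ N → q ∈ (↑S : Set ℕ) := fun q hq hqN => by
    exact_mod_cast hNS q hq hqN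
  let g : TJ p N →ₗ[ℤ_[p]] 𝒪' ⊗[ℤ_[p]] TJ p N := TensorProduct.mk ℤ_[p] 𝒪' (TJ p N) 1
  have hg : IsBaseChange 𝒪' g := TensorProduct.isBaseChange ℤ_[p] (TJ p N) 𝒪'
  have hι : IsBaseChange 𝒪' ((g.restrictScalars ℤ).comp ι₀) := IsBaseChange.comp hι₀ hg
  obtain ⟨w, hw0, hw⟩ :=
    Fermat.Agent.ES.ALG.EigenNonzero9.exists_eigenvector_of_isBaseChange
      ((g.restrictScalars ℤ).comp ι₀) hι
      ((heckeLam (N := N) (↑S : Set ℕ) hS : _ →ₐ[ℤ] _) : _ →+* _)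
      (heckeLam_injective (↑S : Set ℕ) hS) χ
  refine ⟨w, hw0, fun ℓ hℓ hℓN hℓS => ?_⟩
  refine hw (CuspForm.heckeAlgebra.T hℓ hℓN hℓS) ((tT p N ⟨ℓ, hℓ⟩).baseChange 𝒪') fun x => ?_
  show (tT p N ⟨ℓ, hℓ⟩).baseChange 𝒪' ((1 : 𝒪') ⊗ₜ[ℤ_[p]] ι₀ x) =
    (1 : 𝒪') ⊗ₜ[ℤ_[p]] ι₀ (heckeLam (↑S : Set ℕ) hS (CuspForm.heckeAlgebra.T hℓ hℓN hℓS) x)
  rw [LinearMap.baseChange_tmul, hheck ℓ hℓ hℓN x, heckeLam_T' (↑S : Set ℕ) hS ℓ hℓ hℓN hℓS]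

/-- **`EigenLattice` from (K1) + (K2).** -/
theorem eigenLattice_of_inputs (hpS : p ∈ S) (hNS : ∀ q : ℕ, q.Prime → q ∣ N → q ∈ S)
    (hp𝒪' : (p : 𝒪') ∈ IsLocalRing.maximalIdeal 𝒪')
    (hfin : {y : JZero N | p • y = 0}.Finite) (hcmp : TateComparison p N)
    (χ : CuspForm.heckeAlgebra N 2 (↑S : Set ℕ) →+* 𝒪') :
    EigenLattice p N S 𝒪' χ := by
  obtain ⟨w, hw0, hw⟩ := exists_eigenvector_tate hNS hcmp χ
  exact eigenLattice_of hpS hp𝒪' hfin χ w hw0 hw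

open Polynomial in
/-- **S30 from (K1) + (K2)**, in the literal frozen shape. -/
theorem s30_of_inputs
    (hfin : ∀ (p : ℕ) [Fact p.Prime] (N : ℕ) [NeZero N], {y : JZero N | p • y = 0}.Finite)
    (hcmp : ∀ (p : ℕ) [Fact p.Prime] (N : ℕ) [NeZero N], TateComparison p N) :
    ∀ (p : ℕ) [Fact p.Prime] (N : ℕ) [NeZero N] (S : Finset ℕ)
      (_hpS : p ∈ S) (_hNS : ∀ q : ℕ, q.Prime → q ∣ N → q ∈ S)
      (𝒪' : Type) [CommRing 𝒪'] [IsDomain 𝒪'] [IsDiscreteValuationRing 𝒪']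
      [IsAdicComplete (IsLocalRing.maximalIdeal 𝒪') 𝒪'] [Finite (IsLocalRing.ResidueField 𝒪')]
      [CharZero 𝒪'] (_hp𝒪' : (p : 𝒪') ∈ IsLocalRing.maximalIdeal 𝒪')
      (χ : CuspForm.heckeAlgebra N 2 (↑S : Set ℕ) →+* 𝒪'),
      ∃ (𝒪'' : Type) (_ : CommRing 𝒪'') (_ : IsDomain 𝒪'') (_ : IsDiscreteValuationRing 𝒪'')
        (_ : IsAdicComplete (IsLocalRing.maximalIdeal 𝒪'') 𝒪'')
        (_ : Finite (IsLocalRing.ResidueField 𝒪'')) (_ : CharZero 𝒪'')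
        (_ : Algebra 𝒪' 𝒪'') (_ : Module.Finite 𝒪' 𝒪'') (_ : IsLocalHom (algebraMap 𝒪' 𝒪'')),
      Function.Injective (algebraMap 𝒪' 𝒪'') ∧
      ∃ ρ : GaloisRepAdic 𝒪'',
        (∀ (ℓ : ℕ) (hℓ : ℓ.Prime) (hℓN : ¬ ℓ ∣ N) (hℓS : ℓ ∉ (↑S : Set ℕ)),
          ∀ A : ValuationSubring (AlgebraicClosure ℚ), A.LiesOverPrime ℓ →
            ∀ σ : AlgebraicClosure ℚ ≃ₐ[ℚ] AlgebraicClosure ℚ, A.IsFrobeniusAt σ ℓ →
              LinearMap.charpoly (ρ.ρ σ) =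
                X ^ 2 - C (algebraMap 𝒪' 𝒪'' (χ (CuspForm.heckeAlgebra.T hℓ hℓN hℓS))) * X
                  + C ((ℓ : 𝒪''))) ∧
        (∀ q : ℕ, q.Prime → ¬ q ∣ N → q ≠ p → ρ.IsUnramifiedAt q) :=
  s30_of_eigenLattice fun p _ N _ S hpS hNS 𝒪' _ _ _ _ _ _ hp𝒪' χ => by
    let _ : Algebra ℤ_[p] 𝒪' :=
      (Fermat.Agent.ES.J.PadicAlg8.padicToLocal p hp𝒪').toAlgebra
    exact eigenLattice_of_inputs hpS hNS hp𝒪' (hfin p N) (hcmp p N) χ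

end Fermat.Agent.ES.J.S30Glue8
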