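-- Program J, chapter J6-CMP (helper11): the Tate module of the Kummer characters of `Γ` is
-- `Hom_par(Γ, ℤ_p)`, Hecke-equivariantly.
import Mathlib
import Fermat.Agent.ES.J.TateModule13
import Fermat.Agent.ES.HEQ.ParLattice11
import Fermat.Agent.ES.HEQ.DoubleCoset27

set_option autoImplicit false

noncomputable section

namespace Fermat.Agent.ES.J.TateChar11

open Fermat.Agent.ES.J.TateModule13
open scoped MatrixGroups

variable (p : ℕ) [hp : Fact p.Prime]

/-! ### (C1) the Tate module of `ℂˣ` is free of rank one on `ζ = (exp (2πi/p^k))_k` -/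

/-- `ζ_k = exp (2πi / p^k)` as a complex unit. -/
def zetaU (k : ℕ) : ℂˣ :=
  Units.mk0 (Complex.exp (2 * Real.pi * Complex.I / ((p ^ k : ℕ) : ℂ))) (Complex.exp_ne_zero _)

theorem zetaU_isPrimitiveRoot (k : ℕ) : IsPrimitiveRoot (zetaU p k) (p ^ k) := by
  have h := Complex.isPrimitiveRoot_exp (p ^ k) (pow_ne_zero k hp.out.ne_zero)
  rw [← IsPrimitiveRoot.coe_units_iff]
  exact h

theorem zetaU_zero : zetaU p 0 = 1 := by
  have h := (zetaU_isPrimitiveRoot p 0).pow_eq_one
  rwa [pow_zero, pow_one] at h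

theorem zetaU_succ_pow (k : ℕ) : zetaU p (k + 1) ^ p = zetaU p k := by
  apply Units.ext
  rw [Units.val_pow_eq_pow_val]
  show Complex.exp _ ^ p = Complex.exp _
  rw [← Complex.exp_nat_mul]
  congr 1
  have hp0 : (p : ℂ) ≠ 0 := Nat.cast_ne_zero.mpr hp.out.ne_zero
  have hpk : ((p ^ k : ℕ) : ℂ) ≠ 0 := Nat.cast_ne_zero.mpr (pow_ne_zero k hp.out.ne_zero)
  rw [pow_succ, Nat.cast_mul]
  field_simp

/-- The Tate module of the multiplicative group of `ℂ`. -/
abbrev Tmu : Type := TateModule p (Additive ℂˣ)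

/-- The compatible system `ζ = (ζ_k)_k`. -/
def zeta : Tmu p :=
  ⟨fun k => Additive.ofMul (zetaU p k), by
    refine ⟨?_, fun k => ?_⟩
    · show Additive.ofMul (zetaU p 0) = 0
      rw [zetaU_zero]; rfl
    · show p • Additive.ofMul (zetaU p (k + 1)) = Additive.ofMul (zetaU p k)
      rw [← ofMul_pow, zetaU_succ_pow]⟩

theorem proj_zeta (k : ℕ) : proj k (zeta p) = Additive.ofMul (zetaU p k) := rfl

theorem proj_smul_zeta (a : ℤ_[p]) (k : ℕ) :
    proj k (a • zeta p) = Additive.ofMul (zetaU p k ^ cf p a k) := by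
  rw [proj_smul, proj_zeta, ← ofMul_pow]

theorem zeta_ne_zero : zeta p ≠ 0 := by
  intro h
  have h1 : proj 1 (zeta p) = 0 := by rw [h, map_zero]
  rw [proj_zeta] at h1
  have h2 : zetaU p 1 = 1 := h1
  have h3 := (zetaU_isPrimitiveRoot p 1).eq_orderOf
  rw [h2, orderOf_one, pow_one] at h3
  exact hp.out.one_lt.ne' h3

instance finite_mu : Finite {y : Additive ℂˣ // p • y = 0} := by
  have : NeZero p := ⟨hp.out.ne_zero⟩
  refine Finite.of_injective
    (fun y : {y : Additive ℂˣ // p • y = 0} => (⟨Additive.toMul (y : Additive ℂˣ), by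
      rw [mem_rootsOfUnity]
      exact y.2⟩ : rootsOfUnity p ℂ)) ?_
  intro a b hab
  apply Subtype.ext
  exact congrArg (fun z : rootsOfUnity p ℂ => Additive.ofMul (z : ℂˣ)) hab

/-- Every element of `Tmu` is a `ℤ_p`-multiple of `ζ`. -/
theorem exists_smul_zeta (x : Tmu p) : ∃ a : ℤ_[p], x = a • zeta p := by
  have : Module.Finite ℤ_[p] (Tmu p) := module_finite
  have hle : (⊤ : Submodule ℤ_[p] (Tmu p)) ≤ Submodule.span ℤ_[p] {zeta p} := by
    refine Submodule.le_of_le_smul_of_le_jacobson_bot (I := IsLocalRing.maximalIdeal ℤ_[p])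
      Module.Finite.fg_top (IsLocalRing.maximalIdeal_le_jacobson _) ?_
    intro x _
    -- `proj 1 x` is a `p`-th root of unity, hence a power of `ζ_1`
    have h1 : (Additive.toMul (proj 1 x)) ∈ rootsOfUnity (p ^ 1) ℂ := by
      rw [mem_rootsOfUnity]
      exact pow_smul_proj 1 x
    have : NeZero (p ^ 1) := ⟨pow_ne_zero 1 hp.out.ne_zero⟩
    obtain ⟨i, -, hi⟩ := (zetaU_isPrimitiveRoot p 1).eq_pow_of_mem_rootsOfUnity h1
    have h0 : proj 1 (x - (i : ℤ_[p]) • zeta p) = 0 := by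
      rw [map_sub, proj_natCast_smul, proj_zeta, ← ofMul_pow, hi]
      exact sub_self _
    obtain ⟨y, hy⟩ := (proj_eq_zero_iff' 1 _).mp h0
    rw [pow_one] at hy
    have hx : x = (i : ℤ_[p]) • zeta p + (p : ℤ_[p]) • y := by
      rw [← hy]; abel
    rw [hx]
    refine Submodule.add_mem_sup
      (Submodule.smul_mem _ _ (Submodule.mem_span_singleton_self _)) ?_
    refine Submodule.smul_mem_smul ?_ Submodule.mem_top
    rw [PadicInt.maximalIdeal_eq_span_p]
    exact Ideal.mem_span_singleton_self _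
  have hx : x ∈ Submodule.span ℤ_[p] {zeta p} := hle Submodule.mem_top
  obtain ⟨a, ha⟩ := Submodule.mem_span_singleton.mp hx
  exact ⟨a, ha.symm⟩

/-- `Tmu ≅ ℤ_p`. -/
def zetaEquiv : ℤ_[p] ≃ₗ[ℤ_[p]] Tmu p :=
  LinearEquiv.ofBijective (LinearMap.toSpanSingleton ℤ_[p] (Tmu p) (zeta p))
    ⟨by
      intro a b hab
      have h : (a - b) • zeta p = 0 :=
        (sub_smul a b (zeta p)).trans (sub_eq_zero.mpr hab)
      by_contra hne
      exact zeta_ne_zero p (eq_zero_of_smul_eq_zero (sub_ne_zero.mpr hne) h),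
    by
      intro x
      obtain ⟨a, ha⟩ := exists_smul_zeta p x
      exact ⟨a, ha.symm⟩⟩

theorem zetaEquiv_apply (a : ℤ_[p]) : zetaEquiv p a = a • zeta p := rfl

/-- `proj k (a • ζ) = ζ_k ^ (a mod p^k)`. -/
theorem proj_zetaEquiv (a : ℤ_[p]) (k : ℕ) :
    proj k (zetaEquiv p a) = Additive.ofMul (zetaU p k ^ cf p a k) :=
  proj_smul_zeta p a k

/-! ### (C2) compatible sequences of characters = characters with values in `Tmu ≅ ℤ_p` -/

section Full

variable (Γ : Subgroup SL(2, ℤ))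

/-- The group of characters `Γ → ℂˣ`, written additively. -/
abbrev X : Type := Additive (Γ →* ℂˣ)

variable {Γ}

/-- Evaluation of characters at `γ`. -/
def evHom (γ : Γ) : X Γ →+ Additive ℂˣ where
  toFun χ := Additive.ofMul ((Additive.toMul χ) γ)
  map_zero' := rfl
  map_add' _ _ := rfl

theorem evHom_apply (γ : Γ) (χ : X Γ) : evHom γ χ = Additive.ofMul ((Additive.toMul χ) γ) := rfl

variable {p}

/-- A compatible sequence of characters as a single character with values in `Tmu`. -/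
def toTmuHom (x : TateModule p (X Γ)) : Additive Γ →+ Tmu p where
  toFun γ := map (evHom (Additive.toMul γ)) x
  map_zero' := by
    apply TateModule.ext'
    intro k
    show Additive.ofMul ((Additive.toMul ((x : ℕ → X Γ) k)) (1 : Γ)) = 0
    rw [map_one]; rfl
  map_add' γ δ := by
    apply TateModule.ext'
    intro k
    show Additive.ofMul ((Additive.toMul ((x : ℕ → X Γ) k)) (Additive.toMul γ * Additive.toMul δ))
      = Additive.ofMul ((Additive.toMul ((x : ℕ → X Γ) k)) (Additive.toMul γ))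
        + Additive.ofMul ((Additive.toMul ((x : ℕ → X Γ) k)) (Additive.toMul δ))
    rw [map_mul]; rfl

theorem proj_toTmuHom (x : TateModule p (X Γ)) (γ : Additive Γ) (k : ℕ) :
    proj k (toTmuHom x γ) = Additive.ofMul ((Additive.toMul (proj k x)) (Additive.toMul γ)) := rfl

/-- The `k`-th character of a character with values in `Tmu`. -/
def charAt (k : ℕ) (ψ : Additive Γ →+ Tmu p) : Γ →* ℂˣ :=
  MonoidHom.toAdditive.symm ((proj k).comp ψ)

omit hp in
theorem charAt_apply (k : ℕ) (ψ : Additive Γ →+ Tmu p) (γ : Γ) :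
    charAt k ψ γ = Additive.toMul (proj k (ψ (Additive.ofMul γ))) := rfl

/-- A character with values in `Tmu` as a compatible sequence of characters. -/
def ofTmuHom (ψ : Additive Γ →+ Tmu p) : TateModule p (X Γ) :=
  ⟨fun k => Additive.ofMul (charAt k ψ), by
    refine ⟨?_, fun k => ?_⟩
    · show Additive.ofMul (charAt 0 ψ) = 0
      have : charAt 0 ψ = 1 := by
        ext γ
        rw [charAt_apply]
        have := (ψ (Additive.ofMul γ)).zero_apply'
        rw [proj_apply, this]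
        rfl
      rw [this]; rfl
    · show p • Additive.ofMul (charAt (k + 1) ψ) = Additive.ofMul (charAt k ψ)
      rw [← ofMul_pow]
      congr 1
      ext γ
      rw [MonoidHom.pow_apply, charAt_apply, charAt_apply, ← proj_succ k, toMul_nsmul]⟩

theorem proj_ofTmuHom (ψ : Additive Γ →+ Tmu p) (k : ℕ) :
    proj k (ofTmuHom ψ) = Additive.ofMul (charAt k ψ) := rfl

theorem toTmuHom_ofTmuHom (ψ : Additive Γ →+ Tmu p) : toTmuHom (ofTmuHom ψ) = ψ := by
  refine AddMonoidHom.ext fun γ => ?_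
  apply TateModule.ext'
  intro k
  rfl

theorem ofTmuHom_toTmuHom (x : TateModule p (X Γ)) : ofTmuHom (toTmuHom x) = x := by
  apply TateModule.ext'
  intro k
  rfl

variable (p Γ)

/-- The Tate module of all characters of `Γ` is `Hom(Γ, ℤ_p)`. -/
def fullEquiv : TateModule p (X Γ) ≃ₗ[ℤ_[p]] (Additive Γ →+ ℤ_[p]) where
  toFun x := ((zetaEquiv p).symm : Tmu p →+ ℤ_[p]).comp (toTmuHom x)
  map_add' x y := by
    refine AddMonoidHom.ext fun γ => ?_
    show (zetaEquiv p).symm (map (evHom (Additive.toMul γ)) (x + y)) = _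
    rw [map_add, map_add]
    rfl
  map_smul' a x := by
    refine AddMonoidHom.ext fun γ => ?_
    show (zetaEquiv p).symm (map (evHom (Additive.toMul γ)) (a • x)) = _
    rw [map_smul, map_smul]
    rfl
  invFun φ := ofTmuHom (((zetaEquiv p : ℤ_[p] →ₗ[ℤ_[p]] Tmu p) : ℤ_[p] →+ Tmu p).comp φ)
  left_inv x := by
    have : (((zetaEquiv p : ℤ_[p] →ₗ[ℤ_[p]] Tmu p) : ℤ_[p] →+ Tmu p).comp
        (((zetaEquiv p).symm : Tmu p →+ ℤ_[p]).comp (toTmuHom x))) = toTmuHom x := by
      refine AddMonoidHom.ext fun γ => ?_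
      show zetaEquiv p ((zetaEquiv p).symm (toTmuHom x γ)) = toTmuHom x γ
      rw [LinearEquiv.apply_symm_apply]
    show ofTmuHom _ = x
    rw [this, ofTmuHom_toTmuHom]
  right_inv φ := by
    refine AddMonoidHom.ext fun γ => ?_
    show (zetaEquiv p).symm (toTmuHom (ofTmuHom _) γ) = φ γ
    rw [toTmuHom_ofTmuHom]
    show (zetaEquiv p).symm (zetaEquiv p (φ γ)) = φ γ
    rw [LinearEquiv.symm_apply_apply]

variable {p Γ}

/-- Characterisation of `fullEquiv`: the `k`-th character of `x` is `γ ↦ ζ_k ^ (φ γ mod p^k)`. -/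
theorem toMul_proj_apply (x : TateModule p (X Γ)) (k : ℕ) (γ : Γ) :
    (Additive.toMul (proj k x)) γ = zetaU p k ^ cf p (fullEquiv p Γ x (Additive.ofMul γ)) k := by
  have h1 : zetaEquiv p (fullEquiv p Γ x (Additive.ofMul γ)) = toTmuHom x (Additive.ofMul γ) := by
    show zetaEquiv p ((zetaEquiv p).symm (toTmuHom x (Additive.ofMul γ))) = _
    rw [LinearEquiv.apply_symm_apply]
  have h2 := congrArg (proj k) h1
  rw [proj_zetaEquiv, proj_toTmuHom] at h2
  exact (congrArg Additive.toMul h2).symm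

theorem toMul_proj_symm_apply (φ : Additive Γ →+ ℤ_[p]) (k : ℕ) (γ : Γ) :
    (Additive.toMul (proj k ((fullEquiv p Γ).symm φ))) γ
      = zetaU p k ^ cf p (φ (Additive.ofMul γ)) k := by
  rw [toMul_proj_apply, LinearEquiv.apply_symm_apply]

end Full

/-! ### elements of trace `-1, 0, 1` have finite order -/

section Elliptic

theorem mat_sq (M : Matrix (Fin 2) (Fin 2) ℤ) (hM : M.det = 1) :
    M * M = M.trace • M - 1 := by
  rw [Matrix.det_fin_two] at hM
  have h00 : (M * M) 0 0 = (M.trace • M - 1) 0 0 := by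
    rw [Matrix.mul_apply, Fin.sum_univ_two, Matrix.sub_apply, Matrix.smul_apply,
      Matrix.one_apply_eq, Matrix.trace_fin_two, smul_eq_mul]
    linear_combination (-1 : ℤ) * hM
  have h01 : (M * M) 0 1 = (M.trace • M - 1) 0 1 := by
    rw [Matrix.mul_apply, Fin.sum_univ_two, Matrix.sub_apply, Matrix.smul_apply,
      Matrix.one_apply_ne (by decide), Matrix.trace_fin_two, smul_eq_mul]
    ring
  have h10 : (M * M) 1 0 = (M.trace • M - 1) 1 0 := by
    rw [Matrix.mul_apply, Fin.sum_univ_two, Matrix.sub_apply, Matrix.smul_apply,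
      Matrix.one_apply_ne (by decide), Matrix.trace_fin_two, smul_eq_mul]
    ring
  have h11 : (M * M) 1 1 = (M.trace • M - 1) 1 1 := by
    rw [Matrix.mul_apply, Fin.sum_univ_two, Matrix.sub_apply, Matrix.smul_apply,
      Matrix.one_apply_eq, Matrix.trace_fin_two, smul_eq_mul]
    linear_combination (-1 : ℤ) * hM
  ext i j
  fin_cases i <;> fin_cases j
  · exact h00
  · exact h01
  · exact h10
  · exact h11

theorem mat_pow_twelve (M : Matrix (Fin 2) (Fin 2) ℤ) (hM : M.det = 1) (ht : |M.trace| ≤ 1) :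
    M ^ 12 = 1 := by
  have h := mat_sq M hM
  have hcases : M.trace = -1 ∨ M.trace = 0 ∨ M.trace = 1 := by
    rw [abs_le] at ht
    omega
  rcases hcases with h1 | h1 | h1
  · rw [h1] at h
    have h3 : M ^ 3 = 1 := by
      have : M ^ 3 = M * M * M := by rw [pow_succ, pow_two]
      rw [this, h]
      have h' : (-1 : ℤ) • M = -M := by simp
      rw [h', sub_mul, neg_mul, h, h', one_mul]
      abel
    calc M ^ 12 = (M ^ 3) ^ 4 := by rw [← pow_mul]
      _ = 1 := by rw [h3, one_pow]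
  · rw [h1, zero_smul, zero_sub] at h
    calc M ^ 12 = (M * M) ^ 6 := by rw [← pow_two, ← pow_mul]
      _ = 1 := by rw [h]; exact Even.neg_one_pow (by decide)
  · rw [h1, one_smul] at h
    have h3 : M ^ 3 = -1 := by
      have : M ^ 3 = M * M * M := by rw [pow_succ, pow_two]
      rw [this, h, sub_mul, h, one_mul]
      abel
    calc M ^ 12 = (M ^ 3) ^ 4 := by rw [← pow_mul]
      _ = 1 := by rw [h3]; exact Even.neg_one_pow (by decide)

variable {Γ : Subgroup SL(2, ℤ)}

theorem pow_twelve_eq_one (γ : Γ)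
    (ht : |((γ : SL(2, ℤ)) : Matrix (Fin 2) (Fin 2) ℤ).trace| ≤ 1) : γ ^ 12 = 1 := by
  apply Subtype.ext
  rw [Subgroup.coe_pow, Subgroup.coe_one]
  apply Subtype.ext
  rw [Matrix.SpecialLinearGroup.coe_pow, Matrix.SpecialLinearGroup.coe_one]
  exact mat_pow_twelve _ (γ : SL(2, ℤ)).2 ht

open ModularCurve.Period in
/-- A parabolic character with torsion-free values kills every `γ` with `|tr γ| ≤ 2`. -/
theorem parabolic_apply_eq_zero {A : Type*} [AddCommGroup A] [IsAddTorsionFree A]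
    {φ : Additive Γ →+ A} (hφ : IsParabolicHom Γ φ) (γ : Γ)
    (ht : |((γ : SL(2, ℤ)) : Matrix (Fin 2) (Fin 2) ℤ).trace| ≤ 2) :
    φ (Additive.ofMul γ) = 0 := by
  by_cases h2 : |((γ : SL(2, ℤ)) : Matrix (Fin 2) (Fin 2) ℤ).trace| = 2
  · refine hφ γ ?_
    rw [← sq_abs, h2]; norm_num
  · have h1 : |((γ : SL(2, ℤ)) : Matrix (Fin 2) (Fin 2) ℤ).trace| ≤ 1 := by omega
    have h12 := pow_twelve_eq_one γ h1
    have : (12 : ℕ) • φ (Additive.ofMul γ) = 0 := by
      rw [← map_nsmul, ← ofMul_pow, h12, ofMul_one, map_zero]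
    exact (nsmul_right_injective (by norm_num : (12 : ℕ) ≠ 0)) (this.trans (smul_zero 12).symm)

end Elliptic

/-! ### (C2) the parabolic part -/

section Par

open ModularCurve.Period

variable (Γ : Subgroup SL(2, ℤ))

/-- The characters of `Γ` which are trivial on every `γ` with `|tr γ| ≤ 2` (parabolic and elliptic
elements, `±1`). The `p^k`-torsion of this group is the set of Kummer characters of level `p^k`. -/
def Xpar : AddSubgroup (X Γ) where
  carrier := {χ | ∀ γ : Γ, |((γ : SL(2, ℤ)) : Matrix (Fin 2) (Fin 2) ℤ).trace| ≤ 2 →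
    (Additive.toMul χ) γ = 1}
  zero_mem' := fun _ _ => rfl
  add_mem' := by
    intro χ ψ hχ hψ γ hγ
    show (Additive.toMul χ) γ * (Additive.toMul ψ) γ = 1
    rw [hχ γ hγ, hψ γ hγ, one_mul]
  neg_mem' := by
    intro χ hχ γ hγ
    show ((Additive.toMul χ) γ)⁻¹ = 1
    rw [hχ γ hγ, inv_one]

variable {Γ}

theorem mem_Xpar_iff (χ : X Γ) : χ ∈ Xpar Γ ↔
    ∀ γ : Γ, |((γ : SL(2, ℤ)) : Matrix (Fin 2) (Fin 2) ℤ).trace| ≤ 2 →
      (Additive.toMul χ) γ = 1 := Iff.rfl

variable {p}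

theorem fullEquiv_apply_eq_zero (y : TateModule p (X Γ)) (γ : Γ)
    (h : ∀ k, (Additive.toMul (proj k y)) γ = 1) : fullEquiv p Γ y (Additive.ofMul γ) = 0 := by
  have h0 : toTmuHom y (Additive.ofMul γ) = 0 := by
    apply TateModule.ext'
    intro k
    show proj k (toTmuHom y (Additive.ofMul γ)) = 0
    rw [proj_toTmuHom]
    show Additive.ofMul ((Additive.toMul (proj k y)) γ) = 0
    rw [h k]; rfl
  show (zetaEquiv p).symm (toTmuHom y (Additive.ofMul γ)) = 0
  rw [h0, map_zero]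

theorem abs_le_two_of_sq {t : ℤ} (h : t ^ 2 = 4) : |t| ≤ 2 :=
  abs_le.mpr ⟨by nlinarith, by nlinarith⟩

/-- forward map of `parEquiv`. -/
def parFwd (x : TateModule p ↥(Xpar Γ)) : ↥(parabolicHoms ℤ_[p] Γ ℤ_[p]) :=
  ⟨fullEquiv p Γ (map (Xpar Γ).subtype x), by
    intro γ hγ
    refine fullEquiv_apply_eq_zero _ γ fun k => ?_
    have hk : (((x : ℕ → ↥(Xpar Γ)) k : ↥(Xpar Γ)) : X Γ) ∈ Xpar Γ :=
      ((x : ℕ → ↥(Xpar Γ)) k).2
    exact hk γ (abs_le_two_of_sq hγ)⟩

theorem coe_parFwd (x : TateModule p ↥(Xpar Γ)) :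
    ((parFwd x : ↥(parabolicHoms ℤ_[p] Γ ℤ_[p])) : Additive Γ →+ ℤ_[p])
      = fullEquiv p Γ (map (Xpar Γ).subtype x) := rfl

theorem proj_symm_mem_Xpar (φ : ↥(parabolicHoms ℤ_[p] Γ ℤ_[p])) (k : ℕ) :
    proj k ((fullEquiv p Γ).symm (φ : Additive Γ →+ ℤ_[p])) ∈ Xpar Γ := by
  intro γ hγ
  rw [toMul_proj_symm_apply, parabolic_apply_eq_zero φ.2 γ hγ, cf_zero, pow_zero]

/-- inverse map of `parEquiv`. -/
def parInv (φ : ↥(parabolicHoms ℤ_[p] Γ ℤ_[p])) : TateModule p ↥(Xpar Γ) :=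
  ⟨fun k => ⟨proj k ((fullEquiv p Γ).symm (φ : Additive Γ →+ ℤ_[p])), proj_symm_mem_Xpar φ k⟩, by
    refine ⟨Subtype.ext ?_, fun k => Subtype.ext ?_⟩
    · exact ((fullEquiv p Γ).symm (φ : Additive Γ →+ ℤ_[p])).zero_apply'
    · exact ((fullEquiv p Γ).symm (φ : Additive Γ →+ ℤ_[p])).p_smul_succ k⟩

theorem map_subtype_parInv (φ : ↥(parabolicHoms ℤ_[p] Γ ℤ_[p])) :
    map (Xpar Γ).subtype (parInv φ) = (fullEquiv p Γ).symm (φ : Additive Γ →+ ℤ_[p]) := by
  apply TateModule.ext'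
  intro k
  rfl

variable (p Γ)

/-- **(C2)** The Tate module of the Kummer characters of `Γ` is `Hom_par(Γ, ℤ_p)`. -/
def parEquiv : TateModule p ↥(Xpar Γ) ≃ₗ[ℤ_[p]] ↥(parabolicHoms ℤ_[p] Γ ℤ_[p]) where
  toFun := parFwd
  map_add' x y := by
    apply Subtype.ext
    rw [coe_parFwd, map_add, map_add]
    rfl
  map_smul' a x := by
    apply Subtype.ext
    rw [coe_parFwd, map_smul, map_smul]
    rfl
  invFun := parInv
  left_inv x := by
    apply TateModule.ext'
    intro k
    apply Subtype.ext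
    show proj k ((fullEquiv p Γ).symm (fullEquiv p Γ (map (Xpar Γ).subtype x))) = _
    rw [LinearEquiv.symm_apply_apply]
    rfl
  right_inv φ := by
    apply Subtype.ext
    rw [coe_parFwd, map_subtype_parInv, LinearEquiv.apply_symm_apply]

variable {p Γ}

theorem coe_parEquiv (x : TateModule p ↥(Xpar Γ)) :
    ((parEquiv p Γ x : ↥(parabolicHoms ℤ_[p] Γ ℤ_[p])) : Additive Γ →+ ℤ_[p])
      = fullEquiv p Γ (map (Xpar Γ).subtype x) := rfl

/-- Characterisation of `parEquiv`: `χ_k γ = ζ_k ^ (φ γ mod p^k)`. -/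
theorem parEquiv_spec (x : TateModule p ↥(Xpar Γ)) (k : ℕ) (γ : Γ) :
    (Additive.toMul ((proj k x : ↥(Xpar Γ)) : X Γ)) γ
      = zetaU p k ^ cf p ((parEquiv p Γ x : Additive Γ →+ ℤ_[p]) (Additive.ofMul γ)) k := by
  rw [coe_parEquiv, ← toMul_proj_apply]
  rfl

theorem parEquiv_symm_spec (φ : ↥(parabolicHoms ℤ_[p] Γ ℤ_[p])) (k : ℕ) (γ : Γ) :
    (Additive.toMul ((proj k ((parEquiv p Γ).symm φ) : ↥(Xpar Γ)) : X Γ)) γ
      = zetaU p k ^ cf p ((φ : Additive Γ →+ ℤ_[p]) (Additive.ofMul γ)) k := by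
  rw [parEquiv_spec, LinearEquiv.apply_symm_apply]

end Par

/-! ### (C3) operators given by finite products of translates; the double coset operators -/

section Equivariance

variable {p} {Γ : Subgroup SL(2, ℤ)}

/-- If `(T χ) γ = ∏ i, χ (c i γ)` then `T` corresponds to `φ ↦ (γ ↦ ∑ i, φ (c i γ))`. -/
theorem fullEquiv_map_of_prod {ι : Type*} (s : Finset ι) (c : ι → Γ → Γ) (T : X Γ →+ X Γ)
    (hT : ∀ (χ : X Γ) (γ : Γ), (Additive.toMul (T χ)) γ = ∏ i ∈ s, (Additive.toMul χ) (c i γ))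
    (x : TateModule p (X Γ)) (γ : Γ) :
    fullEquiv p Γ (map T x) (Additive.ofMul γ)
      = ∑ i ∈ s, fullEquiv p Γ x (Additive.ofMul (c i γ)) := by
  have key : toTmuHom (map T x) (Additive.ofMul γ)
      = ∑ i ∈ s, toTmuHom x (Additive.ofMul (c i γ)) := by
    apply TateModule.ext'
    intro k
    show proj k (toTmuHom (map T x) (Additive.ofMul γ)) = proj k (∑ i ∈ s, _)
    rw [map_sum]
    simp only [proj_toTmuHom, proj_map, toMul_ofMul]
    rw [hT, ofMul_prod]
  show (zetaEquiv p).symm (toTmuHom (map T x) (Additive.ofMul γ))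
    = ∑ i ∈ s, (zetaEquiv p).symm (toTmuHom x (Additive.ofMul (c i γ)))
  rw [key, map_sum]

end Equivariance

section Hecke

open CongruenceSubgroup Fermat.Agent.ES.HEQ.DoubleCoset27

variable {p} {N : ℕ} {l : ℕ} [hl : Fact l.Prime] (hlN : ¬ l ∣ N)

/-- The double coset operator `T_l^dc` on the characters of `Γ₀(N)`, additively. -/
def tdcX : X (Gamma0 N) →+ X (Gamma0 N) where
  toFun χ := Additive.ofMul (tdcMul hlN (Additive.toMul χ))
  map_zero' := by
    show Additive.ofMul (tdcMul hlN (1 : Gamma0 N →* ℂˣ)) = 0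
    have : tdcMul hlN (1 : Gamma0 N →* ℂˣ) = 1 := by
      ext γ
      simp [tdcMul_apply]
    rw [this]; rfl
  map_add' χ ψ := by
    show Additive.ofMul (tdcMul hlN (Additive.toMul χ * Additive.toMul ψ))
      = Additive.ofMul (tdcMul hlN (Additive.toMul χ))
        + Additive.ofMul (tdcMul hlN (Additive.toMul ψ))
    have : tdcMul hlN (Additive.toMul χ * Additive.toMul ψ)
        = tdcMul hlN (Additive.toMul χ) * tdcMul hlN (Additive.toMul ψ) := by
      ext γ
      simp [tdcMul_apply, Finset.prod_mul_distrib]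
    rw [this]; rfl

theorem tdcX_apply (χ : X (Gamma0 N)) (γ : Gamma0 N) :
    (Additive.toMul (tdcX hlN χ)) γ
      = ∏ i : Option (ZMod l), (Additive.toMul χ) (cocG hlN γ i) := rfl

/-- **(C3)** `fullEquiv` intertwines `T_l^dc` on characters with `tdcAdd` on `Hom(Γ₀(N), ℤ_p)`. -/
theorem fullEquiv_tdc (x : TateModule p (X (Gamma0 N))) :
    fullEquiv p (Gamma0 N) (map (tdcX hlN) x) = tdcAdd hlN (fullEquiv p (Gamma0 N) x) := by
  refine AddMonoidHom.ext fun γ => ?_
  have h := fullEquiv_map_of_prod (p := p) (Finset.univ : Finset (Option (ZMod l)))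
    (fun i γ => cocG hlN γ i) (tdcX hlN) (fun χ γ => tdcX_apply hlN χ γ) x (Additive.toMul γ)
  exact h

end Hecke

/-! ### (C5) from a compatible system of Kummer isomorphisms to `T_p J ≅ Hom_par(Γ, ℤ_p)` -/

section Kummer

open ModularCurve.Period

/-- The `n`-torsion subgroup (same definition as the Prelude's `Pic0.torsion`). -/
def tors (J : Type*) [AddCommGroup J] (n : ℕ) : AddSubgroup J :=
  (Submodule.torsionBy ℤ J (n : ℤ)).toAddSubgroup

omit hp in
theorem mem_tors {J : Type*} [AddCommGroup J] {n : ℕ} {x : J} : x ∈ tors J n ↔ n • x = 0 := by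
  show x ∈ Submodule.torsionBy ℤ J (n : ℤ) ↔ _
  rw [Submodule.mem_torsionBy_iff, natCast_zsmul]

/-- **The contract for J1 + J2**: a compatible system of Kummer isomorphisms
`J[p^k] ≅ {χ ∈ Xpar Γ | χ^(p^k) = 1}`. -/
structure KummerSystem (p : ℕ) (Γ : Subgroup SL(2, ℤ)) (J : Type*) [AddCommGroup J] where
  /-- the Kummer map of level `p^k` -/
  κ : ∀ k : ℕ, ↥(tors J (p ^ k)) →+ X Γ
  inj : ∀ k, Function.Injective (κ k)
  range_eq : ∀ (k : ℕ) (χ : X Γ), χ ∈ Set.range (κ k) ↔ χ ∈ Xpar Γ ∧ p ^ k • χ = 0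
  compat : ∀ (k : ℕ) (x : ↥(tors J (p ^ (k + 1)))) (hx : p • (x : J) ∈ tors J (p ^ k)),
    κ k ⟨p • (x : J), hx⟩ = p • κ (k + 1) x

variable {p} {Γ : Subgroup SL(2, ℤ)} {J : Type*} [AddCommGroup J]

namespace KummerSystem

variable (KS : KummerSystem p Γ J)

theorem proj_mem_tors (x : TateModule p J) (k : ℕ) : proj k x ∈ tors J (p ^ k) :=
  mem_tors.mpr (pow_smul_proj k x)

/-- the level-`k` component of a point of the Tate module, as a torsion point. -/
def comp (x : TateModule p J) (k : ℕ) : ↥(tors J (p ^ k)) := ⟨proj k x, proj_mem_tors x k⟩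

omit hp in
theorem κ_mem_Xpar (k : ℕ) (y : ↥(tors J (p ^ k))) : KS.κ k y ∈ Xpar Γ :=
  ((KS.range_eq k _).mp ⟨y, rfl⟩).1

/-- the sequence of Kummer characters of a point of the Tate module. -/
def toSeq (x : TateModule p J) : TateModule p ↥(Xpar Γ) :=
  ⟨fun k => ⟨KS.κ k (comp x k), KS.κ_mem_Xpar k _⟩, by
    refine ⟨Subtype.ext ?_, fun k => Subtype.ext ?_⟩
    · show KS.κ 0 (comp x 0) = 0
      have : comp x 0 = 0 := Subtype.ext x.zero_apply'
      rw [this, map_zero]
    · show p • KS.κ (k + 1) (comp x (k + 1)) = KS.κ k (comp x k)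
      have hx : p • ((comp x (k + 1) : ↥(tors J (p ^ (k + 1)))) : J) ∈ tors J (p ^ k) := by
        show p • proj (k + 1) x ∈ _
        rw [proj_succ]
        exact proj_mem_tors x k
      rw [← KS.compat k (comp x (k + 1)) hx]
      congr 1
      exact Subtype.ext (proj_succ k x)⟩

theorem coe_proj_toSeq (x : TateModule p J) (k : ℕ) :
    ((proj k (KS.toSeq x) : ↥(Xpar Γ)) : X Γ) = KS.κ k (comp x k) := rfl

/-- `toSeq` as a `ℤ_p`-linear map. -/
def toSeqLin : TateModule p J →ₗ[ℤ_[p]] TateModule p ↥(Xpar Γ) where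
  toFun := KS.toSeq
  map_add' x y := by
    apply TateModule.ext'
    intro k
    apply Subtype.ext
    show KS.κ k (comp (x + y) k) = KS.κ k (comp x k) + KS.κ k (comp y k)
    rw [← map_add]
    rfl
  map_smul' a x := by
    apply TateModule.ext'
    intro k
    apply Subtype.ext
    show KS.κ k (comp (a • x) k) = cf p a k • KS.κ k (comp x k)
    rw [← map_nsmul]
    rfl

theorem toSeqLin_injective : Function.Injective KS.toSeqLin := by
  rw [injective_iff_map_eq_zero]
  intro x hx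
  apply TateModule.ext'
  intro k
  have h1 : KS.κ k (comp x k) = 0 := by
    have := congrArg (fun y : TateModule p ↥(Xpar Γ) => ((proj k y : ↥(Xpar Γ)) : X Γ)) hx
    exact this
  have h2 : comp x k = 0 := KS.inj k (h1.trans (map_zero _).symm)
  exact congrArg Subtype.val h2

theorem toSeqLin_surjective : Function.Surjective KS.toSeqLin := by
  intro y
  have hy : ∀ k, ∃ z : ↥(tors J (p ^ k)), KS.κ k z = ((proj k y : ↥(Xpar Γ)) : X Γ) := by
    intro k
    refine (KS.range_eq k _).mpr ⟨(proj k y).2, ?_⟩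
    have := pow_smul_proj k y
    exact congrArg Subtype.val this
  choose z hz using hy
  have h0 : ((z 0 : ↥(tors J (p ^ 0))) : J) = 0 := by
    have : z 0 = 0 := by
      apply KS.inj 0
      rw [hz 0, map_zero]
      exact congrArg Subtype.val y.zero_apply'
    exact congrArg Subtype.val this
  have hsucc : ∀ k, p • ((z (k + 1) : ↥(tors J (p ^ (k + 1)))) : J) = ((z k : ↥(tors J (p ^ k))) : J) := by
    intro k
    have hx : p • ((z (k + 1) : ↥(tors J (p ^ (k + 1)))) : J) ∈ tors J (p ^ k) := by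
      rw [mem_tors, ← mul_smul, ← pow_succ]
      exact mem_tors.mp (z (k + 1)).2
    have : (⟨p • ((z (k + 1) : ↥(tors J (p ^ (k + 1)))) : J), hx⟩ : ↥(tors J (p ^ k))) = z k := by
      apply KS.inj k
      rw [KS.compat k (z (k + 1)) hx, hz, hz]
      exact congrArg Subtype.val (proj_succ k y)
    exact congrArg Subtype.val this
  have hmem : (fun k => ((z k : ↥(tors J (p ^ k))) : J)) ∈ tateSubgroup p J := ⟨h0, hsucc⟩
  refine ⟨⟨fun k => ((z k : ↥(tors J (p ^ k))) : J), hmem⟩, ?_⟩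
  apply TateModule.ext'
  intro k
  apply Subtype.ext
  show KS.κ k (comp ⟨fun k => ((z k : ↥(tors J (p ^ k))) : J), hmem⟩ k)
    = ((proj k y : ↥(Xpar Γ)) : X Γ)
  rw [← hz k]
  congr 1

/-- **(C5)** `T_p J ≅ Hom_par(Γ, ℤ_p)`. -/
def tateEquiv : TateModule p J ≃ₗ[ℤ_[p]] ↥(parabolicHoms ℤ_[p] Γ ℤ_[p]) :=
  (LinearEquiv.ofBijective KS.toSeqLin ⟨KS.toSeqLin_injective, KS.toSeqLin_surjective⟩).trans
    (parEquiv p Γ)

theorem tateEquiv_apply (x : TateModule p J) :
    KS.tateEquiv x = parEquiv p Γ (KS.toSeq x) := rfl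

/-- Characterisation: the Kummer character of `x_k` is `γ ↦ ζ_k ^ (φ γ mod p^k)`. -/
theorem tateEquiv_spec (x : TateModule p J) (k : ℕ) (γ : Γ) :
    (Additive.toMul (KS.κ k (comp x k))) γ
      = zetaU p k ^ cf p ((KS.tateEquiv x : Additive Γ →+ ℤ_[p]) (Additive.ofMul γ)) k := by
  rw [tateEquiv_apply, ← parEquiv_spec]
  rfl

end KummerSystem

end Kummer

section KummerHecke

open CongruenceSubgroup Fermat.Agent.ES.HEQ.DoubleCoset27

variable {p} {N : ℕ} {l : ℕ} [hl : Fact l.Prime] (hlN : ¬ l ∣ N)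
variable {J : Type*} [AddCommGroup J] (KS : KummerSystem p (Gamma0 N) J)

/-- **Hecke equivariance** of `tateEquiv`: if `f : J →+ J` corresponds to `T_l^dc` under the Kummer
maps then `T_p f` corresponds to `tdcAdd` on `Hom_par(Γ₀(N), ℤ_p)`. -/
theorem KummerSystem.tateEquiv_map (f : J →+ J)
    (hf : ∀ (k : ℕ) (x : ↥(tors J (p ^ k))) (hfx : f (x : J) ∈ tors J (p ^ k)),
      KS.κ k ⟨f (x : J), hfx⟩ = tdcX hlN (KS.κ k x))
    (x : TateModule p J) :
    ((KS.tateEquiv (map f x) : ↥(ModularCurve.Period.parabolicHoms ℤ_[p] (Gamma0 N) ℤ_[p])) :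
        Additive (Gamma0 N) →+ ℤ_[p])
      = tdcAdd hlN (KS.tateEquiv x : Additive (Gamma0 N) →+ ℤ_[p]) := by
  rw [KummerSystem.tateEquiv_apply, KummerSystem.tateEquiv_apply, coe_parEquiv, coe_parEquiv,
    ← fullEquiv_tdc]
  congr 1
  apply TateModule.ext'
  intro k
  show KS.κ k (KummerSystem.comp (map f x) k) = tdcX hlN (KS.κ k (KummerSystem.comp x k))
  rw [← hf k (KummerSystem.comp x k)
    (by
      show f (proj k x) ∈ _
      rw [← proj_map]
      exact KummerSystem.proj_mem_tors _ k)]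
  rfl

end KummerHecke

end Fermat.Agent.ES.J.TateChar11
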