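/-
Program J (S30), chapter J6.5, helper13: **the `χ`-eigen-sublattice and the algebraic assembly**.

* `eigenLattice θ χ` : for `θ : H →+* End 𝒪 Λ`, `χ : H →+* 𝒪`, the submodule `{v | ∀ t, θ t v = χ t • v}`;
  it is saturated (`𝒪` a domain, `Λ` torsion-free) and stable under every `ρ` commuting with `θ`;
  on it `ρ σ² − θ t ρ σ + b = 0` becomes `ρ σ² − χ t • ρ σ + b = 0`.
* `exists_rankTwo_of_eigen` : **(ALG-ASSEMBLY)** from a finite free `𝒪`-lattice with commuting `ρ`, `θ`,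
  a `χ`-eigenvector, the Eichler–Shimura relation on a set `Φ` whose powers are dense, a character `d`
  and one `c` with `c² = 1`, `d c = −1`: a free rank-two `𝒪`-module `Λ'` with `ρ'`,
  `charpoly (ρ' σ) = X² − χ(t_σ) X + d σ` for `σ ∈ Φ`, inheriting all congruences `≡ 1`
  (helper9's `RelDense9.exists_trace_fun_of_dense` + `RankTwo9.exists_rankTwo`).
* base change `R → 𝒪` of a representation on an `R`-module `T`: `bcEnd`, `rhoO`, `thetaO`,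
  `endCongr_rhoO`, relations transfer.
-/
import Mathlib
import Fermat.Agent.ES.ALG.RelDense9
import Fermat.Agent.ES.ALG.RankTwo9

set_option autoImplicit false
set_option linter.unusedSectionVars false

noncomputable section

namespace Fermat.Agent.ES.J.EigenLattice13

open Module Polynomial TensorProduct
open Fermat.Agent.ES.ALG.RelDense9 Fermat.Agent.ES.ALG.RankTwo9

/-! ### generalities on `EndCongr` -/

section Congr

variable {𝒪 : Type*} [CommRing 𝒪] {Λ : Type*} [AddCommGroup Λ] [Module 𝒪 Λ]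

theorem EndCongr.mono {I J : Ideal 𝒪} (hIJ : I ≤ J) {f g : End 𝒪 Λ} (h : EndCongr I f g) :
    EndCongr J f g := fun v => Submodule.smul_mono_left hIJ (h v)

/-- `f = g` from a congruence modulo `⊥`. -/
theorem eq_of_endCongr_bot {f g : End 𝒪 Λ} (h : EndCongr (⊥ : Ideal 𝒪) f g) : f = g := by
  refine LinearMap.ext fun v => ?_
  have := h v
  rw [Submodule.bot_smul, Submodule.mem_bot, sub_eq_zero] at this
  exact this

theorem endCongr_of_eq (I : Ideal 𝒪) {f g : End 𝒪 Λ} (h : f = g) : EndCongr I f g := by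
  subst h
  exact EndCongr.refl I f

end Congr

/-! ### the eigen-sublattice -/

section Eigen

variable {𝒪 : Type*} [CommRing 𝒪] {Λ : Type*} [AddCommGroup Λ] [Module 𝒪 Λ]
variable {G : Type*} [Group G] {H : Type*} [Semiring H]

/-- the `χ`-eigen-submodule of `Λ` for the action `θ` of `H`. -/
def eigenLattice (θ : H →+* End 𝒪 Λ) (χ : H →+* 𝒪) : Submodule 𝒪 Λ where
  carrier := {v | ∀ t, θ t v = χ t • v}
  add_mem' := by
    intro v w hv hw t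
    rw [map_add, hv t, hw t, smul_add]
  zero_mem' := by
    intro t
    rw [map_zero, smul_zero]
  smul_mem' := by
    intro c v hv t
    rw [map_smul, hv t, smul_comm]

theorem mem_eigenLattice {θ : H →+* End 𝒪 Λ} {χ : H →+* 𝒪} {v : Λ} :
    v ∈ eigenLattice θ χ ↔ ∀ t, θ t v = χ t • v := Iff.rfl

theorem eigenLattice_ne_bot {θ : H →+* End 𝒪 Λ} {χ : H →+* 𝒪}
    (h : ∃ v : Λ, v ≠ 0 ∧ ∀ t, θ t v = χ t • v) : eigenLattice θ χ ≠ ⊥ := by
  obtain ⟨v, hv0, hv⟩ := h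
  exact (Submodule.ne_bot_iff _).mpr ⟨v, hv, hv0⟩

/-- stability under everything commuting with `θ`. -/
theorem map_mem_eigenLattice {θ : H →+* End 𝒪 Λ} {χ : H →+* 𝒪} {f : End 𝒪 Λ}
    (hf : ∀ t, Commute f (θ t)) {v : Λ} (hv : v ∈ eigenLattice θ χ) : f v ∈ eigenLattice θ χ := by
  intro t
  have h1 : θ t (f v) = f (θ t v) := by
    have := congrArg (fun k : End 𝒪 Λ => k v) (hf t)
    exact this.symm
  rw [h1, hv t, map_smul]

end Eigen

section Main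

variable {𝒪 : Type} [CommRing 𝒪] [IsDomain 𝒪] [IsPrincipalIdealRing 𝒪]
variable {Λ : Type} [AddCommGroup Λ] [Module 𝒪 Λ] [Module.Free 𝒪 Λ] [Module.Finite 𝒪 Λ]
variable {G : Type*} [Group G] {H : Type*} [Semiring H]

theorem saturated_eigenLattice (θ : H →+* End 𝒪 Λ) (χ : H →+* 𝒪) :
    Saturated (eigenLattice θ χ) := by
  intro s v hs hsv t
  have h1 := hsv t
  rw [map_smul, smul_comm] at h1
  exact smul_right_injective Λ hs h1

theorem stable_eigenLattice {ρ : G →* End 𝒪 Λ} {θ : H →+* End 𝒪 Λ}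
    (hcomm : ∀ g t, Commute (ρ g) (θ t)) (χ : H →+* 𝒪) : Stable ρ (eigenLattice θ χ) :=
  fun g _ hv => map_mem_eigenLattice (hcomm g) hv

/-- the Eichler–Shimura relation on the eigen-sublattice. -/
theorem quad_restrictRep {ρ : G →* End 𝒪 Λ} {θ : H →+* End 𝒪 Λ}
    (hcomm : ∀ g t, Commute (ρ g) (θ t)) (χ : H →+* 𝒪) {σ : G} {t : H} {b : 𝒪}
    (h : ρ σ * ρ σ - θ t * ρ σ + b • (1 : End 𝒪 Λ) = 0) :
    restrictRep ρ _ (stable_eigenLattice hcomm χ) σ * restrictRep ρ _ (stable_eigenLattice hcomm χ) σ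
      - χ t • restrictRep ρ _ (stable_eigenLattice hcomm χ) σ
      + b • (1 : End 𝒪 (eigenLattice θ χ)) = 0 := by
  refine LinearMap.ext fun v => Subtype.ext ?_
  have h1 := congrArg (fun k : End 𝒪 Λ => k (v : Λ)) h
  have h2 : θ t (ρ σ (v : Λ)) = χ t • ρ σ (v : Λ) :=
    (stable_eigenLattice hcomm χ σ (v : Λ) v.2) t
  simp only [LinearMap.add_apply, LinearMap.sub_apply, Module.End.mul_apply, LinearMap.smul_apply,
    Module.End.one_apply, LinearMap.zero_apply] at h1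
  rw [h2] at h1
  simpa using h1

/-- **(ALG-ASSEMBLY).** -/
theorem exists_rankTwo_of_eigen (h2 : (2 : 𝒪) ≠ 0)
    (ρ : G →* End 𝒪 Λ) (θ : H →+* End 𝒪 Λ) (hcomm : ∀ g t, Commute (ρ g) (θ t))
    (χ : H →+* 𝒪) (heig : ∃ v : Λ, v ≠ 0 ∧ ∀ t, θ t v = χ t • v)
    (d : G →* 𝒪ˣ) (c : G) (hc2 : c * c = 1) (hdc : ((d c : 𝒪ˣ) : 𝒪) = -1)
    (I : ℕ → Ideal 𝒪) (hI : ∀ x : 𝒪, (∀ n, x ∈ I n) → x = 0)
    (Φ : Set G) (tΦ : G → H)
    (hΦ : ∀ σ ∈ Φ, ρ σ * ρ σ - θ (tΦ σ) * ρ σ + ((d σ : 𝒪ˣ) : 𝒪) • (1 : End 𝒪 Λ) = 0)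
    (hdense : ∀ (n : ℕ) (g : G), ∃ σ ∈ Φ, ∃ j : ℕ, EndCongr (I n) (ρ (g⁻¹ * σ ^ j)) 1 ∧
      ((d (g⁻¹ * σ ^ j) : 𝒪ˣ) : 𝒪) - 1 ∈ I n) :
    ∃ (Λ' : Type) (_ : AddCommGroup Λ') (_ : Module 𝒪 Λ') (_ : Module.Free 𝒪 Λ')
      (_ : Module.Finite 𝒪 Λ') (ρ' : G →* End 𝒪 Λ'),
      finrank 𝒪 Λ' = 2 ∧
      (∀ σ ∈ Φ, (ρ' σ).charpoly = X ^ 2 - C (χ (tΦ σ)) * X + C (((d σ : 𝒪ˣ) : 𝒪))) ∧
      ∀ (J : Ideal 𝒪) (g : G), EndCongr J (ρ g) 1 → ((d g : 𝒪ˣ) : 𝒪) - 1 ∈ J →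
        EndCongr J (ρ' g) 1 := by
  have hsat := saturated_eigenLattice θ χ
  have hst := stable_eigenLattice hcomm χ
  set E := eigenLattice θ χ with hE
  set ρE := restrictRep ρ E hst with hρE
  have hne : E ≠ ⊥ := eigenLattice_ne_bot heig
  have : Nontrivial E := by
    obtain ⟨v, hv, hv0⟩ := (Submodule.ne_bot_iff _).mp hne
    exact ⟨⟨⟨v, hv⟩, 0, fun h => hv0 (congrArg Subtype.val h)⟩⟩
  -- the relation on `Φ`
  have hΦE : ∀ σ ∈ Φ, ρE σ * ρE σ - (χ (tΦ σ)) • ρE σ + ((d σ : 𝒪ˣ) : 𝒪) • (1 : End 𝒪 E) = 0 :=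
    fun σ hσ => quad_restrictRep hcomm χ (hΦ σ hσ)
  -- density on `E`
  have hdenseE : ∀ (n : ℕ) (g : G), ∃ σ ∈ Φ, ∃ j : ℕ, EndCongr (I n) (ρE g) (ρE σ ^ j) ∧
      ((d g : 𝒪ˣ) : 𝒪) - ((d σ : 𝒪ˣ) : 𝒪) ^ j ∈ I n := by
    intro n g
    obtain ⟨σ, hσ, j, h1, h2⟩ := hdense n g
    refine ⟨σ, hσ, j, ?_, ?_⟩
    · have h3 : EndCongr (I n) (ρE (g⁻¹ * σ ^ j)) 1 := endCongr_restrictRep hsat hst (I n) _ h1
      have h4 := h3.mul_left (ρE g)
      rw [← map_mul, mul_inv_cancel_left, map_pow, mul_one] at h4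
      exact h4.symm
    · have h5 : ((d g : 𝒪ˣ) : 𝒪) - ((d σ : 𝒪ˣ) : 𝒪) ^ j =
          -(((d g : 𝒪ˣ) : 𝒪) * (((d (g⁻¹ * σ ^ j) : 𝒪ˣ) : 𝒪) - 1)) := by
        have h6 : ((d g : 𝒪ˣ) : 𝒪) * ((d (g⁻¹ * σ ^ j) : 𝒪ˣ) : 𝒪) = ((d σ : 𝒪ˣ) : 𝒪) ^ j := by
          rw [← Units.val_mul, ← map_mul, mul_inv_cancel_left, map_pow, Units.val_pow_eq_pow_val]
        rw [mul_sub, h6, mul_one, neg_sub]
      rw [h5]
      exact (I n).neg_mem ((I n).mul_mem_left _ h2)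
  obtain ⟨a, ha, haΦ⟩ := exists_trace_fun_of_dense ρE d I hI Φ (fun σ => χ (tΦ σ)) hΦE hdenseE
  obtain ⟨Λ', i1, i2, i3, i4, ρ', hrk, hcp, hcong⟩ :=
    exists_rankTwo (ρ := ρE) (d := d) (a := a) (c := c) h2 ha hc2 hdc
  refine ⟨Λ', i1, i2, i3, i4, ρ', hrk, fun σ hσ => ?_, fun J g hg hdg => ?_⟩
  · rw [hcp σ, haΦ σ hσ]
  · exact hcong J g (endCongr_restrictRep hsat hst J g hg) hdg

end Main

/-! ### base change of a representation -/

section BaseChange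

variable {R : Type*} [CommRing R] {𝒪 : Type*} [CommRing 𝒪] [Algebra R 𝒪]
variable {T : Type*} [AddCommGroup T] [Module R T]
variable {G : Type*} [Group G] {H : Type*} [Semiring H]

variable (R 𝒪 T) in
/-- base change of endomorphisms, as a ring homomorphism. -/
def bcEnd : End R T →+* End 𝒪 (𝒪 ⊗[R] T) := (Module.End.baseChangeHom R 𝒪 T).toRingHom

theorem bcEnd_apply (f : End R T) : bcEnd R 𝒪 T f = f.baseChange 𝒪 := rfl

theorem bcEnd_smul_one (r : R) :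
    bcEnd R 𝒪 T (r • (1 : End R T)) = (algebraMap R 𝒪 r) • (1 : End 𝒪 (𝒪 ⊗[R] T)) := by
  rw [bcEnd_apply, LinearMap.baseChange_smul, LinearMap.baseChange_one]
  refine LinearMap.ext fun v => ?_
  rw [LinearMap.smul_apply, LinearMap.smul_apply, Module.End.one_apply, algebraMap_smul]

variable (𝒪) in
/-- the base change of a representation. -/
def rhoO (ρ : G →* End R T) : G →* End 𝒪 (𝒪 ⊗[R] T) := (bcEnd R 𝒪 T).toMonoidHom.comp ρ

variable (𝒪) in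
/-- the base change of a ring action. -/
def thetaO (θ : H →+* End R T) : H →+* End 𝒪 (𝒪 ⊗[R] T) := (bcEnd R 𝒪 T).comp θ

theorem rhoO_apply (ρ : G →* End R T) (g : G) : rhoO 𝒪 ρ g = (ρ g).baseChange 𝒪 := rfl

theorem thetaO_apply (θ : H →+* End R T) (t : H) : thetaO 𝒪 θ t = (θ t).baseChange 𝒪 := rfl

theorem commute_rhoO_thetaO {ρ : G →* End R T} {θ : H →+* End R T}
    (h : ∀ g t, Commute (ρ g) (θ t)) (g : G) (t : H) : Commute (rhoO 𝒪 ρ g) (thetaO 𝒪 θ t) :=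
  (h g t).map (bcEnd R 𝒪 T)

/-- a quadratic relation passes to the base change. -/
theorem quad_rhoO {ρ : G →* End R T} {θ : H →+* End R T} {σ : G} {t : H} {b : R}
    (h : ρ σ * ρ σ - θ t * ρ σ + b • (1 : End R T) = 0) :
    rhoO 𝒪 ρ σ * rhoO 𝒪 ρ σ - thetaO 𝒪 θ t * rhoO 𝒪 ρ σ +
      (algebraMap R 𝒪 b) • (1 : End 𝒪 (𝒪 ⊗[R] T)) = 0 := by
  have := congrArg (bcEnd R 𝒪 T) h
  rw [map_add, map_sub, map_mul, map_mul, bcEnd_smul_one, map_zero] at this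
  exact this

/-- `ρ g = 1` passes to the base change. -/
theorem rhoO_eq_one {ρ : G →* End R T} {g : G} (h : ρ g = 1) : rhoO 𝒪 ρ g = 1 := by
  rw [rhoO_apply, h, LinearMap.baseChange_one]

/-- a congruence `ρ g ≡ 1 mod r` passes to the base change. -/
theorem endCongr_rhoO {ρ : G →* End R T} {g : G} {r : R}
    (h : ∀ x : T, ∃ y : T, ρ g x - x = r • y) :
    EndCongr (Ideal.span {algebraMap R 𝒪 r}) (rhoO 𝒪 ρ g) 1 := by
  intro v
  induction v using TensorProduct.induction_on with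
  | zero =>
    rw [map_zero, map_zero, sub_zero]
    exact Submodule.zero_mem _
  | tmul a x =>
    obtain ⟨y, hy⟩ := h x
    have h1 : rhoO 𝒪 ρ g (a ⊗ₜ[R] x) - (1 : End 𝒪 (𝒪 ⊗[R] T)) (a ⊗ₜ[R] x) =
        (algebraMap R 𝒪 r) • (a ⊗ₜ[R] y) := by
      rw [rhoO_apply, LinearMap.baseChange_tmul, Module.End.one_apply, ← TensorProduct.tmul_sub, hy,
        TensorProduct.tmul_smul, algebraMap_smul]
    rw [h1]
    exact Submodule.smul_mem_smul (Ideal.subset_span rfl) Submodule.mem_top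
  | add v w hv hw =>
    have h1 : rhoO 𝒪 ρ g (v + w) - (1 : End 𝒪 (𝒪 ⊗[R] T)) (v + w) =
        (rhoO 𝒪 ρ g v - (1 : End 𝒪 (𝒪 ⊗[R] T)) v) + (rhoO 𝒪 ρ g w - (1 : End 𝒪 (𝒪 ⊗[R] T)) w) := by
      rw [map_add, map_add]
      abel
    rw [h1]
    exact Submodule.add_mem _ hv hw

end BaseChange

end Fermat.Agent.ES.J.EigenLattice13
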