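-- Program J, (K2) (helper11): the comparison `ι₀ : Λ → T_p J` in the literal shape the S30 back end
-- wants: `IsBaseChange ℤ_[p] ι₀` and `T_ℓ ∘ ι₀ = ι₀ ∘ T_ℓ^dc`, from a `KummerSystem`.
import Mathlib
import Fermat.Agent.ES.J.TateChar11
import Fermat.Agent.ES.HEQ.DoubleCosetPar27

set_option autoImplicit false

noncomputable section

namespace Fermat.Agent.ES.J.TateCompare11

open Fermat.Agent.ES.J.TateModule13 Fermat.Agent.ES.J.TateChar11
open Fermat.Agent.ES.HEQ.ParLattice11 Fermat.Agent.ES.HEQ.DoubleCoset27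
open Fermat.Agent.ES.HEQ.DoubleCosetPar27
open ModularCurve.Period CongruenceSubgroup TensorProduct
open scoped MatrixGroups

variable {p : ℕ} [hp : Fact p.Prime]

section General

variable {Γ : Subgroup SL(2, ℤ)} {J : Type*} [AddCommGroup J] (KS : KummerSystem p Γ J)

/-- **the comparison map** `Λ = Hom_par(Γ, ℤ) → T_p J`. -/
def iota : ↥(parabolicHoms ℤ Γ ℤ) →ₗ[ℤ] TateModule p J :=
  (KS.tateEquiv.symm.toLinearMap.restrictScalars ℤ).comp (castPar Γ ℤ_[p])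

theorem iota_apply (φ : ↥(parabolicHoms ℤ Γ ℤ)) :
    iota KS φ = KS.tateEquiv.symm (castPar Γ ℤ_[p] φ) := rfl

theorem tateEquiv_iota (φ : ↥(parabolicHoms ℤ Γ ℤ)) :
    KS.tateEquiv (iota KS φ) = castPar Γ ℤ_[p] φ := by
  rw [iota_apply, LinearEquiv.apply_symm_apply]

/-- the `ℤ_p`-basis of `T_p J` corresponding to the `ℤ`-basis `lam` of `Λ`. -/
def tateBasis (hΓ : Γ.FG) : Module.Basis (Fin (rk Γ)) ℤ_[p] (TateModule p J) :=
  (parBasis ℤ_[p] hΓ).map KS.tateEquiv.symm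

theorem tateBasis_apply (hΓ : Γ.FG) (i : Fin (rk Γ)) :
    tateBasis KS hΓ i = iota KS (lam hΓ i) := by
  rw [tateBasis, Module.Basis.map_apply, parBasis_apply, iota_apply]

/-- the `ℤ_p`-linear equivalence `ℤ_p ⊗ Λ ≃ T_p J`. -/
def tensorEquiv (hΓ : Γ.FG) : ℤ_[p] ⊗[ℤ] ↥(parabolicHoms ℤ Γ ℤ) ≃ₗ[ℤ_[p]] TateModule p J :=
  (Algebra.TensorProduct.basis ℤ_[p] (lamBasis hΓ)).equiv (tateBasis KS hΓ) (Equiv.refl _)

theorem tensorEquiv_one_tmul (hΓ : Γ.FG) (φ : ↥(parabolicHoms ℤ Γ ℤ)) :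
    tensorEquiv KS hΓ (1 ⊗ₜ φ) = iota KS φ := by
  have h : ((tensorEquiv KS hΓ).toLinearMap.restrictScalars ℤ).comp
      (TensorProduct.mk ℤ ℤ_[p] ↥(parabolicHoms ℤ Γ ℤ) 1) = iota KS := by
    refine (lamBasis hΓ).ext fun i => ?_
    show tensorEquiv KS hΓ (1 ⊗ₜ (lamBasis hΓ i)) = iota KS (lamBasis hΓ i)
    rw [← Algebra.TensorProduct.basis_apply, tensorEquiv, Module.Basis.equiv_apply,
      Equiv.refl_apply, tateBasis_apply, lamBasis_apply]
  exact LinearMap.congr_fun h φ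

/-- **(K2), first half**: `T_p J` is the base change of `Λ` along `ι₀`. -/
theorem isBaseChange_iota (hΓ : Γ.FG) : IsBaseChange ℤ_[p] (iota KS) :=
  IsBaseChange.of_equiv (tensorEquiv KS hΓ) (tensorEquiv_one_tmul KS hΓ)

end General

section Hecke

variable {N : ℕ} {l : ℕ} [hl : Fact l.Prime] (hlN : ¬ l ∣ N)
variable {J : Type*} [AddCommGroup J] (KS : KummerSystem p (Gamma0 N) J)

/-- `castPar` intertwines the double coset operators. -/
theorem castPar_tdcPar (R : Type*) [Ring R] (φ : ↥(parabolicHoms ℤ (Gamma0 N) ℤ)) :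
    castPar (Gamma0 N) R (tdcPar hlN ℤ ℤ φ) = tdcPar hlN R R (castPar (Gamma0 N) R φ) := by
  apply Subtype.ext
  rw [coe_tdcPar]
  exact (tdcAdd_comp hlN (Int.castAddHom R) (φ : Additive (Gamma0 N) →+ ℤ)).symm

/-- **(K2), second half**: `ι₀` intertwines `T_ℓ^dc` on `Λ` with the operator induced on `T_p J` by
an endomorphism `f` of `J` which corresponds to `T_ℓ^dc` under the Kummer maps. -/
theorem map_iota (f : J →+ J)
    (hf : ∀ (k : ℕ) (x : ↥(tors J (p ^ k))) (hfx : f (x : J) ∈ tors J (p ^ k)),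
      KS.κ k ⟨f (x : J), hfx⟩ = tdcX hlN (KS.κ k x))
    (φ : ↥(parabolicHoms ℤ (Gamma0 N) ℤ)) :
    map f (iota KS φ) = iota KS (tdcPar hlN ℤ ℤ φ) := by
  apply KS.tateEquiv.injective
  apply Subtype.ext
  rw [KS.tateEquiv_map hlN f hf, tateEquiv_iota, tateEquiv_iota, castPar_tdcPar, coe_tdcPar]

end Hecke

end Fermat.Agent.ES.J.TateCompare11
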