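-- Program J, (K2) in the literal shape of the S30 back end (helper11):
-- from a `KummerSystem` on `J₀(N)` whose Kummer maps intertwine `heckeOperatorBar N ℓ` with the double
-- coset operator `T_ℓ^dc`, the comparison `ι₀ : Λ → T_p J₀(N)`.
import Mathlib
import Fermat.Agent.ES.J.TateCompare11
import Fermat.Agent.ES.J.TateJZero13
import Fermat.Agent.ES.HEQ.FaithFinal26

set_option autoImplicit false

noncomputable section

namespace Fermat.Agent.ES.J.K2Final11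

open Fermat.Agent.ES.J.TateModule13 Fermat.Agent.ES.J.TateChar11 Fermat.Agent.ES.J.TateCompare11
open Fermat.Agent.ES.J.TateJZero13
open Fermat.Agent.ES.HEQ.ParLattice11 Fermat.Agent.ES.HEQ.DoubleCoset27
open Fermat.Agent.ES.HEQ.DoubleCosetPar27 Fermat.Agent.ES.HEQ.FaithInst26
open Fermat.Agent.ES.HEQ.FaithFinal26
open AlgebraicCurve ModularCurve ModularCurve.Period CongruenceSubgroup
open scoped MatrixGroups

variable {p : ℕ} [hp : Fact p.Prime] {N : ℕ} [NeZero N]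

/-- **The Hecke compatibility contract for J3a**: the Kummer maps of `KS` intertwine the Hecke
correspondence `T_ℓ` on `J₀(N)` with the double coset operator on characters, for every prime
`ℓ ∤ N`. -/
def HeckeCompat (KS : KummerSystem p (Gamma0 N) (JZero N)) : Prop :=
  ∀ (ℓ : ℕ) (hℓ : ℓ.Prime) (hℓN : ¬ ℓ ∣ N) (k : ℕ) (x : ↥(tors (JZero N) (p ^ k)))
    (hfx : heckeOperatorBar N ⟨ℓ, hℓ⟩ (x : JZero N) ∈ tors (JZero N) (p ^ k)),
    KS.κ k ⟨heckeOperatorBar N ⟨ℓ, hℓ⟩ (x : JZero N), hfx⟩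
      = (haveI : Fact ℓ.Prime := ⟨hℓ⟩; tdcX hℓN (KS.κ k x))

/-- **(K2)**: the comparison `ι₀ : Λ → T_p J₀(N)` is a base change `ℤ → ℤ_p` and intertwines the
double coset operators `dcZ ℓ` on `Λ` with the Hecke operators `tT ℓ` on the Tate module. -/
theorem k2 (KS : KummerSystem p (Gamma0 N) (JZero N)) (hK : HeckeCompat KS) :
    ∃ ι₀ : ↥(Lam N) →ₗ[ℤ] TJ p N, IsBaseChange ℤ_[p] ι₀ ∧
      ∀ (ℓ : ℕ) (hℓ : ℓ.Prime) (hℓN : ¬ ℓ ∣ N) (x : ↥(Lam N)),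
        tT p N ⟨ℓ, hℓ⟩ (ι₀ x) = ι₀ (dcZ N ℓ hℓ hℓN x) := by
  refine ⟨iota KS, isBaseChange_iota KS (fg_Gamma0 N), ?_⟩
  intro ℓ hℓ hℓN x
  have : Fact ℓ.Prime := ⟨hℓ⟩
  exact map_iota hℓN KS (heckeOperatorBar N ⟨ℓ, hℓ⟩).toAddMonoidHom
    (fun k y hfy => hK ℓ hℓ hℓN k y hfy) x

end Fermat.Agent.ES.J.K2Final11
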