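/-
Program J, (KUM-GLUE), spare: the unconditional Hecke-compatible Kummer system of `J₀(N)(ℚbar)`,

  `κ_k = kummerC N (p^k) ∘ torsionEquivC N (p^k) : J₀(N)(ℚbar)[p^k] →+ X(Γ₀(N))`

(helper19's `KummerHeckeQ19.kumQAdd`), from J1 (`HasEigenFinal18`, `MultTrivialFinal18`,
`KumBridge17`), J2 (`DescentFinal24`) and J3a (`KummerHeckeQ19`).
-/
import Mathlib
import Fermat.Agent.ES.KUM.HasEigenFinal18
import Fermat.Agent.ES.KUM.KumBridge17
import Fermat.Agent.ES.HEQ.KummerHeckeQ19
import Fermat.Agent.ES.J.K2Final11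

set_option autoImplicit false
set_option linter.style.haveILetI false
set_option linter.unusedSectionVars false

open UpperHalfPlane hiding I
open scoped Manifold MatrixGroups
open CongruenceSubgroup AlgebraicCurve ModularCurve

noncomputable section

namespace Fermat.Agent.ES.J.KummerSystemFinal18

open Fermat.Agent.X0 Fermat.Agent.X0.SurjPoint Fermat.Agent.ES.KUM
open Fermat.Agent.ES.HEQ.KummerHeckeQ19
open Fermat.Agent.J.DESC.DescentFinal24
open Fermat.Agent.ES.KUM.KumInst18 Fermat.Agent.ES.KUM.KummerAbstract17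
open Fermat.Agent.ES.KUM.MultTrivial18 Fermat.Agent.ES.KUM.MultTrivialFinal18
open Fermat.Agent.ES.KUM.HasEigenFinal18
open Fermat.Agent.ES.J.TateChar11 Fermat.Agent.ES.J.K2Final11

/-- `Pic⁰(F_ℂ)[n]` is finite (as a local instance). -/
theorem finiteTorsion (N : ℕ) [NeZero N] (n : ℕ) [NeZero n] :
    Finite ↥(Pic0.torsion ℂ (FC N) n) := finite_torsionC' N n

attribute [local instance] finiteTorsion

theorem neZero_of_prime (p : ℕ) [hp : Fact p.Prime] : NeZero p := ⟨hp.out.ne_zero⟩

attribute [local instance] neZero_of_prime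

variable (p : ℕ) [hp : Fact p.Prime] (N : ℕ) [NeZero N]

/-- **The Kummer system of `J₀(N)(ℚbar)`**, unconditional. -/
def kummerSystemJ : KummerSystem p (Gamma0 N) (JZero N) where
  κ k := kumQAdd N (p ^ k)
  inj k := by
    intro x y hxy
    have h1 : kummerC N (p ^ k) (torsionEquivC N (p ^ k) x) =
        kummerC N (p ^ k) (torsionEquivC N (p ^ k) y) := hxy
    exact (torsionEquivC N (p ^ k)).injective (kummerC_injective' N (p ^ k) h1)
  range_eq k χ := by
    constructor
    · rintro ⟨x, rfl⟩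
      have hmem := kumCharOf_mem_kumChar N (p ^ k) (torsionEquivC N (p ^ k) x)
      rw [mem_kumChar_iff] at hmem
      refine ⟨fun γ hγ => hmem.2 γ hγ, ?_⟩
      apply Additive.toMul.injective
      apply MonoidHom.ext
      intro γ
      exact hmem.1 γ
    · rintro ⟨hpar, htor⟩
      have hmem : Additive.toMul χ ∈ KumChar N (p ^ k) := by
        rw [mem_kumChar_iff]
        refine ⟨fun γ => ?_, fun γ hγ => hpar γ hγ⟩
        have h1 : Additive.toMul χ ^ (p ^ k) = 1 := congrArg Additive.toMul htor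
        exact DFunLike.congr_fun h1 γ
      obtain ⟨y, hy⟩ := kummerC_surjective N (p ^ k) (Additive.toMul χ) hmem
      refine ⟨(torsionEquivC N (p ^ k)).symm y, ?_⟩
      show kummerC N (p ^ k) (torsionEquivC N (p ^ k) ((torsionEquivC N (p ^ k)).symm y)) = χ
      rw [AddEquiv.apply_symm_apply, hy]
      rfl
  compat k x hx := by
    show kummerC N (p ^ k) (torsionEquivC N (p ^ k) ⟨p • (x : JZero N), hx⟩) =
      p • kummerC N (p ^ (k + 1)) (torsionEquivC N (p ^ (k + 1)) x)
    refine KumBridge17.kummerC_pow_succ N p k _ _ ?_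
    rw [coe_torsionEquivC_apply, coe_torsionEquivC_apply]
    exact map_nsmul (extPic0C N) p (x : JZero N)

theorem kummerSystemJ_κ (k : ℕ) : (kummerSystemJ p N).κ k = kumQAdd N (p ^ k) := rfl

/-- **Hecke compatibility** of the Kummer system (J3a). -/
theorem heckeCompatJ : HeckeCompat (kummerSystemJ p N) := by
  intro ℓ hℓ hℓN k x hfx
  exact kumQAdd_heckeOperatorBar ⟨ℓ, hℓ⟩ hℓN (p ^ k) x hfx

end Fermat.Agent.ES.J.KummerSystemFinal18
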