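/-
Program J (S30), KUM-GLUE (helper24): **the Kummer system of `J₀(N)(ℚ̄)`**.

From the three analytic inputs of J1 at all levels `p^k` (`KumInst18`: (MULT), (INV), (SURJ)) and the
descent J2 (`DescentFinal24.torsionEquivC`), the compatible system of Kummer isomorphisms
`κ_k : J₀(N)(ℚ̄)[p^k] ≅ {χ ∈ Xpar Γ₀(N) | χ^(p^k) = 1}` in the literal shape of helper11's contract
`TateChar11.KummerSystem`; hence `tateEquivJ : T_p J₀(N) ≃ₗ[ℤ_p] Hom_par(Γ₀(N), ℤ_p)`.
Hecke equivariance is reduced to the literal J3a contract `HeckeKummer` (an `IsKum`-statement over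
`ℂ` for base-changed `ℚ̄`-classes).
-/
import Mathlib
import Fermat.Agent.ES.J.TateChar11
import Fermat.Agent.ES.J.TateJZero13
import Fermat.Agent.ES.KUM.KumInst18
import Fermat.Agent.J.DESC.DescentFinal24

set_option autoImplicit false
set_option linter.unusedSectionVars false
set_option linter.style.longLine false
set_option synthInstance.maxHeartbeats 400000

open AlgebraicCurve ModularCurve CongruenceSubgroup
open scoped MatrixGroups

noncomputable section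

namespace Fermat.Agent.ES.J.KummerSystemJ24

open Fermat.Agent.ES.KUM Fermat.Agent.ES.KUM.KumInst18 Fermat.Agent.ES.KUM.KummerAbstract17
open Fermat.Agent.J.DESC.DescentFinal24
open Fermat.Agent.ES.J.TateModule13 Fermat.Agent.ES.J.TateChar11 Fermat.Agent.ES.J.TateJZero13
open Fermat.Agent.ES.HEQ.DoubleCoset27

variable (p : ℕ) [hp : Fact p.Prime] (N : ℕ) [NeZero N]

/-- **The analytic inputs of J1** at all levels `p^k`. -/
structure J1Inputs : Prop where
  hmult : ∀ k : ℕ, MultTrivial N (p ^ k)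
  hinv : ∀ k : ℕ, (settingC N).InvClosed (p ^ k)
  hE : ∀ k : ℕ, HasEigenfunctions N (p ^ k)

theorem fg_Gamma0 : Group.FG ↥(Gamma0 N) :=
  (Group.fg_iff_subgroup_fg _).mpr (Fermat.Agent.S22.gamma0_fg N)

variable {p N}

theorem finiteC (H : J1Inputs p N) (k : ℕ) : Finite ↥(Pic0.torsion ℂ (FC N) (p ^ k)) :=
  finite_torsionC N (p ^ k) (H.hinv k) (fg_Gamma0 N)

/-- Finiteness of `J₀(N)(ℚ̄)[p]` — the input (K1) of the S30 back end. -/
theorem finite_p_torsion (H : J1Inputs p N) : {y : JZero N | p • y = 0}.Finite := by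
  haveI : Finite ↥(Pic0.torsion ℂ (FCx N) p) := by
    have := finiteC H 1
    rwa [pow_one] at this
  exact finite_setOf_nsmul_eq_zero N p

theorem extPic0C_mem_torsion {n : ℕ} {x : Pic0 Qb (FQ N)} (hx : x ∈ Pic0.torsion Qb (FQ N) n) :
    extPic0C N x ∈ Pic0.torsion ℂ (FC N) n := by
  rw [Pic0.mem_torsion] at hx ⊢
  rw [← map_zsmul, hx, map_zero]

/-- base change of a torsion class, as a torsion class over `ℂ` (no finiteness needed). -/
def extTors (n : ℕ) (x : ↥(Pic0.torsion Qb (FQ N) n)) : ↥(Pic0.torsion ℂ (FC N) n) :=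
  ⟨extPic0C N x, extPic0C_mem_torsion x.2⟩

theorem torsionEquivC_eq_extTors (n : ℕ) [Finite ↥(Pic0.torsion ℂ (FCx N) n)]
    (x : ↥(Pic0.torsion Qb (FQ N) n)) : torsionEquivC N n x = extTors n x := rfl

/-- **The level-`k` Kummer map** `J₀(N)(ℚ̄)[p^k] → Hom(Γ₀(N), ℂˣ)`. -/
def kappa (H : J1Inputs p N) (k : ℕ) : ↥(tors (JZero N) (p ^ k)) →+ X (Gamma0 N) :=
  haveI := finiteC H k
  (kummerC N (p ^ k)).comp (torsionEquivC N (p ^ k)).toAddMonoidHom

theorem kappa_apply (H : J1Inputs p N) (k : ℕ) (x : ↥(tors (JZero N) (p ^ k))) :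
    kappa H k x = kummerC N (p ^ k) (extTors (p ^ k) x) := rfl

theorem toMul_kappa (H : J1Inputs p N) (k : ℕ) (x : ↥(tors (JZero N) (p ^ k))) :
    Additive.toMul (kappa H k x) = kumCharOf N (p ^ k) (extTors (p ^ k) x) := rfl

theorem kappa_injective (H : J1Inputs p N) (k : ℕ) : Function.Injective (kappa H k) := by
  haveI := finiteC H k
  exact (kummerC_injective N (p ^ k) (H.hinv k)).comp (torsionEquivC N (p ^ k)).injective

theorem mem_kumChar_iff_Xpar (k : ℕ) (χ : X (Gamma0 N)) :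
    Additive.toMul χ ∈ KumChar N (p ^ k) ↔ χ ∈ Xpar (Gamma0 N) ∧ p ^ k • χ = 0 := by
  rw [mem_kumChar_iff, mem_Xpar_iff, and_comm]
  refine and_congr Iff.rfl ?_
  constructor
  · intro h
    apply Additive.toMul.injective
    refine MonoidHom.ext fun γ => ?_
    exact h γ
  · intro h γ
    have := congrArg (fun ψ : X (Gamma0 N) => (Additive.toMul ψ) γ) h
    exact this

theorem range_kappa (H : J1Inputs p N) (k : ℕ) (χ : X (Gamma0 N)) :
    χ ∈ Set.range (kappa H k) ↔ χ ∈ Xpar (Gamma0 N) ∧ p ^ k • χ = 0 := by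
  haveI := finiteC H k
  rw [← mem_kumChar_iff_Xpar]
  constructor
  · rintro ⟨x, rfl⟩
    rw [toMul_kappa]
    exact kummerC_mem_kumChar N (p ^ k) (H.hmult k) _
  · intro hχ
    obtain ⟨z, hz⟩ := kummerC_surjective_of N (p ^ k) (H.hE k) (Additive.toMul χ) hχ
    refine ⟨(torsionEquivC N (p ^ k)).symm z, ?_⟩
    show kummerC N (p ^ k) (torsionEquivC N (p ^ k) ((torsionEquivC N (p ^ k)).symm z)) = χ
    rw [AddEquiv.apply_symm_apply, hz]
    rfl

theorem kappa_compat (H : J1Inputs p N) (k : ℕ) (x : ↥(tors (JZero N) (p ^ (k + 1))))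
    (hx : p • (x : JZero N) ∈ tors (JZero N) (p ^ k)) :
    kappa H k ⟨p • (x : JZero N), hx⟩ = p • kappa H (k + 1) x := by
  set z : ↥(Pic0.torsion ℂ (FC N) (p ^ (k + 1))) := extTors (p ^ (k + 1)) x with hz
  set χ := kumCharOf N (p ^ (k + 1)) z with hχ
  have h1 : IsKum (settingC N) (p ^ (k + 1)) (z : Pic0 ℂ (FC N)) χ := isKum_kummerC N _ z
  have h2 : IsKum (settingC N) (p ^ k * p) (z : Pic0 ℂ (FC N)) χ := by
    rw [← pow_succ]
    exact h1
  have h3 : IsKum (settingC N) (p ^ k) (p • (z : Pic0 ℂ (FC N))) (χ ^ p) := h2.nsmul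
  set y : ↥(Pic0.torsion ℂ (FC N) (p ^ k)) := extTors (p ^ k) ⟨p • (x : JZero N), hx⟩ with hy
  have hyz : (y : Pic0 ℂ (FC N)) = p • (z : Pic0 ℂ (FC N)) := by
    show extPic0C N (p • (x : JZero N)) = p • extPic0C N (x : JZero N)
    rw [map_nsmul]
  rw [← hyz] at h3
  have h4 := kummerC_eq_of_isKum N (p ^ k) y h3
  apply Additive.toMul.injective
  show kumCharOf N (p ^ k) y = χ ^ p
  exact h4

/-- **The Kummer system of `J₀(N)(ℚ̄)`** (helper11's contract). -/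
def kummerSystemJ (H : J1Inputs p N) : KummerSystem p (Gamma0 N) (JZero N) where
  κ := kappa H
  inj := kappa_injective H
  range_eq := range_kappa H
  compat := kappa_compat H

/-- **`T_p J₀(N) ≅ Hom_par(Γ₀(N), ℤ_p)`.** -/
def tateEquivJ (H : J1Inputs p N) :
    TJ p N ≃ₗ[ℤ_[p]] ↥(Period.parabolicHoms ℤ_[p] (Gamma0 N) ℤ_[p]) :=
  (kummerSystemJ H).tateEquiv

/-! ### Hecke equivariance, from the J3a contract -/

/-- **The J3a contract** at the prime `ℓ ∤ N`: the Kummer character of the base change of `T_ℓ x`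
is the double coset transform of the Kummer character of the base change of `x`. -/
def HeckeKummer (N : ℕ) [NeZero N] (ℓ : ℕ) [hℓ : Fact ℓ.Prime] (hℓN : ¬ ℓ ∣ N) : Prop :=
  ∀ (n : ℕ) (_ : n ≠ 0) (x : JZero N) (χ : ↥(Gamma0 N) →* ℂˣ),
    IsKum (settingC N) n (extPic0C N x) χ →
      IsKum (settingC N) n (extPic0C N (heckeOperatorBar N ⟨ℓ, hℓ.out⟩ x)) (tdcMul hℓN χ)

theorem kappa_hecke (H : J1Inputs p N) {ℓ : ℕ} [hℓ : Fact ℓ.Prime] (hℓN : ¬ ℓ ∣ N)
    (hHK : HeckeKummer N ℓ hℓN) (k : ℕ) (x : ↥(tors (JZero N) (p ^ k)))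
    (hfx : (heckeOperatorBar N ⟨ℓ, hℓ.out⟩).toAddMonoidHom (x : JZero N) ∈ tors (JZero N) (p ^ k)) :
    kappa H k ⟨(heckeOperatorBar N ⟨ℓ, hℓ.out⟩).toAddMonoidHom (x : JZero N), hfx⟩ =
      tdcX hℓN (kappa H k x) := by
  set z : ↥(Pic0.torsion ℂ (FC N) (p ^ k)) := extTors (p ^ k) x with hz
  have h1 : IsKum (settingC N) (p ^ k) (extPic0C N (x : JZero N)) (kumCharOf N (p ^ k) z) :=
    isKum_kummerC N _ z
  have h2 := hHK (p ^ k) (NeZero.ne _) (x : JZero N) _ h1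
  set y : ↥(Pic0.torsion ℂ (FC N) (p ^ k)) :=
    extTors (p ^ k) ⟨(heckeOperatorBar N ⟨ℓ, hℓ.out⟩).toAddMonoidHom (x : JZero N), hfx⟩ with hy
  have h3 := kummerC_eq_of_isKum N (p ^ k) y h2
  apply Additive.toMul.injective
  show kumCharOf N (p ^ k) y = tdcMul hℓN (kumCharOf N (p ^ k) z)
  exact h3

/-- **Hecke equivariance of `tateEquivJ`**: `T_ℓ` on the Tate module corresponds to the double
coset operator `tdcAdd` on `Hom_par(Γ₀(N), ℤ_p)`. -/
theorem tateEquivJ_tT (H : J1Inputs p N) {ℓ : ℕ} [hℓ : Fact ℓ.Prime] (hℓN : ¬ ℓ ∣ N)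
    (hHK : HeckeKummer N ℓ hℓN) (x : TJ p N) :
    ((tateEquivJ H (tT p N ⟨ℓ, hℓ.out⟩ x) :
        ↥(Period.parabolicHoms ℤ_[p] (Gamma0 N) ℤ_[p])) : Additive (Gamma0 N) →+ ℤ_[p]) =
      tdcAdd hℓN (tateEquivJ H x : Additive (Gamma0 N) →+ ℤ_[p]) :=
  (kummerSystemJ H).tateEquiv_map hℓN (heckeOperatorBar N ⟨ℓ, hℓ.out⟩).toAddMonoidHom
    (fun k y hfy => kappa_hecke H hℓN hHK k y hfy) x

end Fermat.Agent.ES.J.KummerSystemJ24
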