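/-
Program J (S30), KUM-GLUE, final (helper24): **the unconditional Kummer system of `J₀(N)(ℚ̄)` and its
Hecke compatibility** — the two inputs of `S30Final8.s30_of_kummerSystem`.

* `kummerSystemJ p N : TateChar11.KummerSystem p (Gamma0 N) (JZero N)`
  (`KummerSystemJ24.kummerSystemJ` with J1's inputs discharged: (MULT) `MultTrivialFinal18`,
  (INV) `MultTrivial18.invClosedC`, (SURJ) `EisSurjFinal10.hasEigenfunctions`);
* `heckeCompatJ p N : K2Final11.HeckeCompat (kummerSystemJ p N)` (J3a: `KummerHeckeQ19.kumQAdd_hecke…`).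
-/
import Mathlib
import Fermat.Agent.ES.J.KummerSystemJ24
import Fermat.Agent.ES.J.K2Final11
import Fermat.Agent.ES.KUM.MultTrivialFinal18
import Fermat.Agent.ES.KUM.EisSurjFinal10
import Fermat.Agent.ES.HEQ.KummerHeckeQ19

set_option autoImplicit false
set_option linter.unusedSectionVars false
set_option linter.style.longLine false
set_option synthInstance.maxHeartbeats 400000

open AlgebraicCurve ModularCurve CongruenceSubgroup
open scoped MatrixGroups

noncomputable section

namespace Fermat.Agent.ES.J.KummerSystemFinal24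

open Fermat.Agent.ES.KUM Fermat.Agent.ES.KUM.KumInst18
open Fermat.Agent.J.DESC.DescentFinal24
open Fermat.Agent.ES.J.TateModule13 Fermat.Agent.ES.J.TateChar11 Fermat.Agent.ES.J.TateJZero13
open Fermat.Agent.ES.J.KummerSystemJ24
open Fermat.Agent.ES.HEQ.DoubleCoset27

variable (p : ℕ) [hp : Fact p.Prime] (N : ℕ) [NeZero N]

/-- **J1 is unconditional**: the three analytic inputs at all levels `p^k`. -/
theorem j1Inputs : J1Inputs p N where
  hmult k := MultTrivialFinal18.multTrivial N (p ^ k) (NeZero.ne _)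
  hinv k := MultTrivial18.invClosedC N (p ^ k) (NeZero.ne _)
  hE k := EisSurjFinal10.hasEigenfunctions N (NeZero.ne _)

/-- **The Kummer system of `J₀(N)(ℚ̄)`**, unconditionally. -/
def kummerSystemJ : KummerSystem p (Gamma0 N) (JZero N) :=
  KummerSystemJ24.kummerSystemJ (j1Inputs p N)

theorem kummerSystemJ_κ (k : ℕ) (x : ↥(tors (JZero N) (p ^ k))) :
    (kummerSystemJ p N).κ k x = kummerC N (p ^ k) (extTors (p ^ k) x) := rfl

/-- **`T_p J₀(N) ≅ Hom_par(Γ₀(N), ℤ_p)`**, unconditionally. -/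
def tateEquivJ : TJ p N ≃ₗ[ℤ_[p]] ↥(Period.parabolicHoms ℤ_[p] (Gamma0 N) ℤ_[p]) :=
  (kummerSystemJ p N).tateEquiv

/-- **Hecke compatibility** (J3a) of the Kummer system, in the literal shape of `K2Final11`. -/
theorem heckeCompatJ : K2Final11.HeckeCompat (kummerSystemJ p N) := by
  intro ℓ hℓ hℓN k x hfx
  haveI : Fact ℓ.Prime := ⟨hℓ⟩
  haveI : Finite ↥(Pic0.torsion ℂ (FC N) (p ^ k)) := finiteC (j1Inputs p N) k
  exact Fermat.Agent.ES.HEQ.KummerHeckeQ19.kumQAdd_heckeOperatorBar ⟨ℓ, hℓ⟩ hℓN (p ^ k) x hfx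

/-- Finiteness of `J₀(N)(ℚ̄)[p]` (K1), for completeness. -/
theorem finite_p_torsionJ : {y : JZero N | p • y = 0}.Finite :=
  finite_p_torsion (j1Inputs p N)

end Fermat.Agent.ES.J.KummerSystemFinal24
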