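/-
Program J (S30), helper8 (integrator): **the Kummer system of `J₀(N)(ℚ̄)`** (J1 + J2 + J3a assembled)
and its Hecke compatibility — the two inputs of `S30Final8.s30_of_kummerSystem`.

`κ k := kumQAdd N (p ^ k) = kummerC N (p ^ k) ∘ torsionEquivC N (p ^ k)`:
* injective (`FiniteTorsion15.kummerC_injective`);
* image `= KumChar N (p ^ k)` (`MultTrivialFinal18.kumCharOf_mem_kumChar`,
  `HasEigenFinal18.kummerC_surjective`);
* compatible with multiplication by `p` (`KumBridge17.kummerC_pow_succ`);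
* Hecke-compatible (`KummerHeckeQ19.kumQAdd_heckeOperatorBar`).
-/
import Mathlib
import Fermat.Agent.ES.HEQ.KummerHeckeQ19
import Fermat.Agent.ES.KUM.HasEigenFinal18
import Fermat.Agent.ES.KUM.KumBridge17
import Fermat.Agent.ES.KUM.FiniteTorsion15
import Fermat.Agent.ES.J.K2Final11

set_option autoImplicit false
set_option linter.unusedSectionVars false
set_option synthInstance.maxHeartbeats 400000

open AlgebraicCurve ModularCurve CongruenceSubgroup
open scoped MatrixGroups

noncomputable section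

namespace Fermat.Agent.ES.J.KummerSystemJ8

open Fermat.Agent.X0 Fermat.Agent.ES.KUM Fermat.Agent.ES.KUM.KumInst18
  Fermat.Agent.J.DESC.DescentFinal24 Fermat.Agent.ES.HEQ.KummerHeckeQ19
  Fermat.Agent.ES.J.TateChar11 Fermat.Agent.ES.J.K2Final11

variable (p : ℕ) [hp : Fact p.Prime] (N : ℕ) [NeZero N]

instance neZero_pow' (k : ℕ) : NeZero (p ^ k) := ⟨pow_ne_zero k hp.out.ne_zero⟩

instance finite_torsionC_pow (k : ℕ) : Finite ↥(Pic0.torsion ℂ (FC N) (p ^ k)) :=
  FiniteTorsion15.finite_torsionC N (p ^ k)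

/-- **The Kummer system of `J₀(N)(ℚ̄)`.** -/
def kummerSystemJ : KummerSystem p (Gamma0 N) (JZero N) where
  κ k := kumQAdd N (p ^ k)
  inj k := by
    intro x y hxy
    have h := FiniteTorsion15.kummerC_injective N (p ^ k) hxy
    exact (torsionEquivC N (p ^ k)).injective h
  range_eq k χ := by
    constructor
    · rintro ⟨x, rfl⟩
      have hmem := MultTrivialFinal18.kumCharOf_mem_kumChar N (p ^ k) (torsionEquivC N (p ^ k) x)
      rw [mem_kumChar_iff] at hmem
      refine ⟨fun γ hγ => hmem.2 γ hγ, ?_⟩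
      apply Additive.toMul.injective
      refine MonoidHom.ext fun γ => ?_
      exact hmem.1 γ
    · rintro ⟨h1, h2⟩
      have hmem : Additive.toMul χ ∈ KumChar N (p ^ k) := by
        rw [mem_kumChar_iff]
        refine ⟨fun γ => ?_, fun γ hγ => h1 γ hγ⟩
        have := congrArg (fun ψ : X (Gamma0 N) => (Additive.toMul ψ) γ) h2
        exact this
      obtain ⟨z, hz⟩ := HasEigenFinal18.kummerC_surjective N (p ^ k) (Additive.toMul χ) hmem
      refine ⟨(torsionEquivC N (p ^ k)).symm z, ?_⟩
      show kummerC N (p ^ k) (torsionEquivC N (p ^ k) ((torsionEquivC N (p ^ k)).symm z)) = χ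
      rw [AddEquiv.apply_symm_apply, hz]
      rfl
  compat k x hx := by
    have : NeZero p := ⟨hp.out.ne_zero⟩
    show kummerC N (p ^ k) (torsionEquivC N (p ^ k) ⟨p • (x : JZero N), hx⟩) =
      p • kummerC N (p ^ (k + 1)) (torsionEquivC N (p ^ (k + 1)) x)
    refine KumBridge17.kummerC_pow_succ N p k _ _ ?_
    show extPic0C N (p • (x : JZero N)) = p • extPic0C N (x : JZero N)
    exact map_nsmul (extPic0C N) p (x : JZero N)

/-- **Hecke compatibility** of the Kummer system (J3a). -/
theorem heckeCompatJ : HeckeCompat (kummerSystemJ p N) := by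
  intro ℓ hℓ hℓN k x hfx
  exact kumQAdd_heckeOperatorBar ⟨ℓ, hℓ⟩ hℓN (p ^ k) x hfx

end Fermat.Agent.ES.J.KummerSystemJ8
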