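/-
Program J (S30), chapter J5 (algebra), helper8.  **The odd-plane lemma.**

`K` a field of characteristic `≠ 2`, `V` a `K`-vector space, `ρ : G →* End_K V`, `ε : G →* K`,
`a : G → K` with the quadratic relations

  `ρ g + ε g • ρ g⁻¹ = a g • 1`   for ALL `g : G`,

and an involution `c : G` (`c * c = 1`) with `ε c = -1` (complex conjugation for the cyclotomic
character).  Then `V ≠ 0` contains a `G`-stable line, or a `G`-stable plane `K w ⊕ K u` with
`ρ c w = w`, `ρ c u = -u` — over `K` itself: no field extension, no irreducibility, no Burnside.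
-/
import Mathlib

set_option autoImplicit false

namespace Fermat.Agent.ES.J.OddPlane8

variable {K : Type*} [Field K] {V : Type*} [AddCommGroup V] [Module K V]
variable {G : Type*} [Group G]

/-- The hypotheses of the lemma. -/
structure OddDatum (ρ : G →* Module.End K V) (ε : G →* K) (a : G → K) (c : G) : Prop where
  two_ne : (2 : K) ≠ 0
  rel : ∀ g : G, ρ g + ε g • ρ g⁻¹ = a g • (1 : Module.End K V)
  c_sq : c * c = 1
  eps_c : ε c = -1

namespace OddDatum

variable {ρ : G →* Module.End K V} {ε : G →* K} {a : G → K} {c : G}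

section Basic

variable (h : OddDatum ρ ε a c)
include h

theorem rho_c_sq : ρ c * ρ c = 1 := by rw [← map_mul, h.c_sq, map_one]

theorem rho_c_apply_apply (v : V) : ρ c (ρ c v) = v := by
  have := congrArg (fun f : Module.End K V => f v) h.rho_c_sq
  simpa using this

theorem c_inv : c⁻¹ = c := inv_eq_of_mul_eq_one_right h.c_sq

/-- `ε g • ρ g⁻¹ = a g - ρ g`. -/
theorem eps_smul_inv (g : G) : ε g • ρ g⁻¹ = a g • (1 : Module.End K V) - ρ g :=
  eq_sub_of_add_eq' (h.rel g)

/-- **(R1)**: `ρ c ρ g + ρ g ρ c = a g ρ c + a (c g)`. -/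
theorem anticomm (g : G) :
    ρ c * ρ g + ρ g * ρ c = a g • ρ c + a (c * g) • (1 : Module.End K V) := by
  have h1 := h.rel (c * g)
  rw [map_mul, map_mul, h.eps_c, mul_inv_rev, h.c_inv, map_mul, neg_one_mul, neg_smul,
    ← smul_mul_assoc, h.eps_smul_inv g] at h1
  rw [← h1]
  simp only [sub_mul, smul_mul_assoc, one_mul]
  abel

/-- vector form of (R1). -/
theorem anticomm_apply (g : G) (v : V) :
    ρ c (ρ g v) + ρ g (ρ c v) = a g • ρ c v + a (c * g) • v := by
  have := congrArg (fun f : Module.End K V => f v) (h.anticomm g)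
  simpa using this

end Basic

/-- the (unnormalised) projectors `1 ± ρ c` on vectors. -/
def pp (ρ : G →* Module.End K V) (c : G) (v : V) : V := v + ρ c v
def pm (ρ : G →* Module.End K V) (c : G) (v : V) : V := v - ρ c v

section Proj

variable (h : OddDatum ρ ε a c)
include h

theorem c_pp (v : V) : ρ c (pp ρ c v) = pp ρ c v := by
  unfold pp
  rw [map_add, h.rho_c_apply_apply, add_comm]

theorem c_pm (v : V) : ρ c (pm ρ c v) = -pm ρ c v := by
  unfold pm
  rw [map_sub, h.rho_c_apply_apply, neg_sub]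

omit h in
theorem pp_add_pm (v : V) : pp ρ c v + pm ρ c v = (2 : K) • v := by
  unfold pp pm
  rw [two_smul]
  abel

omit h in
theorem pp_of_plus {v : V} (hv : ρ c v = v) : pp ρ c v = (2 : K) • v := by
  unfold pp
  rw [hv, two_smul]

omit h in
theorem pm_of_plus {v : V} (hv : ρ c v = v) : pm ρ c v = 0 := by
  unfold pm
  rw [hv, sub_self]

omit h in
theorem pm_of_minus {v : V} (hv : ρ c v = -v) : pm ρ c v = (2 : K) • v := by
  unfold pm
  rw [hv, two_smul, sub_neg_eq_add]

omit h in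
theorem pp_of_minus {v : V} (hv : ρ c v = -v) : pp ρ c v = 0 := by
  unfold pp
  rw [hv, add_neg_cancel]

/-- **(S+)**: on the `+1`-eigenspace of `ρ c`, the `+`-component of `ρ g v` is a scalar multiple of
`v`. -/
theorem pp_rho_of_plus (g : G) {v : V} (hv : ρ c v = v) :
    pp ρ c (ρ g v) = (a g + a (c * g)) • v := by
  have h1 := h.anticomm_apply g v
  rw [hv] at h1
  unfold pp
  rw [add_comm, h1, add_smul]

/-- **(S−)**. -/
theorem pm_rho_of_minus (g : G) {v : V} (hv : ρ c v = -v) :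
    pm ρ c (ρ g v) = (a g - a (c * g)) • v := by
  have h1 := h.anticomm_apply g v
  rw [hv, map_neg, smul_neg] at h1
  unfold pm
  have h2 := eq_sub_of_add_eq h1
  rw [h2, sub_smul]
  abel

/-- a vector is half the sum of its two components. -/
theorem eq_half (v : V) : v = (2 : K)⁻¹ • (pp ρ c v + pm ρ c v) := by
  rw [pp_add_pm, smul_smul, inv_mul_cancel₀ h.two_ne, one_smul]

omit h in
theorem pm_eq (v : V) : pm ρ c v = (2 : K) • v - pp ρ c v := by
  rw [← pp_add_pm (ρ := ρ) (c := c) v]; abel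

omit h in
theorem pp_eq (v : V) : pp ρ c v = (2 : K) • v - pm ρ c v := by
  rw [← pp_add_pm (ρ := ρ) (c := c) v]; abel

omit h in
theorem pp_add (v w : V) : pp ρ c (v + w) = pp ρ c v + pp ρ c w := by
  unfold pp; rw [map_add]; abel

omit h in
theorem pp_sub (v w : V) : pp ρ c (v - w) = pp ρ c v - pp ρ c w := by
  unfold pp; rw [map_sub]; abel

omit h in
theorem pp_smul (r : K) (v : V) : pp ρ c (r • v) = r • pp ρ c v := by
  unfold pp; rw [map_smul, smul_add]

omit h in
theorem pm_sub (v w : V) : pm ρ c (v - w) = pm ρ c v - pm ρ c w := by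
  unfold pm; rw [map_sub]; abel

omit h in
theorem pm_smul (r : K) (v : V) : pm ρ c (r • v) = r • pm ρ c v := by
  unfold pm; rw [map_smul, smul_sub]

/-- `μ'(g, h)`: for `w ∈ V₊`, `pp (ρ g (pm (ρ h w))) = μ'(g,h) w`. -/
theorem pp_rho_pm_rho_of_plus (g k : G) {w : V} (hw : ρ c w = w) :
    pp ρ c (ρ g (pm ρ c (ρ k w))) =
      (2 * (a (g * k) + a (c * (g * k))) - (a g + a (c * g)) * (a k + a (c * k))) • w := by
  rw [pm_eq, h.pp_rho_of_plus k hw, map_sub, map_smul, map_smul, pp_sub, pp_smul, pp_smul,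
    ← Module.End.mul_apply, ← map_mul, h.pp_rho_of_plus (g * k) hw, h.pp_rho_of_plus g hw,
    smul_smul, smul_smul, ← sub_smul]
  congr 1
  ring

/-- `ν'(g, k)`: for `x ∈ V₋`, `pm (ρ g (pp (ρ k x))) = ν'(g,k) x`. -/
theorem pm_rho_pp_rho_of_minus (g k : G) {x : V} (hx : ρ c x = -x) :
    pm ρ c (ρ g (pp ρ c (ρ k x))) =
      (2 * (a (g * k) - a (c * (g * k))) - (a g - a (c * g)) * (a k - a (c * k))) • x := by
  rw [pp_eq, h.pm_rho_of_minus k hx, map_sub, map_smul, map_smul, pm_sub, pm_smul, pm_smul,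
    ← Module.End.mul_apply, ← map_mul, h.pm_rho_of_minus (g * k) hx, h.pm_rho_of_minus g hx,
    smul_smul, smul_smul, ← sub_smul]
  congr 1
  ring

end Proj

/-- **The odd-plane lemma.** -/
theorem exists_stable (h : OddDatum ρ ε a c) (hV : ∃ v : V, v ≠ 0) :
    (∃ (w : V) (ψ : G → K), w ≠ 0 ∧ ∀ g, ρ g w = ψ g • w) ∨
    (∃ (w u : V), w ≠ 0 ∧ u ≠ 0 ∧ ρ c w = w ∧ ρ c u = -u ∧
      ∃ α β γ δ : G → K, ∀ g, ρ g w = α g • w + γ g • u ∧ ρ g u = β g • w + δ g • u) := by
  have h2 := h.two_ne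
  by_cases hplus : ∃ w : V, w ≠ 0 ∧ ρ c w = w
  swap
  · -- `V₊ = 0`: every vector is in `V₋` and every `ρ g` is a scalar
    left
    have hpp : ∀ v : V, pp ρ c v = 0 := fun v => by
      by_contra hne
      exact hplus ⟨_, hne, h.c_pp v⟩
    have hminus : ∀ v : V, ρ c v = -v := fun v => by
      have := hpp v
      unfold pp at this
      exact (neg_eq_of_add_eq_zero_right this).symm
    obtain ⟨v, hv⟩ := hV
    refine ⟨v, fun g => (2 : K)⁻¹ * (a g - a (c * g)), hv, fun g => ?_⟩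
    conv_lhs => rw [h.eq_half (ρ g v), hpp, zero_add, h.pm_rho_of_minus g (hminus v), smul_smul]
  obtain ⟨w, hw0, hw⟩ := hplus
  by_cases hA : ∀ g, pm ρ c (ρ g w) = 0
  · left
    refine ⟨w, fun g => (2 : K)⁻¹ * (a g + a (c * g)), hw0, fun g => ?_⟩
    conv_lhs => rw [h.eq_half (ρ g w), hA, add_zero, h.pp_rho_of_plus g hw, smul_smul]
  push Not at hA
  obtain ⟨k₀, hu0⟩ := hA
  set u := pm ρ c (ρ k₀ w) with hu_def
  have hu : ρ c u = -u := h.c_pm _
  by_cases hB : ∀ g, pp ρ c (ρ g u) = 0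
  · left
    refine ⟨u, fun g => (2 : K)⁻¹ * (a g - a (c * g)), hu0, fun g => ?_⟩
    conv_lhs => rw [h.eq_half (ρ g u), hB, zero_add, h.pm_rho_of_minus g hu, smul_smul]
  push Not at hB
  obtain ⟨k, hk⟩ := hB
  right
  -- notation
  set μ : G → G → K := fun g g' =>
    2 * (a (g * g') + a (c * (g * g'))) - (a g + a (c * g)) * (a g' + a (c * g')) with hμ
  have hppu : ∀ g, pp ρ c (ρ g u) = μ g k₀ • w := fun g => h.pp_rho_pm_rho_of_plus g k₀ hw
  have hμk : μ k k₀ ≠ 0 := by
    intro h0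
    apply hk
    rw [hppu, h0, zero_smul]
  -- `ν'(k₀, k) = μ'(k, k₀)`
  have hν : (2 * (a (k₀ * k) - a (c * (k₀ * k))) - (a k₀ - a (c * k₀)) * (a k - a (c * k))) =
      μ k k₀ := by
    have e1 := h.pm_rho_pp_rho_of_minus k₀ k hu
    rw [hppu k, map_smul, pm_smul, ← hu_def] at e1
    have e2 : (μ k k₀ - (2 * (a (k₀ * k) - a (c * (k₀ * k))) -
        (a k₀ - a (c * k₀)) * (a k - a (c * k)))) • u = 0 := by
      rw [sub_smul, e1, sub_self]
    rcases smul_eq_zero.mp e2 with h3 | h3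
    · exact (sub_eq_zero.mp h3).symm
    · exact absurd h3 hu0
  -- the `-`-component of `ρ g w` is a multiple of `u`
  have hz : ∀ g, pm ρ c (ρ g w) = ((μ k k₀)⁻¹ * μ k g) • u := by
    intro g
    set z := pm ρ c (ρ g w) with hz_def
    have hzc : ρ c z = -z := h.c_pm _
    set v := μ k k₀ • z - μ k g • u with hv_def
    have hvc : ρ c v = -v := by
      rw [hv_def, map_sub, map_smul, map_smul, hzc, hu]
      simp only [smul_neg]
      abel
    have hppv : pp ρ c (ρ k v) = 0 := by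
      rw [hv_def, map_sub, map_smul, map_smul, pp_sub, pp_smul, pp_smul, hppu k, hz_def,
        h.pp_rho_pm_rho_of_plus k g hw, smul_smul, smul_smul, mul_comm, sub_self]
    have e1 := h.pm_rho_pp_rho_of_minus k₀ k hvc
    rw [hppv, map_zero, hν] at e1
    have hpm0 : pm ρ c (0 : V) = 0 := by unfold pm; simp
    rw [hpm0] at e1
    have hv0 : v = 0 := by
      rcases smul_eq_zero.mp e1.symm with h3 | h3
      · exact absurd h3 hμk
      · exact h3
    have : μ k k₀ • z = μ k g • u := sub_eq_zero.mp (hv_def ▸ hv0)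
    rw [mul_smul, ← this, smul_smul, inv_mul_cancel₀ hμk, one_smul]
  refine ⟨w, u, hw0, hu0, hw, hu,
    fun g => (2 : K)⁻¹ * (a g + a (c * g)), fun g => (2 : K)⁻¹ * μ g k₀,
    fun g => (2 : K)⁻¹ * ((μ k k₀)⁻¹ * μ k g), fun g => (2 : K)⁻¹ * (a g - a (c * g)),
    fun g => ⟨?_, ?_⟩⟩
  · conv_lhs => rw [h.eq_half (ρ g w), h.pp_rho_of_plus g hw, hz g, smul_add, smul_smul, smul_smul]
  · conv_lhs => rw [h.eq_half (ρ g u), hppu g, h.pm_rho_of_minus g hu, smul_add, smul_smul,
      smul_smul]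

end OddDatum

end Fermat.Agent.ES.J.OddPlane8
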