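/-
Program J (S30), chapter J6.5, leaf (T13) — helper8.  Linear algebra in rank 2 over a domain:
an endomorphism `M` killed by `X² - aX + b` is either a scalar or has characteristic polynomial
`X² - aX + b`; in the scalar case `M = c`, `c² = b ≠ 0` forces `a = 2c` and again
`charpoly M = X² - aX + b`.
-/
import Mathlib

set_option autoImplicit false

open Polynomial Matrix

namespace Fermat.Agent.ES.J.QuadCharpoly8

section Mat

variable {R : Type*} [CommRing R] [IsDomain R]

/-- matrix form. -/
theorem matrix_scalar_or_charpoly (M : Matrix (Fin 2) (Fin 2) R) (a b : R)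
    (hM : M * M - a • M + b • (1 : Matrix (Fin 2) (Fin 2) R) = 0) :
    (∃ c : R, M = c • (1 : Matrix (Fin 2) (Fin 2) R)) ∨
      M.charpoly = X ^ 2 - C a * X + C b := by
  have h00 := congrFun (congrFun hM 0) 0
  have h01 := congrFun (congrFun hM 0) 1
  have h10 := congrFun (congrFun hM 1) 0
  have h11 := congrFun (congrFun hM 1) 1
  simp only [Matrix.add_apply, Matrix.sub_apply, Matrix.mul_apply, Fin.sum_univ_two,
    Matrix.smul_apply, Matrix.one_apply_eq, Matrix.zero_apply, smul_eq_mul, mul_one,
    Matrix.one_apply_ne (show (0 : Fin 2) ≠ 1 by decide),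
    Matrix.one_apply_ne (show (1 : Fin 2) ≠ 0 by decide), mul_zero, add_zero] at h00 h01 h10 h11
  by_cases ht : M 0 0 + M 1 1 = a
  · right
    rw [Matrix.charpoly_fin_two, Matrix.trace_fin_two, Matrix.det_fin_two, ht]
    have hb : M 0 0 * M 1 1 - M 0 1 * M 1 0 = b := by
      rw [← ht] at h00
      linear_combination (-1 : R) * h00
    rw [hb]
  · left
    have hne : M 0 0 + M 1 1 - a ≠ 0 := sub_ne_zero.mpr ht
    have e01 : (M 0 0 + M 1 1 - a) * M 0 1 = 0 := by linear_combination h01
    have e10 : (M 0 0 + M 1 1 - a) * M 1 0 = 0 := by linear_combination h10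
    have z01 : M 0 1 = 0 := (mul_eq_zero.mp e01).resolve_left hne
    have z10 : M 1 0 = 0 := (mul_eq_zero.mp e10).resolve_left hne
    have ed : (M 0 0 + M 1 1 - a) * (M 0 0 - M 1 1) = 0 := by
      linear_combination h00 - h11
    have zd : M 0 0 = M 1 1 := sub_eq_zero.mp ((mul_eq_zero.mp ed).resolve_left hne)
    refine ⟨M 0 0, ?_⟩
    ext i j
    fin_cases i <;> fin_cases j <;> simp [z01, z10, zd]

/-- the scalar case (`b ≠ 0`, e.g. `b = ℓ` in characteristic zero). -/
theorem matrix_charpoly_of_scalar (c a b : R) (hb : b ≠ 0) (hc : c * c - a * c + b = 0)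
    (hcb : c * c = b) :
    (c • (1 : Matrix (Fin 2) (Fin 2) R)).charpoly = X ^ 2 - C a * X + C b := by
  have hc0 : c * (2 * c - a) = 0 := by linear_combination hc + hcb
  have hcne : c ≠ 0 := by
    rintro rfl
    exact hb (by rw [← hcb]; ring)
  have h0 := (mul_eq_zero.mp hc0).resolve_left hcne
  have ha : c + c = a := by linear_combination h0
  rw [Matrix.charpoly_fin_two, Matrix.trace_fin_two, Matrix.det_fin_two]
  simp only [Matrix.smul_apply, Matrix.one_apply_eq, smul_eq_mul, mul_one,
    Matrix.one_apply_ne (show (0 : Fin 2) ≠ 1 by decide),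
    Matrix.one_apply_ne (show (1 : Fin 2) ≠ 0 by decide), mul_zero, sub_zero]
  rw [ha, hcb]

end Mat

section Lin

variable {R : Type*} [CommRing R] [IsDomain R] {V : Type*} [AddCommGroup V] [Module R V]
  [Module.Free R V] [Module.Finite R V]

/-- **(T13)**: an endomorphism of a free module of rank 2 over a domain killed by `X² - aX + b` is a
scalar or has characteristic polynomial `X² - aX + b`. -/
theorem scalar_or_charpoly (hV : Module.finrank R V = 2) (M : Module.End R V) (a b : R)
    (hM : M * M - a • M + b • (1 : Module.End R V) = 0) :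
    (∃ c : R, M = c • (1 : Module.End R V)) ∨ M.charpoly = X ^ 2 - C a * X + C b := by
  let e : Module.Basis (Fin 2) R V := Module.finBasisOfFinrankEq R V hV
  have hmat : LinearMap.toMatrix e e M * LinearMap.toMatrix e e M - a • LinearMap.toMatrix e e M +
      b • (1 : Matrix (Fin 2) (Fin 2) R) = 0 := by
    have h := congrArg (LinearMap.toMatrix e e) hM
    rw [map_add, map_sub, map_smul, map_smul, map_zero, Module.End.mul_eq_comp,
      LinearMap.toMatrix_comp e e e, Module.End.one_eq_id, LinearMap.toMatrix_id] at h
    exact h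
  rcases matrix_scalar_or_charpoly _ a b hmat with ⟨c, hc⟩ | h
  · left
    refine ⟨c, ?_⟩
    apply (LinearMap.toMatrix e e).injective
    rw [hc, map_smul, Module.End.one_eq_id, LinearMap.toMatrix_id]
  · right
    rw [← LinearMap.charpoly_toMatrix M e]
    exact h

/-- the scalar case. -/
theorem charpoly_of_scalar (hV : Module.finrank R V = 2) (c a b : R) (hb : b ≠ 0)
    (hc : c * c - a * c + b = 0) (hcb : c * c = b) :
    (c • (1 : Module.End R V)).charpoly = X ^ 2 - C a * X + C b := by
  let e : Module.Basis (Fin 2) R V := Module.finBasisOfFinrankEq R V hV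
  rw [← LinearMap.charpoly_toMatrix _ e, map_smul, Module.End.one_eq_id, LinearMap.toMatrix_id]
  exact matrix_charpoly_of_scalar c a b hb hc hcb

/-- determinant form of the scalar case: if `M = c • 1` is killed by `X² - aX + b` and
`det M = b ≠ 0`, then `charpoly M = X² - aX + b`. -/
theorem charpoly_of_scalar_of_det (hV : Module.finrank R V = 2) (M : Module.End R V) (c a b : R)
    (hMc : M = c • (1 : Module.End R V)) (hb : b ≠ 0)
    (hM : M * M - a • M + b • (1 : Module.End R V) = 0) (hdet : LinearMap.det M = b) :
    M.charpoly = X ^ 2 - C a * X + C b := by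
  have hcb : c * c = b := by
    rw [← hdet, hMc, LinearMap.det_smul, hV, Module.End.one_eq_id, LinearMap.det_id]
    ring
  have hV0 : Nontrivial V := Module.nontrivial_of_finrank_pos (R := R) (by rw [hV]; norm_num)
  have hc : c * c - a * c + b = 0 := by
    subst hMc
    have h1 : (c * c - a * c + b) • (1 : Module.End R V) = 0 := by
      rw [← hM]
      simp only [mul_smul_comm, mul_one, add_smul, sub_smul, smul_smul]
    have hinj : Function.Injective (fun r : R => r • (1 : Module.End R V)) := by
      intro r s hrs
      obtain ⟨v, hv⟩ := exists_ne (0 : V)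
      have := congrArg (fun f : Module.End R V => f v) hrs
      simp only [LinearMap.smul_apply, Module.End.one_apply] at this
      have h2 : (r - s) • v = 0 := by rw [sub_smul, this, sub_self]
      rcases smul_eq_zero.mp h2 with h3 | h3
      · exact sub_eq_zero.mp h3
      · exact absurd h3 hv
    exact hinj (by simpa using h1)
  rw [hMc]
  exact charpoly_of_scalar hV c a b hb hc hcb

end Lin

end Fermat.Agent.ES.J.QuadCharpoly8
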