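/-
Program J (S30), chapter J6.5/J6.6, helper13: **the frozen S30 conclusion from one contract**.

`exists_galoisRepAdic` : over a complete DVR `𝒪'` of characteristic `0` with `p ∈ 𝔪`: a finite free
`𝒪'`-lattice `Λ` with a Galois action `ρ`, a commuting action `θ` of the Hecke algebra, a
`χ`-eigenvector, the Eichler–Shimura relation at all Frobenius lifts at `ℓ ∉ S`, unramified outside
`N p` and adically continuous gives a `GaloisRepAdic 𝒪'` with the characteristic polynomials and the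
unramifiedness of S30 (`𝒪'' := 𝒪'`).

`s30_of_contract` : the same from a `ℤ_[p]`-lattice `T` (e.g. the Tate module `TateJZero13.TJ p N`),
by base change along `PadicAlg8.padicToLocal`; the conclusion is literally the body of the frozen S30.

Uses helper8's `PadicAlg8`, `CycloChar8`, helper23's `ChebQbar23`, helper9's `RelDense9`, `RankTwo9`
(through `EigenLattice13.exists_rankTwo_of_eigen`).
-/
import Mathlib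
import Fermat.Prelude.Def_CuspForm_HeckeGaloisRepDatum
import Fermat.Agent.ES.J.EigenLattice13
import Fermat.Agent.ES.J.PadicAlg8
import Fermat.Agent.ES.J.CycloChar8
import Fermat.Agent.ES.GAL.ChebQbar23

set_option autoImplicit false
set_option linter.unusedSectionVars false
set_option linter.unusedVariables false

noncomputable section

open Polynomial TensorProduct Module

namespace Fermat.Agent.ES.J.S30Assembly13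

open Fermat.Agent.ES.ALG.RelDense9 Fermat.Agent.ES.ALG.RankTwo9
open Fermat.Agent.ES.J.EigenLattice13 Fermat.Agent.ES.J.PadicAlg8 Fermat.Agent.ES.J.CycloChar8

/-- `ℚbar`. -/
local notation "Qb" => AlgebraicClosure ℚ

/-- `ℚ̄ / ℚ` is algebraic. -/
theorem isAlgebraic_qb : Algebra.IsAlgebraic ℚ Qb := AlgebraicClosure.isAlgebraic ℚ

attribute [local instance] isAlgebraic_qb

section Lattice

variable (p : ℕ) [hp : Fact p.Prime] (N : ℕ) [NeZero N] (S : Finset ℕ)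
  (hpS : p ∈ S) (hNS : ∀ q : ℕ, q.Prime → q ∣ N → q ∈ S)
  (𝒪' : Type) [CommRing 𝒪'] [IsDomain 𝒪'] [IsDiscreteValuationRing 𝒪']
  [IsAdicComplete (IsLocalRing.maximalIdeal 𝒪') 𝒪'] [CharZero 𝒪']
  (hp𝒪' : (p : 𝒪') ∈ IsLocalRing.maximalIdeal 𝒪')
  (χ : CuspForm.heckeAlgebra N 2 (↑S : Set ℕ) →+* 𝒪')

/-- the set of Frobenius lifts at the good primes. -/
def frobSet : Set (Qb ≃ₐ[ℚ] Qb) :=
  {σ | ∃ (ℓ : ℕ) (_ : ℓ.Prime) (_ : ¬ ℓ ∣ N) (_ : ℓ ∉ (↑S : Set ℕ)) (A : ValuationSubring Qb),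
    A.LiesOverPrime ℓ ∧ A.IsFrobeniusAt σ ℓ}

/-- a Hecke operator attached to a Frobenius lift. -/
def frobT (σ : Qb ≃ₐ[ℚ] Qb) : CuspForm.heckeAlgebra N 2 (↑S : Set ℕ) := by
  classical
  exact if h : σ ∈ frobSet N S then
    CuspForm.heckeAlgebra.T h.choose_spec.choose h.choose_spec.choose_spec.choose
      h.choose_spec.choose_spec.choose_spec.choose
  else 0

include hpS in
theorem ne_p_of_notMem {ℓ : ℕ} (hℓS : ℓ ∉ (↑S : Set ℕ)) : ℓ ≠ p := by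
  rintro rfl
  exact hℓS (Finset.mem_coe.mpr hpS)

/-- **`frobT σ = T_ℓ`** for every Frobenius lift `σ` at `ℓ`. -/
theorem frobT_eq {ℓ : ℕ} (hℓ : ℓ.Prime) (hℓN : ¬ ℓ ∣ N) (hℓS : ℓ ∉ (↑S : Set ℕ))
    {A : ValuationSubring Qb} (hA : A.LiesOverPrime ℓ) {σ : Qb ≃ₐ[ℚ] Qb}
    (hσ : A.IsFrobeniusAt σ ℓ) (hpS : p ∈ S) :
    frobT N S σ = CuspForm.heckeAlgebra.T hℓ hℓN hℓS := by
  classical
  have h : σ ∈ frobSet N S := ⟨ℓ, hℓ, hℓN, hℓS, A, hA, hσ⟩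
  rw [frobT, dif_pos h]
  -- the chosen prime is `ℓ`: compare the cyclotomic characters
  obtain ⟨hℓ', hℓN', hℓS', A', hA', hσ'⟩ := h.choose_spec
  have e1 : (cyclo p σ : ℤ_[p]) = (h.choose : ℤ_[p]) :=
    cyclo_of_isFrobeniusAt p hℓ' (ne_p_of_notMem p S hpS hℓS') A' hA' hσ'
  have e2 : (cyclo p σ : ℤ_[p]) = (ℓ : ℤ_[p]) :=
    cyclo_of_isFrobeniusAt p hℓ (ne_p_of_notMem p S hpS hℓS) A hA hσ
  have e3 : h.choose = ℓ := Nat.cast_injective (R := ℤ_[p]) (e1.symm.trans e2)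
  congr 1

variable {Λ : Type} [AddCommGroup Λ] [Module 𝒪' Λ] [Module.Free 𝒪' Λ] [Module.Finite 𝒪' Λ]

include hpS hNS hp𝒪' in
/-- **S30 from an `𝒪'`-lattice.** -/
theorem exists_galoisRepAdic
    (ρ : (Qb ≃ₐ[ℚ] Qb) →* End 𝒪' Λ)
    (θ : CuspForm.heckeAlgebra N 2 (↑S : Set ℕ) →+* End 𝒪' Λ)
    (hcomm : ∀ g t, Commute (ρ g) (θ t))
    (heig : ∃ v : Λ, v ≠ 0 ∧ ∀ t, θ t v = χ t • v)
    (hES : ∀ (ℓ : ℕ) (hℓ : ℓ.Prime) (hℓN : ¬ ℓ ∣ N) (hℓS : ℓ ∉ (↑S : Set ℕ))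
      (A : ValuationSubring Qb), A.LiesOverPrime ℓ → ∀ σ : Qb ≃ₐ[ℚ] Qb, A.IsFrobeniusAt σ ℓ →
        ρ σ * ρ σ - θ (CuspForm.heckeAlgebra.T hℓ hℓN hℓS) * ρ σ + (ℓ : 𝒪') • (1 : End 𝒪' Λ) = 0)
    (hunr : ∀ q : ℕ, q.Prime → ¬ q ∣ N → q ≠ p → ∀ P : ValuationSubring Qb, P.LiesOverPrime q →
      ∀ τ ∈ P.inertiaSubgroupIn ℚ, ρ τ = 1)
    (hcont : ∀ n : ℕ, ∃ L : IntermediateField ℚ Qb, FiniteDimensional ℚ L ∧
      ∀ σ : Qb ≃ₐ[ℚ] Qb, (∀ a ∈ L, σ a = a) →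
        EndCongr (IsLocalRing.maximalIdeal 𝒪' ^ n) (ρ σ) 1) :
    ∃ ρ' : GaloisRepAdic 𝒪',
      (∀ (ℓ : ℕ) (hℓ : ℓ.Prime) (hℓN : ¬ ℓ ∣ N) (hℓS : ℓ ∉ (↑S : Set ℕ)),
        ∀ A : ValuationSubring Qb, A.LiesOverPrime ℓ →
          ∀ σ : Qb ≃ₐ[ℚ] Qb, A.IsFrobeniusAt σ ℓ →
            LinearMap.charpoly (ρ'.ρ σ) =
              X ^ 2 - C (χ (CuspForm.heckeAlgebra.T hℓ hℓN hℓS)) * X + C ((ℓ : 𝒪'))) ∧
      (∀ q : ℕ, q.Prime → ¬ q ∣ N → q ≠ p → ρ'.IsUnramifiedAt q) := by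
  classical
  set d : (Qb ≃ₐ[ℚ] Qb) →* 𝒪'ˣ := cycloO p hp𝒪' with hd
  set 𝔪 := IsLocalRing.maximalIdeal 𝒪' with h𝔪
  have h2 : (2 : 𝒪') ≠ 0 := two_ne_zero
  -- the maximal-ideal-adic topology is separated
  have hI : ∀ x : 𝒪', (∀ n, x ∈ 𝔪 ^ n) → x = 0 := by
    intro x hx
    have h1 : x ∈ (⨅ n, 𝔪 ^ n : Ideal 𝒪') := (Submodule.mem_iInf _).mpr hx
    rw [Ideal.iInf_pow_eq_bot_of_isLocalRing 𝔪 (IsLocalRing.maximalIdeal.isMaximal 𝒪').ne_top] at h1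
    exact h1
  -- the relation on the Frobenius lifts
  have hΦ : ∀ σ ∈ frobSet N S, ρ σ * ρ σ - θ (frobT N S σ) * ρ σ +
      ((d σ : 𝒪'ˣ) : 𝒪') • (1 : End 𝒪' Λ) = 0 := by
    rintro σ ⟨ℓ, hℓ, hℓN, hℓS, A, hA, hσ⟩
    rw [frobT_eq p N S hℓ hℓN hℓS hA hσ hpS, hd,
      cycloO_of_isFrobeniusAt p hp𝒪' hℓ (ne_p_of_notMem p S hpS hℓS) A hA hσ]
    exact hES ℓ hℓ hℓN hℓS A hA σ hσ
  -- density
  have hdense : ∀ (n : ℕ) (g : Qb ≃ₐ[ℚ] Qb), ∃ σ ∈ frobSet N S, ∃ j : ℕ,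
      EndCongr (𝔪 ^ n) (ρ (g⁻¹ * σ ^ j)) 1 ∧ ((d (g⁻¹ * σ ^ j) : 𝒪'ˣ) : 𝒪') - 1 ∈ 𝔪 ^ n := by
    intro n g
    obtain ⟨L₁, hL₁, H₁⟩ := hcont n
    obtain ⟨L₂, hL₂, H₂⟩ := cycloO_sub_one_mem p hp𝒪' n
    have := hL₁
    have := hL₂
    obtain ⟨ℓ, A, φ, j, hℓ, hℓS, hA, hφ, hfix⟩ :=
      Fermat.Agent.ES.GAL.ChebQbar23.exists_frobenius_inv_mul_pow_fixes (L₁ ⊔ L₂) g S
    have hℓS' : ℓ ∉ (↑S : Set ℕ) := fun h => hℓS (Finset.mem_coe.mp h)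
    have hℓN : ¬ ℓ ∣ N := fun h => hℓS (hNS ℓ hℓ h)
    refine ⟨φ, ⟨ℓ, hℓ, hℓN, hℓS', A, hA, hφ⟩, j, ?_, ?_⟩
    · exact H₁ _ fun a ha => hfix a ((le_sup_left : L₁ ≤ L₁ ⊔ L₂) ha)
    · exact H₂ _ fun a ha => hfix a ((le_sup_right : L₂ ≤ L₁ ⊔ L₂) ha)
  obtain ⟨Λ', i1, i2, i3, i4, ρ', hrk, hcp, hcong⟩ :=
    exists_rankTwo_of_eigen h2 ρ θ hcomm χ heig d complexConjugation complexConjugation_mul_self
      (cycloO_complexConjugation p hp𝒪') (fun n => 𝔪 ^ n) hI (frobSet N S) (frobT N S) hΦ hdense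
  refine ⟨{ V := Λ', finrank_eq := hrk, ρ := ρ', isAdicContinuous := ?_ }, ?_, ?_⟩
  · intro n
    obtain ⟨L₁, hL₁, H₁⟩ := hcont n
    obtain ⟨L₂, hL₂, H₂⟩ := cycloO_sub_one_mem p hp𝒪' n
    have := hL₁
    have := hL₂
    refine ⟨L₁ ⊔ L₂, inferInstance, fun σ hσ v => ?_⟩
    have h1 := hcong (𝔪 ^ n) σ (H₁ σ fun a ha => hσ a ((le_sup_left : L₁ ≤ L₁ ⊔ L₂) ha))
      (H₂ σ fun a ha => hσ a ((le_sup_right : L₂ ≤ L₁ ⊔ L₂) ha))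
    exact h1 v
  · intro ℓ hℓ hℓN hℓS A hA σ hσ
    have h1 := hcp σ ⟨ℓ, hℓ, hℓN, hℓS, A, hA, hσ⟩
    rw [frobT_eq p N S hℓ hℓN hℓS hA hσ hpS, hd,
      cycloO_of_isFrobeniusAt p hp𝒪' hℓ (ne_p_of_notMem p S hpS hℓS) A hA hσ] at h1
    exact h1
  · intro q hq hqN hqp P hP τ hτ
    have h1 : EndCongr (⊥ : Ideal 𝒪') (ρ τ) 1 := endCongr_of_eq _ (hunr q hq hqN hqp P hP τ hτ)
    have h2 : ((d τ : 𝒪'ˣ) : 𝒪') - 1 ∈ (⊥ : Ideal 𝒪') := by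
      rw [hd, cycloO_of_mem_inertia p hp𝒪' hq hqp P hP hτ, Units.val_one, sub_self]
      exact Submodule.zero_mem _
    exact eq_of_endCongr_bot (hcong ⊥ τ h1 h2)

end Lattice

section Contract

variable (p : ℕ) [hp : Fact p.Prime] (N : ℕ) [NeZero N] (S : Finset ℕ)
  (hpS : p ∈ S) (hNS : ∀ q : ℕ, q.Prime → q ∣ N → q ∈ S)
  (𝒪' : Type) [CommRing 𝒪'] [IsDomain 𝒪'] [IsDiscreteValuationRing 𝒪']
  [IsAdicComplete (IsLocalRing.maximalIdeal 𝒪') 𝒪'] [Finite (IsLocalRing.ResidueField 𝒪')]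
  [CharZero 𝒪'] (hp𝒪' : (p : 𝒪') ∈ IsLocalRing.maximalIdeal 𝒪')
  (χ : CuspForm.heckeAlgebra N 2 (↑S : Set ℕ) →+* 𝒪')

/-- the `ℤ_[p]`-algebra structure of `𝒪'` (a `def`, not an instance). -/
@[instance_reducible]
def algebraO : Algebra ℤ_[p] 𝒪' := (padicToLocal p hp𝒪').toAlgebra

theorem algebraMap_algebraO (x : ℤ_[p]) :
    (letI := algebraO p 𝒪' hp𝒪'; algebraMap ℤ_[p] 𝒪' x) = padicToLocal p hp𝒪' x := rfl

variable {T : Type} [AddCommGroup T] [Module ℤ_[p] T] [Module.Free ℤ_[p] T]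
  [Module.Finite ℤ_[p] T]

include hpS hNS in
/-- **S30 from a `ℤ_[p]`-lattice** (the contract of chapter J6): the literal body of the frozen S30
for the given `p N S 𝒪' χ`, with `𝒪'' := 𝒪'`. -/
theorem s30_of_contract
    (ρ : (Qb ≃ₐ[ℚ] Qb) →* End ℤ_[p] T)
    (θ : CuspForm.heckeAlgebra N 2 (↑S : Set ℕ) →+* End ℤ_[p] T)
    (hcomm : ∀ g t, Commute (ρ g) (θ t))
    (heig : letI := algebraO p 𝒪' hp𝒪'
      ∃ v : 𝒪' ⊗[ℤ_[p]] T, v ≠ 0 ∧ ∀ t, (θ t).baseChange 𝒪' v = χ t • v)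
    (hES : ∀ (ℓ : ℕ) (hℓ : ℓ.Prime) (hℓN : ¬ ℓ ∣ N) (hℓS : ℓ ∉ (↑S : Set ℕ))
      (A : ValuationSubring Qb), A.LiesOverPrime ℓ → ∀ σ : Qb ≃ₐ[ℚ] Qb, A.IsFrobeniusAt σ ℓ →
        ρ σ * ρ σ - θ (CuspForm.heckeAlgebra.T hℓ hℓN hℓS) * ρ σ +
          (ℓ : ℤ_[p]) • (1 : End ℤ_[p] T) = 0)
    (hunr : ∀ q : ℕ, q.Prime → ¬ q ∣ N → q ≠ p → ∀ P : ValuationSubring Qb, P.LiesOverPrime q →
      ∀ τ ∈ P.inertiaSubgroupIn ℚ, ρ τ = 1)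
    (hcont : ∀ n : ℕ, ∃ L : IntermediateField ℚ Qb, FiniteDimensional ℚ L ∧
      ∀ σ : Qb ≃ₐ[ℚ] Qb, (∀ a ∈ L, σ a = a) →
        ∀ x : T, ∃ y : T, ρ σ x - x = ((p : ℤ_[p]) ^ n) • y) :
    ∃ (𝒪'' : Type) (_ : CommRing 𝒪'') (_ : IsDomain 𝒪'') (_ : IsDiscreteValuationRing 𝒪'')
      (_ : IsAdicComplete (IsLocalRing.maximalIdeal 𝒪'') 𝒪'')
      (_ : Finite (IsLocalRing.ResidueField 𝒪'')) (_ : CharZero 𝒪'')
      (_ : Algebra 𝒪' 𝒪'') (_ : Module.Finite 𝒪' 𝒪'') (_ : IsLocalHom (algebraMap 𝒪' 𝒪'')),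
    Function.Injective (algebraMap 𝒪' 𝒪'') ∧
    ∃ ρ' : GaloisRepAdic 𝒪'',
      (∀ (ℓ : ℕ) (hℓ : ℓ.Prime) (hℓN : ¬ ℓ ∣ N) (hℓS : ℓ ∉ (↑S : Set ℕ)),
        ∀ A : ValuationSubring (AlgebraicClosure ℚ), A.LiesOverPrime ℓ →
          ∀ σ : AlgebraicClosure ℚ ≃ₐ[ℚ] AlgebraicClosure ℚ, A.IsFrobeniusAt σ ℓ →
            LinearMap.charpoly (ρ'.ρ σ) =
              X ^ 2 - C (algebraMap 𝒪' 𝒪'' (χ (CuspForm.heckeAlgebra.T hℓ hℓN hℓS))) * X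
                + C ((ℓ : 𝒪''))) ∧
      (∀ q : ℕ, q.Prime → ¬ q ∣ N → q ≠ p → ρ'.IsUnramifiedAt q) := by
  let _ := algebraO p 𝒪' hp𝒪'
  have key := exists_galoisRepAdic p N S hpS hNS 𝒪' hp𝒪' χ (Λ := 𝒪' ⊗[ℤ_[p]] T)
    (rhoO 𝒪' ρ) (thetaO 𝒪' θ) (fun g t => commute_rhoO_thetaO hcomm g t) heig ?_ ?_ ?_
  · obtain ⟨ρ', h1, h2⟩ := key
    refine ⟨𝒪', inferInstance, inferInstance, inferInstance, inferInstance, inferInstance,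
      inferInstance, Algebra.id 𝒪', inferInstance, ?_, ?_, ρ', ?_, h2⟩
    · exact ⟨fun a ha => ha⟩
    · exact fun a b hab => hab
    · intro ℓ hℓ hℓN hℓS A hA σ hσ
      exact h1 ℓ hℓ hℓN hℓS A hA σ hσ
  · -- Eichler–Shimura
    intro ℓ hℓ hℓN hℓS A hA σ hσ
    have h1 := quad_rhoO (𝒪 := 𝒪') (hES ℓ hℓ hℓN hℓS A hA σ hσ)
    rw [map_natCast] at h1
    exact h1
  · -- unramified
    intro q hq hqN hqp P hP τ hτ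
    exact rhoO_eq_one (hunr q hq hqN hqp P hP τ hτ)
  · -- continuity
    intro n
    obtain ⟨L, hL, H⟩ := hcont n
    refine ⟨L, hL, fun σ hσ => ?_⟩
    refine EndCongr.mono ?_ (endCongr_rhoO (𝒪 := 𝒪') (H σ hσ))
    rw [Ideal.span_singleton_le_iff_mem, map_pow, map_natCast]
    exact Ideal.pow_mem_pow hp𝒪' n

end Contract

end Fermat.Agent.ES.J.S30Assembly13
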