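/-
Program J (S30), helper8 (integrator): **S30 from a Hecke-compatible Kummer system on `J₀(N)`**.

(K1) is `FiniteTorsion15.finite_setOf_nsmul_eq_zero` (unconditional), (K2) is `K2Final11.k2`.
What remains is exactly: for all `p`, `N` a `TateChar11.KummerSystem p (Gamma0 N) (JZero N)` with
`K2Final11.HeckeCompat`.
-/
import Mathlib
import Fermat.Agent.ES.J.S30Glue8
import Fermat.Agent.ES.J.K2Final11
import Fermat.Agent.ES.KUM.FiniteTorsion15

set_option autoImplicit false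
set_option linter.overlappingInstances false

open Polynomial AlgebraicCurve ModularCurve CongruenceSubgroup

noncomputable section

namespace Fermat.Agent.ES.J.S30Final8

open Fermat.Agent.ES.J.S30Glue8 Fermat.Agent.ES.J.K2Final11

/-- (K1), for a prime `p`. -/
theorem k1 (p : ℕ) [hp : Fact p.Prime] (N : ℕ) [NeZero N] : {y : JZero N | p • y = 0}.Finite :=
  haveI : NeZero p := ⟨hp.out.ne_zero⟩
  Fermat.Agent.ES.KUM.FiniteTorsion15.finite_setOf_nsmul_eq_zero N p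

/-- **S30 from a Hecke-compatible Kummer system**, in the literal frozen shape. -/
theorem s30_of_kummerSystem
    (KS : ∀ (p : ℕ) [Fact p.Prime] (N : ℕ) [NeZero N], Fermat.Agent.ES.J.TateChar11.KummerSystem p (Gamma0 N) (JZero N))
    (hK : ∀ (p : ℕ) [Fact p.Prime] (N : ℕ) [NeZero N], HeckeCompat (KS p N)) :
    ∀ (p : ℕ) [Fact p.Prime] (N : ℕ) [NeZero N] (S : Finset ℕ)
      (_hpS : p ∈ S) (_hNS : ∀ q : ℕ, q.Prime → q ∣ N → q ∈ S)
      (𝒪' : Type) [CommRing 𝒪'] [IsDomain 𝒪'] [IsDiscreteValuationRing 𝒪']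
      [IsAdicComplete (IsLocalRing.maximalIdeal 𝒪') 𝒪'] [Finite (IsLocalRing.ResidueField 𝒪')]
      [CharZero 𝒪'] (_hp𝒪' : (p : 𝒪') ∈ IsLocalRing.maximalIdeal 𝒪')
      (χ : CuspForm.heckeAlgebra N 2 (↑S : Set ℕ) →+* 𝒪'),
      ∃ (𝒪'' : Type) (_ : CommRing 𝒪'') (_ : IsDomain 𝒪'') (_ : IsDiscreteValuationRing 𝒪'')
        (_ : IsAdicComplete (IsLocalRing.maximalIdeal 𝒪'') 𝒪'')
        (_ : Finite (IsLocalRing.ResidueField 𝒪'')) (_ : CharZero 𝒪'')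
        (_ : Algebra 𝒪' 𝒪'') (_ : Module.Finite 𝒪' 𝒪'') (_ : IsLocalHom (algebraMap 𝒪' 𝒪'')),
      Function.Injective (algebraMap 𝒪' 𝒪'') ∧
      ∃ ρ : GaloisRepAdic 𝒪'',
        (∀ (ℓ : ℕ) (hℓ : ℓ.Prime) (hℓN : ¬ ℓ ∣ N) (hℓS : ℓ ∉ (↑S : Set ℕ)),
          ∀ A : ValuationSubring (AlgebraicClosure ℚ), A.LiesOverPrime ℓ →
            ∀ σ : AlgebraicClosure ℚ ≃ₐ[ℚ] AlgebraicClosure ℚ, A.IsFrobeniusAt σ ℓ →
              LinearMap.charpoly (ρ.ρ σ) =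
                X ^ 2 - C (algebraMap 𝒪' 𝒪'' (χ (CuspForm.heckeAlgebra.T hℓ hℓN hℓS))) * X
                  + C ((ℓ : 𝒪''))) ∧
        (∀ q : ℕ, q.Prime → ¬ q ∣ N → q ≠ p → ρ.IsUnramifiedAt q) :=
  s30_of_inputs (fun p _ N _ => k1 p N) (fun p _ N _ => k2 (KS p N) (hK p N))

end Fermat.Agent.ES.J.S30Final8
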