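/-
Program J (S30), chapter J6.5, leaf (T11) — helper8.  Saturated submodules of a finite free module
over a PID / DVR: they are finite free, and `a • Λ = Λ ∩ a • Λ₀` (so congruences modulo `𝔪 ^ n`
in `Λ₀` between elements of `Λ` are congruences in `Λ`: adic continuity restricts).
-/
import Mathlib

set_option autoImplicit false
set_option linter.unusedSectionVars false

namespace Fermat.Agent.ES.J.SatLattice8

variable {A : Type*} [CommRing A] [IsDomain A]
variable {M : Type*} [AddCommGroup M] [Module A M]

/-- a submodule is saturated if it is closed under division by nonzero scalars. -/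
def IsSaturated (L : Submodule A M) : Prop := ∀ (a : A) (v : M), a ≠ 0 → a • v ∈ L → v ∈ L

/-- the intersection of a module with (the preimage of) a subspace of a vector space over the
fraction field is saturated. -/
theorem isSaturated_comap {K : Type*} [Field K] [Algebra A K] [IsFractionRing A K]
    {V : Type*} [AddCommGroup V] [Module K V] [Module A V] [IsScalarTower A K V]
    (f : M →ₗ[A] V) (W : Submodule K V) :
    IsSaturated ((W.restrictScalars A).comap f) := by
  intro a v ha hav
  rw [Submodule.mem_comap, map_smul] at hav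
  rw [Submodule.mem_comap]
  have ha' : algebraMap A K a ≠ 0 := by
    rwa [Ne, IsFractionRing.to_map_eq_zero_iff (K := K)]
  have h1 : (algebraMap A K a)⁻¹ • (a • f v) ∈ W := W.smul_mem _ hav
  rwa [← algebraMap_smul K a (f v), smul_smul, inv_mul_cancel₀ ha', one_smul] at h1

open scoped Pointwise in
/-- membership in `span {a} • ⊤`. -/
theorem mem_span_smul_top_iff_exists {N : Type*} [AddCommGroup N] [Module A N] (a : A) (v : N) :
    v ∈ (Ideal.span {a}) • (⊤ : Submodule A N) ↔ ∃ w : N, a • w = v := by
  rw [Submodule.ideal_span_singleton_smul, Submodule.mem_smul_pointwise_iff_exists]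
  constructor
  · rintro ⟨w, -, hw⟩
    exact ⟨w, hw⟩
  · rintro ⟨w, hw⟩
    exact ⟨w, Submodule.mem_top, hw⟩

/-- **(T11)(b)**: in a saturated submodule, divisibility by `a ≠ 0` can be tested in the ambient
module. -/
theorem mem_span_smul_top_iff (L : Submodule A M) (hL : IsSaturated L) {a : A} (ha : a ≠ 0)
    (v : L) :
    v ∈ (Ideal.span {a}) • (⊤ : Submodule A L) ↔
      (v : M) ∈ (Ideal.span {a}) • (⊤ : Submodule A M) := by
  rw [mem_span_smul_top_iff_exists, mem_span_smul_top_iff_exists]
  constructor
  · rintro ⟨w, rfl⟩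
    exact ⟨(w : M), rfl⟩
  · rintro ⟨w, hw⟩
    have hwL : w ∈ L := hL a w ha (by rw [hw]; exact v.2)
    exact ⟨⟨w, hwL⟩, Subtype.ext hw⟩

section DVR

variable [IsDiscreteValuationRing A]

/-- **(T11)(b), DVR form**: congruences modulo `𝔪 ^ n` restrict to saturated submodules. -/
theorem mem_maximalIdeal_pow_smul_top_iff (L : Submodule A M) (hL : IsSaturated L) (n : ℕ)
    (v : L) :
    v ∈ (IsLocalRing.maximalIdeal A ^ n) • (⊤ : Submodule A L) ↔
      (v : M) ∈ (IsLocalRing.maximalIdeal A ^ n) • (⊤ : Submodule A M) := by
  obtain ⟨ϖ, hϖ⟩ := IsDiscreteValuationRing.exists_irreducible A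
  have hm : IsLocalRing.maximalIdeal A = Ideal.span {ϖ} := hϖ.maximalIdeal_eq
  rw [hm, Ideal.span_singleton_pow]
  exact mem_span_smul_top_iff L hL (pow_ne_zero n hϖ.ne_zero) v

end DVR

section PID

variable [IsPrincipalIdealRing A] [Module.Free A M] [Module.Finite A M]

/-- **(T11)(a)**: submodules of a finite free module over a PID are finite and free. -/
theorem free_finite (L : Submodule A M) : Module.Free A L ∧ Module.Finite A L :=
  ⟨inferInstance, inferInstance⟩

end PID

end Fermat.Agent.ES.J.SatLattice8
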