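/-
Program J (S30), helper8: **adapter for (K2)** — `S30Glue8.TateComparison p N` from a Hecke-equivariant
`ℤ_[p]`-linear equivalence `e : T_p J₀(N) ≃ Hom_par(Γ₀(N), ℤ_[p])` (the output of
`TateChar11.KummerSystem.tateEquiv` + `tateEquiv_map`).

* `isBaseChange_castPar` : `castPar Γ R : Par ℤ ℤ → Par R R` is a base change `ℤ → R`
  (`Γ` finitely generated, `R` a commutative ring with torsion-free additive group);
* `tateComparison_of_equiv`.
-/
import Mathlib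
import Fermat.Agent.ES.J.S30Glue8
import Fermat.Agent.ES.HEQ.ParLattice11
import Fermat.Agent.ES.HEQ.DoubleCosetPar27
import Fermat.Agent.ES.J.TateChar11

set_option autoImplicit false
set_option linter.unusedSectionVars false
set_option synthInstance.maxHeartbeats 400000

open TensorProduct AlgebraicCurve ModularCurve ModularCurve.Period CongruenceSubgroup
open scoped MatrixGroups

noncomputable section

namespace Fermat.Agent.ES.J.TateCompare8

open Fermat.Agent.ES.J.S30Glue8 Fermat.Agent.ES.J.TateJZero13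
  Fermat.Agent.ES.HEQ.FaithInst26 Fermat.Agent.ES.HEQ.FaithFinal26
  Fermat.Agent.ES.HEQ.ParLattice11 Fermat.Agent.ES.HEQ.DoubleCoset27
  Fermat.Agent.ES.HEQ.DoubleCosetPar27

/-- `castPar Γ R` is a base change. -/
theorem isBaseChange_castPar {Γ : Subgroup SL(2, ℤ)} (hΓ : Γ.FG) (R : Type*) [CommRing R]
    [IsAddTorsionFree R] : IsBaseChange R (castPar Γ R) := by
  let b := lamBasis hΓ
  let b' := parBasis R hΓ
  let e : R ⊗[ℤ] ↥(parabolicHoms ℤ Γ ℤ) ≃ₗ[R] ↥(parabolicHoms R Γ R) :=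
    (b.baseChange R).equiv b' (Equiv.refl _)
  refine IsBaseChange.of_equiv e fun x => ?_
  have h : (e.toLinearMap.restrictScalars ℤ).comp
      ((TensorProduct.mk ℤ R ↥(parabolicHoms ℤ Γ ℤ) 1)) = castPar Γ R := by
    refine b.ext fun i => ?_
    show e ((1 : R) ⊗ₜ[ℤ] b i) = castPar Γ R (b i)
    rw [← Module.Basis.baseChange_apply, Module.Basis.equiv_apply, Equiv.refl_apply,
      parBasis_apply, lamBasis_apply]
  exact LinearMap.congr_fun h x

variable {p : ℕ} [Fact p.Prime] {N : ℕ} [NeZero N]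

/-- **(K2) from a Hecke-equivariant equivalence `T_p J₀(N) ≃ Hom_par(Γ₀(N), ℤ_[p])`.** -/
theorem tateComparison_of_equiv
    (e : TJ p N ≃ₗ[ℤ_[p]] ↥(parabolicHoms ℤ_[p] (Gamma0 N) ℤ_[p]))
    (he : ∀ (ℓ : ℕ) [hℓ : Fact ℓ.Prime] (hℓN : ¬ ℓ ∣ N) (x : TJ p N),
      ((e (tT p N ⟨ℓ, hℓ.out⟩ x) : ↥(parabolicHoms ℤ_[p] (Gamma0 N) ℤ_[p])) :
          Additive (Gamma0 N) →+ ℤ_[p]) =
        tdcAdd hℓN ((e x : ↥(parabolicHoms ℤ_[p] (Gamma0 N) ℤ_[p])) :
          Additive (Gamma0 N) →+ ℤ_[p])) :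
    TateComparison p N := by
  have hΓ : (Gamma0 N).FG := fg_Gamma0 N
  refine ⟨(e.symm.toLinearMap.restrictScalars ℤ).comp (castPar (Gamma0 N) ℤ_[p]), ?_, ?_⟩
  · exact (isBaseChange_castPar hΓ ℤ_[p]).comp (IsBaseChange.ofEquiv e.symm)
  · intro ℓ hℓ hℓN x
    have : Fact ℓ.Prime := ⟨hℓ⟩
    show tT p N ⟨ℓ, hℓ⟩ (e.symm (castPar (Gamma0 N) ℤ_[p] x)) =
      e.symm (castPar (Gamma0 N) ℤ_[p] (dcZ N ℓ hℓ hℓN x))
    apply e.injective
    rw [LinearEquiv.apply_symm_apply]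
    apply Subtype.ext
    rw [he ℓ hℓN, LinearEquiv.apply_symm_apply, dcZ_eq N ℓ hℓ hℓN]
    show tdcAdd hℓN ((Int.castAddHom ℤ_[p]).comp (x : Additive (Gamma0 N) →+ ℤ)) =
      (Int.castAddHom ℤ_[p]).comp (tdcAdd hℓN (x : Additive (Gamma0 N) →+ ℤ))
    exact tdcAdd_comp hℓN (Int.castAddHom ℤ_[p]) _

open Fermat.Agent.ES.J.TateChar11 in
/-- **(K2) from a Hecke-equivariant Kummer system** (the contract of `TateChar11`). -/
theorem tateComparison_of_kummerSystem (KS : KummerSystem p (Gamma0 N) (JZero N))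
    (hf : ∀ (ℓ : ℕ) [hℓ : Fact ℓ.Prime] (hℓN : ¬ ℓ ∣ N) (k : ℕ)
      (x : ↥(tors (JZero N) (p ^ k)))
      (hfx : (heckeOperatorBar N ⟨ℓ, hℓ.out⟩).toAddMonoidHom (x : JZero N) ∈
        tors (JZero N) (p ^ k)),
      KS.κ k ⟨(heckeOperatorBar N ⟨ℓ, hℓ.out⟩).toAddMonoidHom (x : JZero N), hfx⟩ =
        tdcX hℓN (KS.κ k x)) :
    TateComparison p N :=
  tateComparison_of_equiv KS.tateEquiv fun ℓ _ hℓN x =>
    KummerSystem.tateEquiv_map hℓN KS _ (hf ℓ hℓN) x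

end Fermat.Agent.ES.J.TateCompare8
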