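/-
Program J (S30), helper27: **levelwise maps induce maps of Tate modules**.

`J`, `J'` abelian groups, `A k ≤ J` a presentation of the `p^k`-torsion (`x ∈ A k ↔ p ^ k • x = 0`),
`κ k : A k →+ J'` additive maps compatible with multiplication by `p`
(`κ k (p • x) = p • κ (k+1) x` for `x ∈ A (k+1)`).  Then

* `levelMap : TateModule p J →ₗ[ℤ_[p]] TateModule p J'` with `proj k (levelMap x) = κ k ⟨proj k x, _⟩`;
* `levelMap_injective`, `levelMap_surjective`, `levelEquiv` when every `κ k` is a bijection onto the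
  `p^k`-torsion of `J'`;
* `levelMap_map` : transfer of endomorphisms (`κ k (f x) = f' (κ k x)` at every level gives
  `levelMap ∘ map f = map f' ∘ levelMap`).

Intended use: `J = J₀(N)(ℚ̄)`, `J' =` Kummer characters, `κ k =` the Kummer isomorphisms of level `p^k`,
`f = T_ℓ`, `f' =` the double coset operator.
-/
import Mathlib
import Fermat.Agent.ES.J.TateModule13

set_option autoImplicit false
set_option linter.unusedSectionVars false

noncomputable section

namespace Fermat.Agent.ES.J.TateLevel27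

open Fermat.Agent.ES.J.TateModule13

variable {p : ℕ} [hp : Fact p.Prime] {J J' : Type*} [AddCommGroup J] [AddCommGroup J']

/-- A system of levelwise additive maps on the `p`-power torsion of `J`, compatible with
multiplication by `p`. -/
structure LevelSystem (p : ℕ) (J J' : Type*) [AddCommGroup J] [AddCommGroup J'] where
  /-- a presentation of the `p^k`-torsion. -/
  A : ℕ → AddSubgroup J
  mem_A : ∀ (k : ℕ) (x : J), x ∈ A k ↔ p ^ k • x = 0
  /-- the maps. -/
  κ : ∀ k : ℕ, ↥(A k) →+ J'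
  κ_p_smul : ∀ (k : ℕ) (x : ↥(A (k + 1))) (h : p • (x : J) ∈ A k),
    κ k ⟨p • (x : J), h⟩ = p • κ (k + 1) x

namespace LevelSystem

variable (L : LevelSystem p J J')

theorem p_smul_mem (k : ℕ) (x : ↥(L.A (k + 1))) : p • (x : J) ∈ L.A k := by
  rw [L.mem_A, ← mul_smul, ← pow_succ]
  exact (L.mem_A (k + 1) x).mp x.2

theorem proj_mem (k : ℕ) (x : TateModule p J) : proj k x ∈ L.A k :=
  (L.mem_A k _).mpr (pow_smul_proj k x)

/-- the component of a Tate vector at level `k`, as an element of `A k`. -/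
def comp (k : ℕ) (x : TateModule p J) : ↥(L.A k) := ⟨proj k x, L.proj_mem k x⟩

@[simp] theorem coe_comp (k : ℕ) (x : TateModule p J) : ((L.comp k x : ↥(L.A k)) : J) = proj k x :=
  rfl

theorem comp_add (k : ℕ) (x y : TateModule p J) : L.comp k (x + y) = L.comp k x + L.comp k y :=
  Subtype.ext (map_add (proj k) x y)

theorem comp_smul (k : ℕ) (a : ℤ_[p]) (x : TateModule p J) :
    L.comp k (a • x) = cf p a k • L.comp k x :=
  Subtype.ext (by
    rw [coe_comp, proj_smul, AddSubgroup.coe_nsmul, coe_comp])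

theorem comp_zero_eq (x : TateModule p J) : L.comp 0 x = 0 :=
  Subtype.ext x.zero_apply'

theorem comp_succ (k : ℕ) (x : TateModule p J) :
    (⟨p • ((L.comp (k + 1) x : ↥(L.A (k + 1))) : J), L.p_smul_mem k _⟩ : ↥(L.A k)) = L.comp k x :=
  Subtype.ext (proj_succ k x)

/-- **the induced map of Tate modules.** -/
def levelMap : TateModule p J →ₗ[ℤ_[p]] TateModule p J' where
  toFun x := ⟨fun k => L.κ k (L.comp k x), by
    refine ⟨?_, fun k => ?_⟩
    · show L.κ 0 (L.comp 0 x) = 0
      rw [comp_zero_eq, map_zero]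
    · show p • L.κ (k + 1) (L.comp (k + 1) x) = L.κ k (L.comp k x)
      rw [← L.κ_p_smul k (L.comp (k + 1) x) (L.p_smul_mem k _), comp_succ]⟩
  map_add' x y := by
    ext k
    show L.κ k (L.comp k (x + y)) = L.κ k (L.comp k x) + L.κ k (L.comp k y)
    rw [comp_add, map_add]
  map_smul' a x := by
    ext k
    show L.κ k (L.comp k (a • x)) = cf p a k • L.κ k (L.comp k x)
    rw [comp_smul, map_nsmul]

theorem levelMap_apply (x : TateModule p J) (k : ℕ) :
    ((L.levelMap x : TateModule p J') : ℕ → J') k = L.κ k (L.comp k x) := rfl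

theorem proj_levelMap (x : TateModule p J) (k : ℕ) :
    proj k (L.levelMap x) = L.κ k (L.comp k x) := rfl

/-- injectivity. -/
theorem levelMap_injective (hinj : ∀ k, Function.Injective (L.κ k)) :
    Function.Injective L.levelMap := by
  rw [← LinearMap.ker_eq_bot, LinearMap.ker_eq_bot']
  intro x hx
  ext k
  have h1 : L.κ k (L.comp k x) = 0 := by
    rw [← proj_levelMap, hx]
    rfl
  have h2 : L.comp k x = 0 := hinj k (by rw [h1, map_zero])
  exact congrArg Subtype.val h2

/-- surjectivity. -/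
theorem levelMap_surjective (hinj : ∀ k, Function.Injective (L.κ k))
    (hsurj : ∀ (k : ℕ) (y : J'), p ^ k • y = 0 → ∃ x : ↥(L.A k), L.κ k x = y) :
    Function.Surjective L.levelMap := by
  intro y
  choose ξ hξ using fun k => hsurj k (proj k y) (pow_smul_proj k y)
  have h0 : ((ξ 0 : ↥(L.A 0)) : J) = 0 := by
    have := (L.mem_A 0 (ξ 0 : J)).mp (ξ 0).2
    rwa [pow_zero, one_smul] at this
  have hs : ∀ k, p • ((ξ (k + 1) : ↥(L.A (k + 1))) : J) = ((ξ k : ↥(L.A k)) : J) := by
    intro k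
    have h1 : L.κ k ⟨p • ((ξ (k + 1) : ↥(L.A (k + 1))) : J), L.p_smul_mem k _⟩ = L.κ k (ξ k) := by
      rw [L.κ_p_smul k (ξ (k + 1)), hξ (k + 1), hξ k, proj_succ]
    exact congrArg Subtype.val (hinj k h1)
  let x : TateModule p J := ⟨fun k => ((ξ k : ↥(L.A k)) : J), h0, hs⟩
  refine ⟨x, ?_⟩
  ext k
  show L.κ k (L.comp k x) = (y : ℕ → J') k
  have : L.comp k x = ξ k := Subtype.ext rfl
  rw [this, hξ k]
  rfl

/-- **the induced isomorphism of Tate modules.** -/
def levelEquiv (hinj : ∀ k, Function.Injective (L.κ k))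
    (hsurj : ∀ (k : ℕ) (y : J'), p ^ k • y = 0 → ∃ x : ↥(L.A k), L.κ k x = y) :
    TateModule p J ≃ₗ[ℤ_[p]] TateModule p J' :=
  LinearEquiv.ofBijective L.levelMap ⟨L.levelMap_injective hinj, L.levelMap_surjective hinj hsurj⟩

@[simp] theorem levelEquiv_apply (hinj : ∀ k, Function.Injective (L.κ k))
    (hsurj : ∀ (k : ℕ) (y : J'), p ^ k • y = 0 → ∃ x : ↥(L.A k), L.κ k x = y)
    (x : TateModule p J) : L.levelEquiv hinj hsurj x = L.levelMap x := rfl

theorem proj_levelEquiv (hinj : ∀ k, Function.Injective (L.κ k))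
    (hsurj : ∀ (k : ℕ) (y : J'), p ^ k • y = 0 → ∃ x : ↥(L.A k), L.κ k x = y)
    (x : TateModule p J) (k : ℕ) :
    proj k (L.levelEquiv hinj hsurj x) = L.κ k (L.comp k x) := rfl

/-- **transfer of endomorphisms**: if `κ k (f x) = f' (κ k x)` at every level then
`levelMap ∘ map f = map f' ∘ levelMap`. -/
theorem levelMap_map (f : J →+ J) (f' : J' →+ J')
    (h : ∀ (k : ℕ) (x : ↥(L.A k)) (hx : f (x : J) ∈ L.A k),
      L.κ k ⟨f (x : J), hx⟩ = f' (L.κ k x)) (x : TateModule p J) :
    L.levelMap (map f x) = map f' (L.levelMap x) := by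
  ext k
  show L.κ k (L.comp k (map f x)) = f' (L.κ k (L.comp k x))
  rw [← h k (L.comp k x) (by
    rw [L.mem_A, ← map_nsmul, coe_comp, pow_smul_proj, map_zero])]
  rfl

/-- `f` preserves the `p^k`-torsion. -/
theorem map_mem (f : J →+ J) (k : ℕ) (x : ↥(L.A k)) : f (x : J) ∈ L.A k := by
  rw [L.mem_A, ← map_nsmul, (L.mem_A k x).mp x.2, map_zero]

/-- the same, as a commutation of endomorphisms through `levelEquiv`. -/
theorem levelEquiv_conj (hinj : ∀ k, Function.Injective (L.κ k))
    (hsurj : ∀ (k : ℕ) (y : J'), p ^ k • y = 0 → ∃ x : ↥(L.A k), L.κ k x = y)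
    (f : J →+ J) (f' : J' →+ J')
    (h : ∀ (k : ℕ) (x : ↥(L.A k)), L.κ k ⟨f (x : J), L.map_mem f k x⟩ = f' (L.κ k x))
    (y : TateModule p J') :
    L.levelEquiv hinj hsurj (map f ((L.levelEquiv hinj hsurj).symm y)) = map f' y := by
  rw [levelEquiv_apply, L.levelMap_map f f' (fun k x _ => h k x), ← levelEquiv_apply L hinj hsurj,
    LinearEquiv.apply_symm_apply]

end LevelSystem

/-- The standard presentation of the `p^k`-torsion. -/
def torsionPow (p : ℕ) (J : Type*) [AddCommGroup J] (k : ℕ) : AddSubgroup J :=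
  (nsmulAddMonoidHom (α := J) (p ^ k)).ker

theorem mem_torsionPow (k : ℕ) (x : J) : x ∈ torsionPow p J k ↔ p ^ k • x = 0 := by
  rw [torsionPow, AddMonoidHom.mem_ker]
  rfl

end Fermat.Agent.ES.J.TateLevel27
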