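/-
Program J (S30), chapter J6 (comparison glue), helper13: **level-wise maps induce maps of Tate
modules**.

* `map_injective`, `map_surjective`, `mapEquiv` : an additive map `f : J →+ J'` which is bijective on
  `p`-power torsion induces an isomorphism `TateModule p J ≃ₗ[ℤ_[p]] TateModule p J'`.
* `mapLevels f` : a family `f k : J → J'` which is additive on `J[pᵏ]` and compatible
  (`p • f (k+1) x = f k (p • x)` on `J[pᵏ⁺¹]`) induces `TateModule p J →ₗ[ℤ_[p]] TateModule p J'`
  with `proj k (mapLevels f x) = f k (proj k x)` (e.g. the Kummer maps `κ_{pᵏ}`, extended by anything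
  outside the torsion); `mapLevels_injective`, `mapLevels_surjective`, `equivLevels`.
* `mapLevels_map` : compatibility with endomorphisms (Hecke operators, Galois action).
-/
import Mathlib
import Fermat.Agent.ES.J.TateModule13

set_option autoImplicit false
set_option linter.unusedSectionVars false

noncomputable section

namespace Fermat.Agent.ES.J.TateLevels13

open Fermat.Agent.ES.J.TateModule13

variable {p : ℕ} [hp : Fact p.Prime] {J J' : Type*} [AddCommGroup J] [AddCommGroup J']

/-! ### honest additive maps -/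

theorem pow_smul_p_smul {k : ℕ} {y : J} (hy : p ^ (k + 1) • y = 0) : p ^ k • (p • y) = 0 := by
  rw [← mul_smul, ← pow_succ]
  exact hy

/-- `map f` is injective if `f` is injective on `p`-power torsion. -/
theorem map_injective (f : J →+ J')
    (hinj : ∀ (k : ℕ) (y : J), p ^ k • y = 0 → f y = 0 → y = 0) :
    Function.Injective (map f : TateModule p J → TateModule p J') := by
  rw [injective_iff_map_eq_zero]
  intro x hx
  ext k
  have h1 : proj k (map f x) = 0 := by rw [hx, map_zero]
  exact hinj k _ (pow_smul_proj k x) h1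

/-- `map f` is surjective if `f` is bijective on `p`-power torsion. -/
theorem map_surjective (f : J →+ J')
    (hinj : ∀ (k : ℕ) (y : J), p ^ k • y = 0 → f y = 0 → y = 0)
    (hsurj : ∀ (k : ℕ) (y' : J'), p ^ k • y' = 0 → ∃ y : J, p ^ k • y = 0 ∧ f y = y') :
    Function.Surjective (map f : TateModule p J → TateModule p J') := by
  intro x'
  choose y hy0 hy using fun k => hsurj k (proj k x') (pow_smul_proj k x')
  refine ⟨⟨y, ?_, fun k => ?_⟩, ?_⟩
  · have := hy0 0
    rwa [pow_zero, one_smul] at this
  · rw [← sub_eq_zero]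
    refine hinj k _ ?_ ?_
    · rw [smul_sub, pow_smul_p_smul (hy0 (k + 1)), hy0 k, sub_zero]
    · rw [map_sub, map_nsmul, hy (k + 1), hy k, proj_succ, sub_self]
  · ext k
    exact hy k

/-- the isomorphism of Tate modules induced by a map which is bijective on `p`-power torsion. -/
def mapEquiv (f : J →+ J')
    (hinj : ∀ (k : ℕ) (y : J), p ^ k • y = 0 → f y = 0 → y = 0)
    (hsurj : ∀ (k : ℕ) (y' : J'), p ^ k • y' = 0 → ∃ y : J, p ^ k • y = 0 ∧ f y = y') :
    TateModule p J ≃ₗ[ℤ_[p]] TateModule p J' :=
  LinearEquiv.ofBijective (map f) ⟨map_injective f hinj, map_surjective f hinj hsurj⟩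

theorem mapEquiv_apply (f : J →+ J') (hinj) (hsurj) (x : TateModule p J) :
    mapEquiv f hinj hsurj x = map f x := rfl

/-! ### level-wise maps -/

section Levels

variable (f : ℕ → J → J')
  (hadd : ∀ (k : ℕ) (x y : J), p ^ k • x = 0 → p ^ k • y = 0 → f k (x + y) = f k x + f k y)
  (hcompat : ∀ (k : ℕ) (x : J), p ^ (k + 1) • x = 0 → p • f (k + 1) x = f k (p • x))

include hadd in
theorem level_zero (k : ℕ) : f k 0 = 0 := by
  have h := hadd k 0 0 (smul_zero _) (smul_zero _)
  rw [add_zero] at h
  exact left_eq_add.mp h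

include hadd in
theorem level_nsmul (k n : ℕ) {y : J} (hy : p ^ k • y = 0) : f k (n • y) = n • f k y := by
  induction n with
  | zero => rw [zero_smul, zero_smul]; exact level_zero f hadd k
  | succ n ih =>
    rw [succ_nsmul, succ_nsmul, hadd k _ _ ?_ hy, ih]
    rw [smul_comm, hy, smul_zero]

include hadd in
theorem level_sub (k : ℕ) {x y : J} (hx : p ^ k • x = 0) (hy : p ^ k • y = 0) :
    f k (x - y) = f k x - f k y := by
  have h := hadd k (x - y) y (by rw [smul_sub, hx, hy, sub_zero]) hy
  rw [sub_add_cancel] at h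
  rw [h, add_sub_cancel_right]

/-- **the map of Tate modules induced by a compatible family of level-wise maps.** -/
def mapLevels : TateModule p J →ₗ[ℤ_[p]] TateModule p J' where
  toFun x := ⟨fun k => f k ((x : ℕ → J) k), by
    refine ⟨?_, fun k => ?_⟩
    · show f 0 ((x : ℕ → J) 0) = 0
      rw [x.zero_apply']
      exact level_zero f hadd 0
    · show p • f (k + 1) ((x : ℕ → J) (k + 1)) = f k ((x : ℕ → J) k)
      rw [hcompat k _ (x.pow_smul_apply (k + 1)), x.p_smul_succ]⟩
  map_add' x y := by
    ext k
    exact hadd k _ _ (x.pow_smul_apply k) (y.pow_smul_apply k)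
  map_smul' a x := by
    ext k
    exact level_nsmul f hadd k (cf p a k) (x.pow_smul_apply k)

theorem proj_mapLevels (x : TateModule p J) (k : ℕ) :
    proj k (mapLevels f hadd hcompat x) = f k (proj k x) := rfl

include hadd in
theorem level_injOn (hinj : ∀ (k : ℕ) (y : J), p ^ k • y = 0 → f k y = 0 → y = 0) (k : ℕ)
    {x y : J} (hx : p ^ k • x = 0) (hy : p ^ k • y = 0) (h : f k x = f k y) : x = y := by
  rw [← sub_eq_zero]
  refine hinj k _ (by rw [smul_sub, hx, hy, sub_zero]) ?_
  rw [level_sub f hadd k hx hy, h, sub_self]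

theorem mapLevels_injective
    (hinj : ∀ (k : ℕ) (y : J), p ^ k • y = 0 → f k y = 0 → y = 0) :
    Function.Injective (mapLevels f hadd hcompat) := by
  rw [injective_iff_map_eq_zero]
  intro x hx
  ext k
  have h1 : proj k (mapLevels f hadd hcompat x) = 0 := by rw [hx, map_zero]
  exact hinj k _ (pow_smul_proj k x) h1

theorem mapLevels_surjective
    (hinj : ∀ (k : ℕ) (y : J), p ^ k • y = 0 → f k y = 0 → y = 0)
    (hsurj : ∀ (k : ℕ) (y' : J'), p ^ k • y' = 0 → ∃ y : J, p ^ k • y = 0 ∧ f k y = y') :
    Function.Surjective (mapLevels f hadd hcompat) := by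
  intro x'
  choose y hy0 hy using fun k => hsurj k (proj k x') (pow_smul_proj k x')
  refine ⟨⟨y, ?_, fun k => ?_⟩, ?_⟩
  · have := hy0 0
    rwa [pow_zero, one_smul] at this
  · refine level_injOn f hadd hinj k (pow_smul_p_smul (hy0 (k + 1))) (hy0 k) ?_
    rw [← hcompat k _ (hy0 (k + 1)), hy (k + 1), hy k, proj_succ]
  · ext k
    exact hy k

/-- **the isomorphism of Tate modules induced by level-wise isomorphisms.** -/
def equivLevels
    (hinj : ∀ (k : ℕ) (y : J), p ^ k • y = 0 → f k y = 0 → y = 0)
    (hsurj : ∀ (k : ℕ) (y' : J'), p ^ k • y' = 0 → ∃ y : J, p ^ k • y = 0 ∧ f k y = y') :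
    TateModule p J ≃ₗ[ℤ_[p]] TateModule p J' :=
  LinearEquiv.ofBijective (mapLevels f hadd hcompat)
    ⟨mapLevels_injective f hadd hcompat hinj, mapLevels_surjective f hadd hcompat hinj hsurj⟩

theorem equivLevels_apply (hinj) (hsurj) (x : TateModule p J) :
    equivLevels f hadd hcompat hinj hsurj x = mapLevels f hadd hcompat x := rfl

theorem proj_equivLevels (hinj) (hsurj) (x : TateModule p J) (k : ℕ) :
    proj k (equivLevels f hadd hcompat hinj hsurj x) = f k (proj k x) := rfl

/-- **compatibility with endomorphisms** (Hecke operators, Galois action): if the level maps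
intertwine `t` and `t'` on torsion, so does `mapLevels`. -/
theorem mapLevels_map (t : J →+ J) (t' : J' →+ J')
    (h : ∀ (k : ℕ) (x : J), p ^ k • x = 0 → f k (t x) = t' (f k x)) (x : TateModule p J) :
    mapLevels f hadd hcompat (map t x) = map t' (mapLevels f hadd hcompat x) := by
  ext k
  exact h k _ (x.pow_smul_apply k)

end Levels

/-- compatibility of `map` with endomorphisms. -/
theorem map_map_comm (f : J →+ J') (t : J →+ J) (t' : J' →+ J')
    (h : ∀ (k : ℕ) (x : J), p ^ k • x = 0 → f (t x) = t' (f x)) (x : TateModule p J) :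
    map f (map t x) = map t' (map f x) := by
  ext k
  exact h k _ (x.pow_smul_apply k)

end Fermat.Agent.ES.J.TateLevels13
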